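import Fermat.Agent.EC.MultInertia
import Fermat.Agent.EC.ResRep
import Fermat.Agent.ECFrob.DetCyc
import Fermat.Agent.GalRep.Cyclo

/-!
# Inertia at `q ≠ p` acts unipotently on `E[p]` for a semistable curve
-/

set_option autoImplicit false

noncomputable section

open WeierstrassCurve WeierstrassCurve.Affine WeierstrassCurve.Affine.Point
  FermatAgent.ECVal Fermat.Agent.ECRed Fermat.Agent.ECFrob Fermat.Agent.Tate
  Fermat.Agent.Torsion
open scoped WeierstrassCurve.Affine

namespace Fermat.Agent.TriLow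

/-- Two endomorphisms of a plane with a common fixed vector and determinant one. -/
theorem mul_sub_one_eq_zero {k V : Type*} [Field k] [AddCommGroup V] [Module k V]
    (h2 : Module.finrank k V = 2) {X Y : Module.End k V} {v : V} (hv : v ≠ 0)
    (hX : X v = v) (hY : Y v = v) (hdY : LinearMap.det Y = 1) :
    (X - 1) * (Y - 1) = 0 := by
  have hfd : FiniteDimensional k V := Module.finite_of_finrank_pos (by omega)
  -- a basis starting with `v`
  obtain ⟨w, hw⟩ : ∃ w : V, LinearIndependent k ![v, w] := by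
    by_contra hcon
    push Not at hcon
    have h1 : Module.finrank k V ≤ 1 := by
      apply finrank_le_one v
      intro w
      have h3 := hcon w
      rw [LinearIndependent.pair_iff] at h3
      push Not at h3
      obtain ⟨s, t, h4, h5⟩ := h3
      have ht : t ≠ 0 := by
        rintro rfl
        rw [zero_smul, add_zero, smul_eq_zero] at h4
        exact h5 (h4.resolve_right hv) rfl
      refine ⟨-(t⁻¹ * s), ?_⟩
      have h6 : w = t⁻¹ • (t • w) := by rw [smul_smul, inv_mul_cancel₀ ht, one_smul]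
      rw [h6, eq_neg_of_add_eq_zero_right h4, smul_neg, smul_smul, neg_smul]
    omega
  have hcard : Fintype.card (Fin 2) = Module.finrank k V := by rw [h2]; rfl
  let b := basisOfLinearIndependentOfCardEqFinrank hw hcard
  have hb : ⇑b = ![v, w] := coe_basisOfLinearIndependentOfCardEqFinrank hw hcard
  have hb0 : b 0 = v := by rw [hb]; rfl
  have key : ∀ Z : Module.End k V, Z v = v → LinearMap.det Z = 1 →
      ∃ c : k, (Z - 1) (b 1) = c • v := by
    intro Z hZ hdZ
    have h00 : LinearMap.toMatrix b b Z 0 0 = 1 := by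
      rw [LinearMap.toMatrix_apply, hb0, hZ, ← hb0, Module.Basis.repr_self]
      simp
    have h10 : LinearMap.toMatrix b b Z 1 0 = 0 := by
      rw [LinearMap.toMatrix_apply, hb0, hZ, ← hb0, Module.Basis.repr_self]
      simp
    have hdet := LinearMap.det_toMatrix b Z
    rw [Matrix.det_fin_two, h00, h10, hdZ, one_mul, mul_zero, sub_zero] at hdet
    have h11 : b.repr (Z (b 1)) 1 = 1 := by
      rw [← LinearMap.toMatrix_apply b b Z 1 1]; exact hdet
    refine ⟨b.repr (Z (b 1)) 0, ?_⟩
    have h3 := b.sum_repr (Z (b 1))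
    rw [Fin.sum_univ_two, h11, hb0, one_smul] at h3
    rw [LinearMap.sub_apply, Module.End.one_apply]
    exact sub_eq_of_eq_add h3.symm
  apply b.ext
  intro i
  fin_cases i
  · change (X - 1) ((Y - 1) (b 0)) = 0
    rw [hb0, LinearMap.sub_apply Y 1, Module.End.one_apply, hY, sub_self, _root_.map_zero]
  · change (X - 1) ((Y - 1) (b 1)) = 0
    obtain ⟨c, hc⟩ := key Y hY hdY
    rw [hc, map_smul, LinearMap.sub_apply, Module.End.one_apply, hX, sub_self, smul_zero]

variable {W : WeierstrassCurve ℤ} {p : ℕ} [hp : Fact p.Prime] {q : ℕ}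

theorem cycMod_inertia (hq : q.Prime) (hne : q ≠ p)
    {A : ValuationSubring (AlgebraicClosure ℚ)} (hA : A.LiesOverPrime q)
    {σ : AlgebraicClosure ℚ ≃ₐ[ℚ] AlgebraicClosure ℚ} (hσ : σ ∈ A.inertiaSubgroupIn ℚ) :
    cycMod p σ = 1 := by
  obtain ⟨ζ, hζ⟩ := exists_primitiveRoot p
  have h := cycMod_unique hζ (c := 1) (σ := σ) (by
    rw [pow_one]
    exact GalRep.inertia_fix_rootOfUnity hA ((Nat.coprime_primes hq hp.out).mpr hne)
      hp.out.ne_zero hσ hζ.pow_eq_one)
  rw [h, Nat.cast_one]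

/-- **Inertia at `q ≠ p` acts unipotently on `E[p]`.** -/
theorem rho_inertia_mul (hΔ : W.Δ ≠ 0) (hss : W.IsSemistableModel) (hp2 : p ≠ 2) (hq : q.Prime)
    (hne : q ≠ p) {A : ValuationSubring (AlgebraicClosure ℚ)} (hA : A.LiesOverPrime q)
    {σ τ : AlgebraicClosure ℚ ≃ₐ[ℚ] AlgebraicClosure ℚ} (hσ : σ ∈ A.inertiaSubgroupIn ℚ)
    (hτ : τ ∈ A.inertiaSubgroupIn ℚ) : (rho W p σ - 1) * (rho W p τ - 1) = 0 := by
  classical
  have : Fact q.Prime := ⟨hq⟩
  by_cases hgood : W.IsGoodPrimeFor q
  · rw [rho_inertia hgood hA hσ (fun h => hne ((Nat.prime_dvd_prime_iff_eq hq hp.out).mp h)),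
      sub_self, zero_mul]
  · have hW := isMultAt_of_semistable hss hΔ hq (not_not.mp hgood)
    have h1 := pow_le_card_E0tors hW hA hp2 1
    rw [pow_one] at h1
    have hfin := finite_torsionBy_EQ hΔ hp.out.ne_zero
    have h2 : 1 < Nat.card (E0tors W A p) := lt_of_lt_of_le hp.out.one_lt h1
    have hfin' : Finite (E0tors W A p) := Subtype.finite
    rw [Finite.one_lt_card_iff_nontrivial] at h2
    obtain ⟨⟨v, hvm⟩, hv⟩ := exists_ne (0 : E0tors W A p)
    have hv0 : v ≠ 0 := fun h => hv (Subtype.ext h)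
    have hfix : ∀ g ∈ A.inertiaSubgroupIn ℚ, rho W p g v = v := by
      intro g hg
      obtain ⟨Q, hQ⟩ := mem_E0tors.mp hvm
      have hpv : p • (v : (EQ W).Point) = 0 := mem_torsionBy_nat.mp v.2
      apply Subtype.ext
      exact smul_eq_of_torsion_of_mem_E0 (W' := W.map (Int.castRingHom ℚ)) hg
        (by have := val_prime_eq_one p hp.out hq hne hA 1; rwa [pow_one] at this)
        (redEk W A) hQ hpv
    have hdet : ∀ g ∈ A.inertiaSubgroupIn ℚ, LinearMap.det (rho W p g) = 1 := fun g hg => by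
      rw [det_rho hΔ g, cycMod_inertia hq hne hA hg]
    exact mul_sub_one_eq_zero (finrank_rat hΔ) hv0 (hfix σ hσ) (hfix τ hτ) (hdet τ hτ)

end Fermat.Agent.TriLow
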