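import Fermat.Agent.TriLow.UpperG
import Fermat.Agent.TriComp.Main
import Fermat.Agent.S36.AbsMain

/-!
# Divisibility of the reductions of a function with divisor divisible by `n`

The function `φ` is a unit at the three valuations and `div φ = n Dv`; then all the orders of its
three reductions are divisible by `n`.
-/

set_option autoImplicit false

open Module Polynomial AlgebraicCurve
open scoped IntermediateField

namespace Fermat.Agent.TriLow

open Fermat.Agent.TwoComp Fermat.Agent.S36norm Fermat.Agent.TriComp Fermat.Agent.TriComp.Data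
  Fermat.Agent.RR Fermat.Agent.FF Fermat.Agent.QX

variable {K F k E F' : Type*} [Field K] [Field F] [Algebra K F] [Field k] [CommRing E]
    [Algebra k E] [Field F'] [Algebra k F'] {q : ℕ}

section

variable (D : Data K F k E F' q) [IsFF k F']

/-- the numerators of the divisors of the pieces. -/
noncomputable def Nu (n : ℕ) (φ : F) (s r : ℕ) : Divisor k F' :=
  if s + 1 < q then
    (n : ℤ) • ((2 * s : ℤ) • (RR.div D.Qt : Divisor k F') + (2 * s + 12 * r : ℤ) • RR.pole D.jt) -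
      (12 : ℤ) • RR.div ((D.v 1).red φ)
  else if s + 1 = q then
    (n : ℤ) • ((-(q - 1 : ℤ)) • (RR.div D.ut : Divisor k F') +
      (12 * r - (q - 1 : ℤ) ^ 2) • RR.pole D.jt) - (12 : ℤ) • RR.div ((D.v 0).red φ)
  else
    (n : ℤ) • ((-(q : ℤ)) • (RR.div D.ut : Divisor k F') +
      (12 * r * q ^ 2 - (q : ℤ) * (q - 1)) • RR.pole D.jt) - (12 : ℤ) • RR.div ((D.v 2).red φ)

lemma Nu_lt (n : ℕ) (φ : F) {s : ℕ} (r : ℕ) (hs : s + 1 < q) (P : Place k F') :
    Nu D n φ s r P = n * (2 * s * P.ord D.Qt + (2 * s + 12 * r) * max (-P.ord D.jt) 0) -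
      12 * P.ord ((D.v 1).red φ) := by
  rw [Nu, if_pos hs]
  simp only [Finsupp.sub_apply, Finsupp.smul_apply, Finsupp.add_apply, div_apply, pole_apply,
    smul_eq_mul]

lemma Nu_eq (n : ℕ) (φ : F) {s : ℕ} (r : ℕ) (hs : s + 1 = q) (P : Place k F') :
    Nu D n φ s r P = n * ((-(q - 1 : ℤ)) * P.ord D.ut +
      (12 * r - (q - 1 : ℤ) ^ 2) * max (-P.ord D.jt) 0) - 12 * P.ord ((D.v 0).red φ) := by
  rw [Nu, if_neg (by omega), if_pos hs]
  simp only [Finsupp.sub_apply, Finsupp.smul_apply, Finsupp.add_apply, div_apply, pole_apply,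
    smul_eq_mul]

lemma Nu_gt (n : ℕ) (φ : F) {s : ℕ} (r : ℕ) (hs : s = q) (P : Place k F') :
    Nu D n φ s r P = n * ((-(q : ℤ)) * P.ord D.ut +
      (12 * r * q ^ 2 - (q : ℤ) * (q - 1)) * max (-P.ord D.jt) 0) -
        12 * P.ord ((D.v 2).red φ) := by
  rw [Nu, if_neg (by omega), if_neg (by omega)]
  simp only [Finsupp.sub_apply, Finsupp.smul_apply, Finsupp.add_apply, div_apply, pole_apply,
    smul_eq_mul]

/-- the coefficient of `ψ` in the degree of the numerator. -/
def cf (q s r : ℕ) : ℤ :=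
  if s + 1 < q then 2 * s + 12 * r
  else if s + 1 = q then 12 * r - (q - 1 : ℤ) ^ 2
  else 12 * r * q ^ 2 - (q : ℤ) * (q - 1)

lemma degree_Nu (n : ℕ) (φ : F) (s r : ℕ) :
    Divisor.degree (Nu D n φ s r) = n * (cf q s r * D.ψ) := by
  unfold Nu cf
  split_ifs
  · rw [map_sub, map_zsmul, map_add, map_zsmul, map_zsmul, map_zsmul, degree_div, degree_div,
      D.degree_pole]
    simp
  · rw [map_sub, map_zsmul, map_add, map_zsmul, map_zsmul, map_zsmul, degree_div, degree_div,
      D.degree_pole]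
    simp
  · rw [map_sub, map_zsmul, map_add, map_zsmul, map_zsmul, map_zsmul, degree_div, degree_div,
      D.degree_pole]
    simp

omit [IsFF k F'] in
include D in
lemma sum_cf (r : ℕ) :
    ∑ s ∈ Finset.range (q + 1), cf q s r = 12 * r * (q + q ^ 2) - ((q : ℤ) ^ 2 - 1) := by
  have hq := D.q_two_le
  obtain ⟨p, rfl⟩ : ∃ p, q = p + 1 := ⟨q - 1, by omega⟩
  rw [Finset.sum_range_succ, Finset.sum_range_succ]
  have h1 : ∑ s ∈ Finset.range p, cf (p + 1) s r = ∑ s ∈ Finset.range p, (2 * s + 12 * r : ℤ) := by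
    refine Finset.sum_congr rfl fun s hs => ?_
    have := Finset.mem_range.1 hs
    rw [cf, if_pos (by omega)]
  have h2 : cf (p + 1) p r = 12 * r - (p : ℤ) ^ 2 := by
    rw [cf, if_neg (by omega), if_pos rfl]
    push_cast; ring
  have h3 : cf (p + 1) (p + 1) r = 12 * r * ((p : ℤ) + 1) ^ 2 - ((p : ℤ) + 1) * p := by
    rw [cf, if_neg (by omega), if_neg (by omega)]
    push_cast; ring
  have h4 : 2 * ∑ s ∈ Finset.range p, (s : ℤ) = p * (p - 1) := by
    have h5 := Finset.sum_range_id_mul_two p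
    have hp : 1 ≤ p := by omega
    have h6 : ((∑ i ∈ Finset.range p, i : ℕ) : ℤ) * 2 = p * ((p : ℤ) - 1) := by
      rw [← Nat.cast_one, ← Nat.cast_sub hp]
      exact_mod_cast h5
    push_cast at h6
    linarith
  rw [h1, h2, h3, Finset.sum_add_distrib, ← Finset.mul_sum, h4, Finset.sum_const,
    Finset.card_range, nsmul_eq_mul]
  push_cast
  ring

/-- the divisors of the pieces. -/
noncomputable def DG (n : ℕ) (φ : F) (s r : ℕ) : Divisor k F' :=
  (Nu D n φ s r).mapRange (fun a => a / (12 * (n : ℤ))) (by simp)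

lemma DG_apply (n : ℕ) (φ : F) (s r : ℕ) (P : Place k F') :
    DG D n φ s r P = Nu D n φ s r P / (12 * (n : ℤ)) := by
  rw [DG, Finsupp.mapRange_apply]

lemma smul_DG_le {n : ℕ} (hn : n ≠ 0) (φ : F) (s r : ℕ) :
    (12 * (n : ℤ)) • DG D n φ s r ≤ Nu D n φ s r := by
  intro P
  rw [Finsupp.smul_apply, DG_apply, smul_eq_mul]
  have h : (0 : ℤ) < 12 * (n : ℤ) := by have := Nat.pos_of_ne_zero hn; positivity
  exact Int.mul_ediv_self_le h.ne'

/-- **Upper bound**: the graded pieces lie in the Riemann--Roch spaces. -/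
theorem G_mem_DG {n : ℕ} {φ : F} (T : TwU D n φ) {r s : ℕ} (hs : s ≤ q) {h : F}
    (hF : D.Fil s h) (ha : D.Adm n φ r h) : D.G s h ∈ riemannRochSpace (DG D n φ s r) := by
  intro P
  rw [P.adicValuation_le_exp_iff]
  by_cases hz : D.G s h = 0
  · exact Or.inl hz
  right
  have hn := T.n_ne_zero
  have hn12 : (0 : ℤ) < 12 * (n : ℤ) := by have := Nat.pos_of_ne_zero hn; positivity
  have hjt := D.jt_ne_zero
  have hQt : aeval D.jt D.Q ≠ 0 := D.Qt_ne_zero
  have hut : aeval D.jt D.Pu ≠ 0 := D.ut_ne_zero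
  rw [DG_apply]
  suffices hsuff : -P.ord (D.G s h) * (12 * (n : ℤ)) ≤ Nu D n φ s r P by
    have h3 : -P.ord (D.G s h) ≤ Nu D n φ s r P / (12 * (n : ℤ)) :=
      (Int.le_ediv_iff_mul_le hn12).2 hsuff
    omega
  have hfin : ∀ {w : F'}, 0 ≤ P.ord D.jt → IsIntegral (Algebra.adjoin k {D.jt}) w → w ≠ 0 →
      0 ≤ P.ord w := by
    intro w h0 hw hw0
    rw [← FF.mem_iff_ord_nonneg P hw0]
    exact ord_nonneg_of_isIntegral P ((FF.mem_iff_ord_nonneg P hjt).2 h0) hw
  have hinf : ∀ {w : F'}, P.ord D.jt < 0 → IsIntegral (Algebra.adjoin k {D.jt⁻¹}) w → w ≠ 0 →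
      0 ≤ P.ord w := by
    intro w h0 hw hw0
    rw [← FF.mem_iff_ord_nonneg P hw0]
    exact ord_nonneg_of_isIntegral P
      ((FF.mem_iff_ord_nonneg P (inv_ne_zero hjt)).2 (by rw [P.ord_inv]; omega)) hw
  rcases lt_trichotomy (s + 1) q with h1 | h1 | h1
  · obtain ⟨hi1, hi2⟩ := upper_lt T h1 hF ha
    have hφ := T.red_ne_zero 1
    have hzφ := div_ne_zero (pow_ne_zero n hz) hφ
    rw [Nu_lt D n φ r h1]
    rcases le_or_gt 0 (P.ord D.jt) with h0 | h0
    · have h2 := hfin h0 hi1 (mul_ne_zero (pow_ne_zero _ hzφ) (pow_ne_zero _ hQt))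
      rw [P.ord_mul (pow_ne_zero _ hzφ) (pow_ne_zero _ hQt), FF.ord_pow, FF.ord_pow,
        div_eq_mul_inv, P.ord_mul (pow_ne_zero _ hz) (inv_ne_zero hφ), P.ord_inv, FF.ord_pow] at h2
      rw [max_eq_right (by omega), mul_zero, add_zero]
      change 0 ≤ _ + _ * P.ord D.Qt at h2
      push_cast at h2
      linarith
    · have hji := inv_ne_zero hjt
      have h2 := hinf h0 hi2 (mul_ne_zero (mul_ne_zero (pow_ne_zero _ hzφ) (pow_ne_zero _ hji))
        (pow_ne_zero _ (mul_ne_zero hQt hji)))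
      rw [P.ord_mul (mul_ne_zero (pow_ne_zero _ hzφ) (pow_ne_zero _ hji))
        (pow_ne_zero _ (mul_ne_zero hQt hji)), P.ord_mul (pow_ne_zero _ hzφ) (pow_ne_zero _ hji),
        FF.ord_pow, FF.ord_pow, FF.ord_pow, P.ord_mul hQt hji, P.ord_inv,
        div_eq_mul_inv, P.ord_mul (pow_ne_zero _ hz) (inv_ne_zero hφ), P.ord_inv, FF.ord_pow] at h2
      rw [max_eq_left (by omega)]
      change 0 ≤ _ + _ * (P.ord D.Qt + _) at h2
      push_cast at h2
      linarith
  · obtain ⟨hi1, hi2⟩ := upper_eq T h1 hF ha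
    have hq := D.q_two_le
    have hui := inv_ne_zero hut
    have hφ := T.red_ne_zero 0
    have hzφ := div_ne_zero (pow_ne_zero n hz) hφ
    rw [Nu_eq D n φ r h1]
    rcases le_or_gt 0 (P.ord D.jt) with h0 | h0
    · have h2 := hfin h0 hi1 (mul_ne_zero (pow_ne_zero _ hzφ) (pow_ne_zero _ hui))
      rw [P.ord_mul (pow_ne_zero _ hzφ) (pow_ne_zero _ hui), FF.ord_pow, FF.ord_pow,
        P.ord_inv, div_eq_mul_inv, P.ord_mul (pow_ne_zero _ hz) (inv_ne_zero hφ), P.ord_inv,
        FF.ord_pow] at h2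
      rw [max_eq_right (by omega), mul_zero, add_zero]
      change 0 ≤ _ + _ * -P.ord D.ut at h2
      push_cast [Nat.cast_sub (by omega : 1 ≤ q)] at h2
      linarith
    · have hji := inv_ne_zero hjt
      have h2 := hinf h0 hi2 (mul_ne_zero hzφ (pow_ne_zero _ hji))
      rw [P.ord_mul hzφ (pow_ne_zero _ hji), FF.ord_pow, P.ord_inv, div_eq_mul_inv,
        P.ord_mul (pow_ne_zero _ hz) (inv_ne_zero hφ), P.ord_inv, FF.ord_pow] at h2
      rw [max_eq_left (by omega), D.ord_ut h0]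
      push_cast at h2
      linarith
  · have hsq : s = q := by omega
    obtain ⟨hi1, hi2⟩ := upper_gt T hsq hF ha
    have hui := inv_ne_zero hut
    have hφ := T.red_ne_zero 2
    have hzφ := div_ne_zero (pow_ne_zero n hz) hφ
    rw [Nu_gt D n φ r hsq]
    rcases le_or_gt 0 (P.ord D.jt) with h0 | h0
    · have h2 := hfin h0 hi1 (mul_ne_zero (pow_ne_zero _ hzφ) (pow_ne_zero _ hui))
      rw [P.ord_mul (pow_ne_zero _ hzφ) (pow_ne_zero _ hui), FF.ord_pow, FF.ord_pow,
        P.ord_inv, div_eq_mul_inv, P.ord_mul (pow_ne_zero _ hz) (inv_ne_zero hφ), P.ord_inv,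
        FF.ord_pow] at h2
      rw [max_eq_right (by omega), mul_zero, add_zero]
      change 0 ≤ _ + _ * -P.ord D.ut at h2
      push_cast at h2
      linarith
    · have hji := inv_ne_zero hjt
      have h2 := hinf h0 hi2 (mul_ne_zero hzφ (pow_ne_zero _ hji))
      rw [P.ord_mul hzφ (pow_ne_zero _ hji), FF.ord_pow, P.ord_inv, div_eq_mul_inv,
        P.ord_mul (pow_ne_zero _ hz) (inv_ne_zero hφ), P.ord_inv, FF.ord_pow] at h2
      rw [max_eq_left (by omega), D.ord_ut h0]
      push_cast at h2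
      linarith

/-- threshold. -/
lemma exists_threshold' {n : ℕ} (hn : n ≠ 0) (φ : F) : ∃ r₀ : ℕ, ∀ r ≥ r₀, ∀ s ≤ q,
    2 * (genusFF k F' : ℤ) - 2 < Divisor.degree (DG D n φ s r) := by
  have hq := D.q_two_le
  have hψ := D.ψ_pos
  -- `DG s r = DG s 0 + slope * r * pole`
  have key : ∀ s ≤ q, ∀ r, DG D n φ s r = DG D n φ s 0 + (r * Data.slope q s) • RR.pole D.jt := by
    intro s hs r
    ext P
    have hn12 : (12 * (n : ℤ)) ≠ 0 := by
      have : (n : ℤ) ≠ 0 := by exact_mod_cast hn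
      positivity
    rw [Finsupp.add_apply, Finsupp.smul_apply, pole_apply, DG_apply, DG_apply, nsmul_eq_mul]
    have h1 : Nu D n φ s r P = Nu D n φ s 0 P +
        (12 * (n : ℤ)) * (((r * Data.slope q s : ℕ) : ℤ) * max (-P.ord D.jt) 0) := by
      rcases lt_trichotomy (s + 1) q with h1 | h1 | h1
      · rw [Nu_lt D n φ r h1, Nu_lt D n φ 0 h1, Data.slope, if_neg (by omega)]
        push_cast; ring
      · rw [Nu_eq D n φ r h1, Nu_eq D n φ 0 h1, Data.slope, if_neg (by omega)]
        push_cast; ring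
      · have hsq : s = q := by omega
        rw [Nu_gt D n φ r hsq, Nu_gt D n φ 0 hsq, Data.slope, if_pos (by omega)]
        push_cast; ring
    rw [h1, Int.add_mul_ediv_left _ _ hn12]
  refine ⟨2 * genusFF k F' + ∑ s ∈ Finset.range (q + 1), (Divisor.degree (DG D n φ s 0)).natAbs,
    fun r hr s hs => ?_⟩
  rw [key s hs r, map_add, map_nsmul, D.degree_pole, nsmul_eq_mul]
  have h1 : (Divisor.degree (DG D n φ s 0)).natAbs ≤
      ∑ s ∈ Finset.range (q + 1), (Divisor.degree (DG D n φ s 0)).natAbs :=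
    Finset.single_le_sum (f := fun s => (Divisor.degree (DG D n φ s 0)).natAbs)
      (fun _ _ => Nat.zero_le _) (Finset.mem_range.2 (by omega))
  have h2 := neg_abs_le (Divisor.degree (DG D n φ s 0))
  have h3 : (1 : ℤ) ≤ Data.slope q s * D.ψ := by
    have : 1 ≤ Data.slope q s := by
      unfold Data.slope
      split_ifs
      · exact Nat.one_le_pow _ _ (by omega)
      · exact le_rfl
    have h4 : 1 ≤ Data.slope q s * D.ψ := Nat.mul_pos this hψ
    exact_mod_cast h4
  have h5 : (r : ℤ) ≤ r * (Data.slope q s * D.ψ) := by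
    have : (0 : ℤ) ≤ r := by positivity
    nlinarith
  have h6 : ((2 * genusFF k F' + ∑ s ∈ Finset.range (q + 1),
    (Divisor.degree (DG D n φ s 0)).natAbs : ℕ) : ℤ) ≤ r := by exact_mod_cast hr
  push_cast at h6
  have h7 : (((Divisor.degree (DG D n φ s 0)).natAbs : ℕ) : ℤ) ≤
      ∑ s ∈ Finset.range (q + 1), (((Divisor.degree (DG D n φ s 0)).natAbs : ℕ) : ℤ) := by
    exact_mod_cast h1
  push_cast at h7 ⊢
  rw [mul_assoc]
  linarith

variable [IsAlgClosed k]

lemma finrank_DG {n : ℕ} {φ : F} {s r : ℕ}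
    (h : 2 * (genusFF k F' : ℤ) - 2 < Divisor.degree (DG D n φ s r)) :
    (finrank k (riemannRochSpace (DG D n φ s r)) : ℤ) =
      Divisor.degree (DG D n φ s r) + 1 - genusFF k F' := by
  have hfin : FiniteDimensional k⟮D.jt⟯ F' := IsFF.finite_adjoin _ D.jt_transcendental
  have h0 : ell (0 : Divisor k F') = 1 := ell_zero
  have := ell_eq (K := k) D.jt D.jt_transcendental (D := DG D n φ s r)
    (by rw [h0]; push_cast; linarith)
  rw [h0] at this
  exact_mod_cast this

end

section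

variable {D : Data K F k E F' q} [IsFF K F] [IsFF k F'] [IsAlgClosed k]

/-- **Equality in the dimension count.** -/
theorem smul_DG_eq (Nm : D.Num) {n : ℕ} {φ : F} (T : TwU D n φ) {Dv : Divisor K F}
    (hD0 : Divisor.degree Dv = 0) (hD : ∀ v : Place K F, (n : ℤ) * Dv v = v.ord φ) :
    ∃ r₀ : ℕ, ∀ r ≥ r₀, ∀ s ≤ q, (12 * (n : ℤ)) • DG D n φ s r = Nu D n φ s r := by
  have hn := T.n_ne_zero
  obtain ⟨r₀, hr₀⟩ := exists_threshold' D hn φ
  refine ⟨max r₀ (rrBound K F 0), fun r hr => ?_⟩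
  have hr1 : r₀ ≤ r := (le_max_left _ _).trans hr
  have hr2 : rrBound K F 0 ≤ r := (le_max_right _ _).trans hr
  have hq := D.q_two_le
  -- the dimension of the space
  have hdim := finrank_LL (K := K) Nm.tr (D := Dv) (a := r) (b := 0)
    (by rw [hD0, add_zero]; exact hr2)
  rw [hD0, Nm.ell_zero, Nm.finrank_F] at hdim
  -- the sum of the graded pieces
  obtain ⟨hsum, hfin⟩ := D.filt.sum_finrank_gr D.ortho (LL D.j Dv r 0)
  have hle : ∀ s : Fin D.filt.m, finrank k (D.filt.gr (LL D.j Dv r 0) s.2) ≤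
      finrank k (riemannRochSpace (DG D n φ s r)) := by
    intro s
    refine Submodule.finrank_mono ?_
    rintro _ ⟨f, hf, hf', rfl⟩
    exact G_mem_DG D T (by have := s.2; change (s : ℕ) < q + 1 at this; omega) hf'
      (adm_of_mem_LL hn T.φ_ne_zero hD hf)
  have h1 : (finrank K (LL D.j Dv r 0) : ℤ) ≤
      ∑ s ∈ Finset.range (q + 1), (Divisor.degree (DG D n φ s r) + 1 - genusFF k F') := by
    have h2 : ∑ s : Fin D.filt.m, finrank k (riemannRochSpace (DG D n φ s r)) =
        ∑ s ∈ Finset.range (q + 1), finrank k (riemannRochSpace (DG D n φ s r)) :=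
      (Finset.sum_range (fun s => finrank k (riemannRochSpace (DG D n φ s r)))
        (n := q + 1)).symm
    have h3 : finrank K (LL D.j Dv r 0) ≤
        ∑ s ∈ Finset.range (q + 1), finrank k (riemannRochSpace (DG D n φ s r)) := by
      rw [← h2, ← hsum]
      exact Finset.sum_le_sum fun s _ => hle s
    have h3' : (finrank K (LL D.j Dv r 0) : ℤ) ≤
        ((∑ s ∈ Finset.range (q + 1), finrank k (riemannRochSpace (DG D n φ s r)) : ℕ) : ℤ) := by
      exact_mod_cast h3
    refine h3'.trans (le_of_eq ?_)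
    rw [Nat.cast_sum]
    refine Finset.sum_congr rfl fun s hs => ?_
    rw [finrank_DG D (hr₀ r hr1 s (by have := Finset.mem_range.1 hs; omega))]
  -- degrees
  have h2 : ∑ s ∈ Finset.range (q + 1), Divisor.degree (Nu D n φ s r) =
      n * ((12 * r * (q + q ^ 2) - ((q : ℤ) ^ 2 - 1)) * D.ψ) := by
    rw [Finset.sum_congr rfl (fun s _ => degree_Nu D n φ s r), ← Finset.mul_sum,
      ← Finset.sum_mul, sum_cf D]
  have h3 : ∀ s ∈ Finset.range (q + 1),
      (12 * (n : ℤ)) * Divisor.degree (DG D n φ s r) ≤ Divisor.degree (Nu D n φ s r) := by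
    intro s _
    have := degree_mono (smul_DG_le D hn φ s r)
    rwa [map_zsmul, smul_eq_mul] at this
  have h4 : ∑ s ∈ Finset.range (q + 1), Divisor.degree (Nu D n φ s r) ≤
      ∑ s ∈ Finset.range (q + 1), (12 * (n : ℤ)) * Divisor.degree (DG D n φ s r) := by
    rw [h2, ← Finset.mul_sum]
    have hg := Nm.genus
    have h5 : ∑ s ∈ Finset.range (q + 1),
        (Divisor.degree (DG D n φ s r) + 1 - (genusFF k F' : ℤ)) =
        ∑ s ∈ Finset.range (q + 1), Divisor.degree (DG D n φ s r) +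
          (q + 1) * (1 - (genusFF k F' : ℤ)) := by
      have h5 : ((q : ℤ) + 1) * (1 - genusFF k F') =
          ∑ _s ∈ Finset.range (q + 1), (1 - (genusFF k F' : ℤ)) := by
        rw [Finset.sum_const, Finset.card_range, nsmul_eq_mul]; push_cast; ring
      rw [h5, ← Finset.sum_add_distrib]
      refine Finset.sum_congr rfl fun s _ => by ring
    rw [h5, hdim] at h1
    push_cast at h1
    have h6 : (12 * (r : ℤ) * (q + q ^ 2) - ((q : ℤ) ^ 2 - 1)) * D.ψ ≤
        12 * ∑ s ∈ Finset.range (q + 1), Divisor.degree (DG D n φ s r) := by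
      nlinarith
    have h7 : (0 : ℤ) ≤ n := by positivity
    calc (n : ℤ) * ((12 * r * (q + q ^ 2) - ((q : ℤ) ^ 2 - 1)) * D.ψ) ≤
        n * (12 * ∑ s ∈ Finset.range (q + 1), Divisor.degree (DG D n φ s r)) :=
          mul_le_mul_of_nonneg_left h6 h7
      _ = _ := by ring
  intro s hs
  have h5 := (Finset.sum_eq_sum_iff_of_le h3).1 (le_antisymm (Finset.sum_le_sum h3) h4) s
    (Finset.mem_range.2 (by omega))
  have : Nonempty (Place k F') := exists_place
  have : ∀ v : Place k F', v.FiniteResidue := finiteResidue_place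
  refine eq_of_le_of_degree_le (smul_DG_le D hn φ s r) ?_
  rw [map_zsmul, smul_eq_mul, h5]

/-- **Divisibility of the reductions.** -/
theorem dvd_ord_red (Nm : D.Num) {n : ℕ} {φ : F} (T : TwU D n φ) {Dv : Divisor K F}
    (hD0 : Divisor.degree Dv = 0) (hD : ∀ v : Place K F, (n : ℤ) * Dv v = v.ord φ)
    (i : Fin 3) (P : Place k F') : (n : ℤ) ∣ P.ord ((D.v i).red φ) := by
  have hn := T.n_ne_zero
  have hq := D.q_two_le
  obtain ⟨r₀, hr₀⟩ := smul_DG_eq Nm T hD0 hD
  have T1 : TwU D n (1 : F) := ⟨hn, one_ne_zero, fun i => (D.v i).ord_one⟩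
  obtain ⟨r₁, hr₁⟩ := smul_DG_eq Nm T1 (Dv := 0) (by simp)
    (fun v => by rw [v.ord_one]; simp)
  set r := max r₀ r₁ with hr
  have key : ∀ s ≤ q, (12 * (n : ℤ)) ∣ Nu D n (1 : F) s r P - Nu D n φ s r P := by
    intro s hs
    refine dvd_sub ⟨DG D n (1 : F) s r P, ?_⟩ ⟨DG D n φ s r P, ?_⟩
    · have := DFunLike.congr_fun (hr₁ r (le_max_right _ _) s hs) P
      rw [Finsupp.smul_apply, smul_eq_mul] at this
      exact this.symm
    · have := DFunLike.congr_fun (hr₀ r (le_max_left _ _) s hs) P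
      rw [Finsupp.smul_apply, smul_eq_mul] at this
      exact this.symm
  have h12 : ∀ x : ℤ, (12 * (n : ℤ)) ∣ 12 * x → (n : ℤ) ∣ x := fun x hx =>
    (mul_dvd_mul_iff_left (by norm_num : (12 : ℤ) ≠ 0)).1 hx
  apply h12
  fin_cases i
  · have h1 := key (q - 1) (by omega)
    rw [Nu_eq D n _ r (by omega), Nu_eq D n _ r (by omega), (D.v 0).red_one, P.ord_one] at h1
    convert h1 using 1
    change 12 * P.ord ((D.v 0).red φ) = _
    ring
  · have h1 := key 0 (by omega)
    rw [Nu_lt D n _ r (by omega), Nu_lt D n _ r (by omega), (D.v 1).red_one, P.ord_one] at h1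
    convert h1 using 1
    change 12 * P.ord ((D.v 1).red φ) = _
    ring
  · have h1 := key q le_rfl
    rw [Nu_gt D n _ r rfl, Nu_gt D n _ r rfl, (D.v 2).red_one, P.ord_one] at h1
    convert h1 using 1
    change 12 * P.ord ((D.v 2).red φ) = _
    ring

end

end Fermat.Agent.TriLow
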