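import Fermat.Agent.TriLow.Close
import Fermat.Agent.S36.SetupDef

/-!
# The instance of `LevelB`
-/

set_option autoImplicit false
set_option linter.unusedSectionVars false

noncomputable section

open AlgebraicCurve ModularCurve HahnSeries Fermat.Agent.TEll Fermat.Agent.TriGauss
  Fermat.Agent.TriVal Fermat.Agent.LocE Fermat.Agent.GaussVal Fermat.Agent.TwoGauss
  Fermat.Agent.TriComp Fermat.Agent.S36norm

namespace Fermat.Agent.TriLow

variable {A : ValuationSubring Qb} {K : Type*} [Field K] [Algebra K Qb] {m q : ℕ}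
    [NeZero m] [NeZero q] [NeZero (m * q)] [NeZero (m * q * q)] {ζ : Qbˣ}
    {e₁ : modularFunctionFieldFullC K (m * q * q) →+* LaurentSeries Qb}
    {w : modularFunctionFieldFullC K (m * q * q) ≃ₐ[K] modularFunctionFieldFullC K (m * q * q)}
    {w' : modularFunctionFieldFullC K (m * q) ≃ₐ[K] modularFunctionFieldFullC K (m * q)}
    [CharZero K] {Er : Type*} [CommRing Er] [Algebra (IsLocalRing.ResidueField A) Er]
    {D : Data K (modularFunctionFieldFullC K (m * q * q)) (IsLocalRing.ResidueField A) Er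
      (modularFunctionFieldFullC (IsLocalRing.ResidueField A) m) q}
    [Fact q.Prime] [CharP (IsLocalRing.ResidueField A) q]

variable (I : LevelInput A K m q ζ e₁ w w') (T : TriInput A K m q ζ e₁ w D)

include I T in
theorem e1_beta_mem {y : modularFunctionFieldFullC K (m * q)} (hy : y ∈ (W1 D).O) :
    ∃ h : e₁ (betaC K (m * q) q y) ∈ gaussSubring A,
      gaussRed A ⟨_, h⟩ = rr A m ((W1 D).red y) := by
  have h1 : e0 K (m * q) (w' y) ∈ gaussSubring A := ((W1_gauss I T).mem_iff y).1 hy
  have h2 : w (betaC K (m * q) q y) = alphaC K (m * q) q (w' y) := swap_beta I.hw I.hw' y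
  have h3 : e₁ (w (betaC K (m * q) q y)) = e0 K (m * q) (w' y) := by rw [h2, I.e1_alpha]
  have h4 : e₁ (w (betaC K (m * q) q y)) ∈ gaussSubring A := by rw [h3]; exact h1
  obtain ⟨h5, h6⟩ := e1_w_mem I.hq I.hm I.hA I.hK I.hζ I.hw I.he₁ h4
  have h7 : w (w (betaC K (m * q) q y)) = betaC K (m * q) q y := I.hw.invol (by ring) _
  have h8 : e₁ (betaC K (m * q) q y) ∈ gaussSubring A := by rw [← h7]; exact h5
  refine ⟨h8, ?_⟩
  have h9 : (⟨e₁ (betaC K (m * q) q y), h8⟩ : gaussSubring A) = ⟨_, h5⟩ :=
    Subtype.ext (congrArg e₁ h7.symm)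
  rw [h9, h6, (W1_gauss I T).red y h1]
  exact congrArg (gaussRed A) (Subtype.ext h3)

/-- **The instance of `LevelB`.** -/
def levelB (ι : K →+* ℂ) : LevelB (levelQ I T ι) where
  be := betaC K (m * q) q
  mem0 y hy := by
    change betaC K (m * q) q y ∈ (D.v 0).O
    rw [T.h0.mem_iff, e0_beta]
    exact qExpand_mem_gaussSubring q (((W0_gauss T).mem_iff y).1 hy)
  mem1 y hy := by
    change betaC K (m * q) q y ∈ (D.v 1).O
    rw [T.h1.mem_iff]
    exact (e1_beta_mem I T hy).1
  mem2 y hy := hy
  red0 y hy := by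
    change y ∈ (W0 D).O at hy
    change (D.v 0).red (betaC K (m * q) q y) =
      verMap (IsLocalRing.ResidueField A) q m ((W0 D).red y)
    have h1 : e0 K (m * q) y ∈ gaussSubring A := ((W0_gauss T).mem_iff y).1 hy
    have h2 := (W0_gauss T).red y h1
    have h3 : e0 K (m * q * q) (betaC K (m * q) q y) ∈ gaussSubring A := by
      rw [e0_beta]; exact qExpand_mem_gaussSubring q h1
    have h4 := T.h0.red (betaC K (m * q) q y) h3
    apply (rr A m).injective
    refine h4.trans ?_
    have h5 : (⟨e0 K (m * q * q) (betaC K (m * q) q y), h3⟩ : gaussSubring A) =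
        ⟨_, qExpand_mem_gaussSubring q h1⟩ := Subtype.ext (e0_beta y)
    refine (congrArg (gaussRed A) h5).trans ?_
    refine (gaussRed_qExpand q ⟨_, h1⟩).trans ?_
    rw [← h2]
    rfl
  red1 y hy := by
    change y ∈ (W1 D).O at hy
    change (D.v 1).red (betaC K (m * q) q y) = (W1 D).red y
    obtain ⟨h, h1⟩ := e1_beta_mem I T hy
    apply (rr A m).injective
    exact (T.h1.red _ h).trans h1
  red2 y _ := (DV.comap_red _ _ y).symm
  al_red1 y hy := by
    change y ∈ (W0 D).O at hy
    change (D.v 1).red (alphaC K (m * q) q y) = (W0 D).red y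
    have h1 : e0 K (m * q) y ∈ gaussSubring A := ((W0_gauss T).mem_iff y).1 hy
    have h3 : e₁ (alphaC K (m * q) q y) ∈ gaussSubring A := by rw [I.e1_alpha]; exact h1
    apply (rr A m).injective
    refine (T.h1.red _ h3).trans ?_
    rw [(W0_gauss T).red y h1]
    exact congrArg (gaussRed A) (Subtype.ext (I.e1_alpha y))
  int y hy := by
    rw [T.hj] at hy ⊢
    have e1 : alphaC K (m * q) q (TriVal.jd K (m * q) 1 (one_dvd _)) =
        TriVal.jd K (m * q * q) 1 (one_dvd _) := Subtype.ext (by rw [coe_alphaC]; rfl)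
    have e2 : betaC K (m * q) q (TriVal.jd K (m * q) 1 (one_dvd _)) =
        TriVal.jd K (m * q * q) q (dvd_mul_left q (m * q)) := by
      apply Subtype.ext
      rw [coe_betaC, TriVal.coe_jd, TriVal.coe_jd, qExpand_qExpand]
      exact congrArg Subtype.val (jd_congr_index (K := K) (N := m * q * q) (mul_one q)
        (by rw [mul_one]; exact dvd_mul_left q (m * q)) (dvd_mul_left q (m * q)))
    have e3 : alphaC K (m * q) q (TriVal.jd K (m * q) q (dvd_mul_left q m)) =
        TriVal.jd K (m * q * q) q (dvd_mul_left q (m * q)) :=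
      Subtype.ext (by rw [coe_alphaC]; rfl)
    rw [← e1] at hy
    have h1 := isIntegral_adjoin_of_map (alphaC K (m * q) q) (alphaC K (m * q) q).injective hy
    have h2 := isIntegral_adjoin_map (betaC K (m * q) q) h1
    rw [e2] at h2
    have h3 := isIntegral_adjoin_map (alphaC K (m * q) q) (isIntegral_jq (K := K) (m := m)
      (q := q) ι)
    rw [e1, e3] at h3
    exact isIntegral_adjoin_trans h2 h3

end Fermat.Agent.TriLow
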