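import Fermat.Agent.S36.NumInst
import Fermat.Agent.GoodRed.GenusAll

/-!
# The numerical hypotheses for `X₀(q²m)` when `X₀(m)` has no elliptic points
-/

set_option autoImplicit false

open AlgebraicCurve WithZero Module Polynomial ModularCurve
open scoped IntermediateField
open Fermat.Agent.FF Fermat.Agent.TwoComp Fermat.Agent.LocE
open Fermat.Agent.TriVal hiding Qb
open Fermat.Agent.TriDim Fermat.Agent.TriComp Fermat.Agent.Deuring
open Fermat.Agent.S36norm Fermat.Agent.S36K0 Fermat.Agent.S36mile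

noncomputable section

namespace Fermat.Agent.TriLow

/-! ### No elliptic points -/

theorem nuTwo_eq_zero_of_mod {N r : ℕ} (hr : r.Prime) (hd : r ∣ N) (h : r % 12 = 11) :
    nuTwo N = 0 := by
  have : Fact r.Prime := ⟨hr⟩
  refine nuTwo_eq_zero_of_map r hd fun x hx => ?_
  have h1 : IsSquare (-1 : ZMod r) := ⟨x, by linear_combination -hx⟩
  have h2 : r % 4 ≠ 3 := (ZMod.exists_sq_eq_neg_one_iff (p := r)).1 h1
  omega

theorem nuThree_eq_zero_of_mod {N r : ℕ} (hr : r.Prime) (hd : r ∣ N) (h : r % 12 = 11) :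
    nuThree N = 0 := by
  have : Fact r.Prime := ⟨hr⟩
  refine nuThree_eq_zero_of_map r hd fun x hx => ?_
  -- `x` is a primitive cube root of unity
  have h3 : x ^ 3 = 1 := by linear_combination (x - 1) * hx
  have hx0 : x ≠ 0 := by
    rintro rfl
    rw [zero_pow (by norm_num)] at h3
    exact zero_ne_one h3
  have hx1 : x ≠ 1 := by
    rintro rfl
    have h4 : ((3 : ℕ) : ZMod r) = 0 := by
      rw [← hx]; push_cast; norm_num
    rw [ZMod.natCast_eq_zero_iff] at h4
    have := Nat.le_of_dvd (by norm_num) h4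
    omega
  have h5 : orderOf (Units.mk0 x hx0) = 3 := by
    apply orderOf_eq_prime (p := 3)
    · apply Units.ext
      rw [Units.val_pow_eq_pow_val, Units.val_mk0, h3, Units.val_one]
    · intro h
      apply hx1
      rw [← Units.val_mk0 hx0, h, Units.val_one]
  have h6 : 3 ∣ r - 1 := by
    rw [← h5]
    have := orderOf_dvd_card (x := Units.mk0 x hx0)
    rwa [ZMod.card_units] at this
  omega

theorem nu_eq_zero_of_mod {N r : ℕ} (hr : r.Prime) (hd : r ∣ N) (h : r % 12 = 11) :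
    nuTwo N = 0 ∧ nuThree N = 0 :=
  ⟨nuTwo_eq_zero_of_mod hr hd h, nuThree_eq_zero_of_mod hr hd h⟩

theorem genusFormula_of_nu {N : ℕ} (h2 : nuTwo N = 0) (h3 : nuThree N = 0) :
    genusFormula N = 1 + (dedekindPsi N : ℚ) / 12 - (cuspCount N : ℚ) / 2 := by
  rw [genusFormula, h2, h3]
  simp

theorem genusFormula_mul_sq_of_nu {m q : ℕ} (hq : q.Prime) (hm : ¬ q ∣ m)
    (h2 : nuTwo m = 0) (h3 : nuThree m = 0)
    (h2' : nuTwo (m * q * q) = 0) (h3' : nuThree (m * q * q) = 0) :
    12 * (genusFormula (m * q * q) - 1) =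
      12 * ((q : ℚ) + 1) * (genusFormula m - 1) + ((q : ℚ) + 1) * (q - 1) * dedekindPsi m := by
  rw [genusFormula_of_nu h2 h3, genusFormula_of_nu h2' h3', cuspCount_mul_sq hq hm,
    dedekindPsi_mul_sq hq hm]
  push_cast
  ring

theorem genus_identity_of_nu {m q : ℕ} [NeZero m] [NeZero (m * q * q)] (hq : q.Prime)
    (hm : ¬ q ∣ m) (h2 : nuTwo m = 0) (h3 : nuThree m = 0)
    (h2' : nuTwo (m * q * q) = 0) (h3' : nuThree (m * q * q) = 0) {g' : ℕ}
    (hg : genusFF Qb (modularFunctionFieldFullC Qb m) = g') :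
    12 * ((genusFF Qb (modularFunctionFieldFullC Qb (m * q * q)) : ℤ) - 1) =
      ((q : ℤ) + 1) * (12 * ((g' : ℤ) - 1)) + ((q : ℤ) ^ 2 - 1) * dedekindPsi m := by
  rw [← hg]
  have h1 := genusFormula_mul_sq_of_nu hq hm h2 h3 h2' h3'
  rw [← genus_full, ← genus_full] at h1
  have h2 : (12 * ((genusFF Qb (modularFunctionFieldFullC Qb (m * q * q)) : ℚ) - 1)) =
      ((q : ℚ) + 1) * (12 * ((genusFF Qb (modularFunctionFieldFullC Qb m) : ℚ) - 1)) +
        ((q : ℚ) ^ 2 - 1) * dedekindPsi m := by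
    rw [h1]; ring
  exact_mod_cast h2

section Res

variable {A : ValuationSubring (AlgebraicClosure ℚ)} {q m : ℕ} [NeZero m]

/-- **Good reduction at level `m`**: equality of genera. -/
theorem genus_res_eq' (hq : q.Prime) (hA : A.LiesOverPrime q) (hm : ¬ q ∣ m) :
    genusFF Qb (modularFunctionFieldFullC Qb m) =
      genusFF (IsLocalRing.ResidueField A)
        (modularFunctionFieldFullC (IsLocalRing.ResidueField A) m) := by
  have hne : (m : IsLocalRing.ResidueField A) ≠ 0 := S18aux.natCast_ne_zero hq hA hm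
  have hdeg : S37aux.DegC A m := Igusa.finrank_full (IsLocalRing.ResidueField A) m hne
  have hFF1 : IsFF (IsLocalRing.ResidueField A)
    (modularFunctionFieldFullC (IsLocalRing.ResidueField A) m) := hdeg.isFF
  have hFF2 : IsFF (AlgebraicClosure ℚ) (modularFunctionFieldBar m) := TEll.isFF_bar m
  have h1 : genusFF Qb (modularFunctionFieldFullC Qb m) = genusFF Qb (modularFunctionFieldBar m) :=
    (genusFF_transport (fullC_eq_bar m)).symm
  rw [h1]
  exact le_antisymm (GoodRed.genus_le_all hq hA m hm) (S37aux.gauss hq hA m hdeg).genus_le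

/-- **The numerical hypotheses** without elliptic points. -/
theorem num_of_nu (hq : q.Prime) (hA : A.LiesOverPrime q) (hm : ¬ q ∣ m)
    (h2 : nuTwo m = 0) (h3 : nuThree m = 0)
    (h2' : nuTwo (m * q * q) = 0) (h3' : nuThree (m * q * q) = 0)
    {L : Type*} [Field L] [Algebra L Qb]
    (hL : ∀ x : Qb, x ∈ Set.range (algebraMap L Qb) ↔ x ∈ K0 A)
    [IsFF L (modularFunctionFieldFullC L (m * q * q))]
    [IsFF (IsLocalRing.ResidueField A) (modularFunctionFieldFullC (IsLocalRing.ResidueField A) m)]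
    {Er : Type*} [CommRing Er] [Algebra (IsLocalRing.ResidueField A) Er]
    (D : Data L (modularFunctionFieldFullC L (m * q * q)) (IsLocalRing.ResidueField A) Er
      (modularFunctionFieldFullC (IsLocalRing.ResidueField A) m) q)
    (hj : D.j = jE L (m * q * q)) (hψ : D.ψ = dedekindPsi m) : D.Num := by
  have : NeZero q := ⟨hq.ne_zero⟩
  have hmq : NeZero (m * q) := ⟨mul_ne_zero (NeZero.ne m) (NeZero.ne q)⟩
  have hmqq : NeZero (m * q * q) := ⟨mul_ne_zero (NeZero.ne (m * q)) (NeZero.ne q)⟩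
  have hΓ : ∀ x : Qb, (∀ σ ∈ inertiaSet A, σ x = x) → x ∈ Set.range (algebraMap L Qb) := by
    intro x hx
    rw [hL]
    obtain ⟨y, hy⟩ := inertiaSet_fixed A x hx
    rw [← hy]
    exact y.2
  have hΓL : ∀ σ ∈ inertiaSet A, ∀ a : L, σ (algebraMap L Qb a) = algebraMap L Qb a := by
    intro σ hσ a
    exact inertiaSet_algebraMap A σ hσ ⟨_, (hL _).1 ⟨a, rfl⟩⟩
  refine ⟨?_, ?_, ?_, ?_⟩
  · rw [hj]
    exact transcendental_jE L _
  · rw [hj, finrank_jE L (m * q * q) (natCast_ne_zero_of_algebra L _), dedekindPsi_mul_sq hq hm, hψ]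
  · exact S36K0.ell_zero
  · rw [S36K0.genus_eq (inertiaSet A) hΓ hΓL, hψ]
    exact genus_identity_of_nu hq hm h2 h3 h2' h3' (genus_res_eq' hq hA hm)

/-- **The numerical hypotheses** when a prime `r ≡ 11 mod 12` divides `m`. -/
theorem num_of_mod (hq : q.Prime) (hA : A.LiesOverPrime q) (hm : ¬ q ∣ m)
    (hr : ∃ r, r.Prime ∧ r ∣ m ∧ r % 12 = 11)
    {L : Type*} [Field L] [Algebra L Qb]
    (hL : ∀ x : Qb, x ∈ Set.range (algebraMap L Qb) ↔ x ∈ K0 A)
    [IsFF L (modularFunctionFieldFullC L (m * q * q))]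
    [IsFF (IsLocalRing.ResidueField A) (modularFunctionFieldFullC (IsLocalRing.ResidueField A) m)]
    {Er : Type*} [CommRing Er] [Algebra (IsLocalRing.ResidueField A) Er]
    (D : Data L (modularFunctionFieldFullC L (m * q * q)) (IsLocalRing.ResidueField A) Er
      (modularFunctionFieldFullC (IsLocalRing.ResidueField A) m) q)
    (hj : D.j = jE L (m * q * q)) (hψ : D.ψ = dedekindPsi m) : D.Num := by
  obtain ⟨r, hr, hrm, h11⟩ := hr
  have h1 := nu_eq_zero_of_mod hr hrm h11
  have h2 := nu_eq_zero_of_mod hr ((hrm.mul_right q).mul_right q) h11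
  exact num_of_nu hq hA hm h1.1 h1.2 h2.1 h2.2 hL D hj hψ

end Res

end Fermat.Agent.TriLow
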