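import Fermat.Agent.TriLow.Rep
import Fermat.Agent.S36.NumInst

/-!
# The final step: a class represented by a function with reductions `1` is killed by `t`
-/

set_option autoImplicit false
set_option linter.unusedSectionVars false
set_option linter.style.haveILetI false

noncomputable section

open AlgebraicCurve ModularCurve HahnSeries Module Fermat.Agent.TEll Fermat.Agent.LocE
  Fermat.Agent.S36mile Fermat.Agent.QX4 Fermat.Agent.GalRep Fermat.Agent.FF
  Fermat.Agent.HeckeComm Fermat.Agent.TriComp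
open Fermat.Agent.S36norm
open Fermat.Agent.TriVal (Qb)
open Fermat.Agent.TriDim (inertiaSet inertiaSet_fixed inertiaSet_algebraMap fullC_eq_bar)

namespace Fermat.Agent.TriLow

/-! ### Descent of divisibility -/

section Desc

variable {A : ValuationSubring Qb} {K : Type*} [Field K] [Algebra K Qb] {N : ℕ} [NeZero N]

theorem fixed_mem (hK : TriGlue.IsK0 A K) (x : Qb) (hx : ∀ σ ∈ inertiaSet A, σ x = x) :
    x ∈ Set.range (algebraMap K Qb) := by
  rw [hK]
  obtain ⟨y, hy⟩ := inertiaSet_fixed A x hx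
  rw [← hy]
  exact y.2

theorem fixes_K (hK : TriGlue.IsK0 A K) (σ) (hσ : σ ∈ inertiaSet A) (a : K) :
    σ (algebraMap K Qb a) = algebraMap K Qb a :=
  inertiaSet_algebraMap A σ hσ ⟨_, (hK _).1 ⟨a, rfl⟩⟩

theorem isFF_K (K : Type*) [Field K] [Algebra K Qb] (N : ℕ) [NeZero N] :
    IsFF K (modularFunctionFieldFullC K N) :=
  TriDim.isFF_full K N (S36K0.natCast_ne_zero_of_algebra K N)

/-- Divisibility of the divisor descends to `K`. -/
theorem Rep.dvd_K (hK : TriGlue.IsK0 A K) {n : ℕ} (hn : n ≠ 0) {x : JZero N}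
    {f : modularFunctionFieldFullC K N} (h : Rep K N n x f)
    (v : Place K (modularFunctionFieldFullC K N)) : (n : ℤ) ∣ v.ord f := by
  haveI := isFF_K K N
  obtain ⟨hf0, D, -, hD⟩ := h
  obtain ⟨D₀, -, h2, -⟩ := descend_divisor_aux (L := K) (inertiaSet A) (fixed_mem hK)
    (fixes_K hK) (fullC_eq_bar N).symm (Nat.pos_of_ne_zero hn) hD hf0 rfl
  exact ⟨_, (h2 v).symm⟩

end Desc

/-! ### The step -/

section Step

variable {A : ValuationSubring Qb} {K : Type*} [Field K] [Algebra K Qb] {m q : ℕ}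
  [NeZero m] [NeZero q] [NeZero (m * q)] [NeZero (m * q * q)]
  {k Er F' : Type*} [Field k] [CommRing Er] [Algebra k Er] [Field F'] [Algebra k F']
  [IsAlgClosed k] [IsFF k F'] [IsFF K (modularFunctionFieldFullC K (m * q))]
  [IsFF K (modularFunctionFieldFullC K (m * q * q))]
  {D : Data K (modularFunctionFieldFullC K (m * q * q)) k Er F' q}
  {X : Setup K (modularFunctionFieldFullC K (m * q)) (modularFunctionFieldFullC K (m * q * q))
    F' k q}

/-- **The final step.** -/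
theorem smul_eq_zero_of_redOne (hK : TriGlue.IsK0 A K) (hq : q.Prime) (hm : ¬ q ∣ m)
    {w : modularFunctionFieldFullC K (m * q * q) ≃ₐ[K] modularFunctionFieldFullC K (m * q * q)}
    {w' : modularFunctionFieldFullC K (m * q) ≃ₐ[K] modularFunctionFieldFullC K (m * q)}
    (hw : IsSwap K (m * q * q) (q * q) m w) (hw' : IsSwap K (m * q) q m w')
    (L : LevelQ D X) (hal : ∀ y, L.al y = alphaC K (m * q) q y) (M : GlueMod D X.Vq)
    (B : LevelB L) (hbe : ∀ y, B.be y = betaC K (m * q) q y) (Nm : D.Num) (G : D.Glue)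
    {n : ℕ} (hn : (n : k) ≠ 0)
    (Sp : Supply L M n (fun f => ∀ v : Place Qb (modularFunctionFieldBar (m * q)),
      (n : ℤ) ∣ v.ord (bcb K (m * q) f)))
    (S : Set ℕ) (hS : ∀ r : ℕ, r.Prime → r ∣ m * q → r ∈ S) (t : HeckeAlgS S)
    (ht : letI := heckeModuleBar (m * q);
      ∀ y : JZero (m * q), n • y = 0 → inclS S t • y = 0)
    {x : JZero (m * q * q)} {ψ : modularFunctionFieldFullC K (m * q * q)}
    (hψ : Rep K (m * q * q) n x ψ) (h1 : GlueData.RedOne X ψ) :
    letI := heckeModuleBar (m * q * q)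
    inclS S t • x = 0 := by
  letI := heckeModuleBar (m * q * q)
  have hn0 : n ≠ 0 := by
    rintro rfl
    simp at hn
  have hSℓ : ∀ ℓ : Nat.Primes, (ℓ : ℕ) ∉ S → ¬ (ℓ : ℕ) ∣ m * q * q := by
    intro ℓ hℓ hd
    rcases (Nat.Prime.dvd_mul ℓ.2).mp hd with h | h
    · exact hℓ (hS ℓ ℓ.2 h)
    · exact hℓ (hS ℓ ℓ.2 (h.mul_left m))
  obtain ⟨f₁, f₂, c, g, hf₁, hf₂, hP₁, hP₂, hc, hg, hrel⟩ :=
    close L M B Nm G hn Sp hψ.ne_zero h1 (hψ.dvd_K hK hn0)
  rw [hal, hbe] at hrel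
  -- divisibility
  have hdiv : ∀ (φ : modularFunctionFieldFullC K (m * q) →ₐ[K]
      modularFunctionFieldFullC K (m * q * q))
      (φb : modularFunctionFieldBar (m * q) →ₐ[AlgebraicClosure ℚ]
        modularFunctionFieldBar (m * q * q))
      (_ : ∀ y, bcb K (m * q * q) (φ y) = φb (bcb K (m * q) y))
      (f : modularFunctionFieldFullC K (m * q))
      (_ : ∀ v : Place Qb (modularFunctionFieldBar (m * q)), (n : ℤ) ∣ v.ord (bcb K (m * q) f))
      (v : Place (AlgebraicClosure ℚ) (modularFunctionFieldBar (m * q * q))),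
      (n : ℤ) ∣ v.ord (bcb K (m * q * q) (φ f)) := by
    intro φ φb hφ f hf v
    haveI : IsFF (AlgebraicClosure ℚ) (modularFunctionFieldBar (m * q)) := TEll.isFF_bar _
    haveI : IsFF (AlgebraicClosure ℚ) (modularFunctionFieldBar (m * q * q)) := TEll.isFF_bar _
    rw [hφ]
    exact dvd_ord_map φb hf v
  obtain ⟨x₁, hx₁⟩ := exists_rep (K := K) hn0
    ((map_ne_zero_iff (alphaC K (m * q) q) (alphaC K (m * q) q).injective).mpr hf₁)
    (hdiv (alphaC K (m * q) q) (heckeAlphaBar Qb (m * q) q) bcb_alphaC f₁ hP₁)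
  obtain ⟨x₂, hx₂⟩ := exists_rep (K := K) hn0
    ((map_ne_zero_iff (betaC K (m * q) q) (betaC K (m * q) q).injective).mpr hf₂)
    (hdiv (betaC K (m * q) q) (heckeBetaBar Qb (m * q) q) bcb_betaC f₂ hP₂)
  have h2 := (hψ.mul hx₁).mul hx₂
  rw [hrel] at h2
  have h3 : x + x₁ + x₂ = 0 := by
    have h4 := (rep_const (K := K) (N := m * q * q) (n := n) hc).mul (rep_pow (n := n) hg)
    rw [add_zero] at h4
    exact h2.eq hn0 h4
  have e1 : inclS S t • x₁ = 0 :=
    inclS_smul_eq_zero_of_hom hn0 (alphaC K (m * q) q) (heckeAlphaBar Qb (m * q) q) bcb_alphaC S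
      (fun ℓ hℓ _ _ _ y => TC_alphaC ℓ.2 (hSℓ ℓ hℓ) y) t ht hf₁ hP₁ hx₁
  have e2 : inclS S t • x₂ = 0 :=
    inclS_smul_eq_zero_of_hom hn0 (betaC K (m * q) q) (heckeBetaBar Qb (m * q) q) bcb_betaC S
      (fun ℓ hℓ _ _ _ y => TC_betaC hq hm ℓ.2 (hSℓ ℓ hℓ) hw hw' y) t ht hf₂ hP₂ hx₂
  have h5 : inclS S t • (x + x₁ + x₂) = 0 := by rw [h3, smul_zero]
  rw [smul_add, smul_add, e1, e2, add_zero, add_zero] at h5
  exact h5

end Step

end Fermat.Agent.TriLow
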