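import Fermat.Agent.S36.AbsMain
import Fermat.Agent.FF.Along

/-!
# The closing step: toric classes come from level `q m`

A function `ψ` with the three reductions equal to `1` and divisor divisible by `n` becomes a
constant times an `n`-th power after multiplication by functions from level `q m` (through the
two degeneracy embeddings), provided level `q m` supplies enough toric classes.
-/

set_option autoImplicit false

open Polynomial Module AlgebraicCurve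
open scoped IntermediateField

namespace Fermat.Agent.TriLow

open Fermat.Agent.TriComp Fermat.Agent.QX Fermat.Agent.RR Fermat.Agent.FF Fermat.Agent.S36norm

/-! ### Divisibility of orders along an embedding -/

theorem dvd_ord_map {K E F : Type*} [Field K] [Field E] [Field F] [Algebra K E] [Algebra K F]
    [IsFF K E] [IsFF K F] (φ : E →ₐ[K] F) {n : ℤ} {y : E} (h : ∀ v : Place K E, n ∣ v.ord y)
    (w : Place K F) : n ∣ w.ord (φ y) := by
  let _ : Algebra E F := φ.toRingHom.toAlgebra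
  have _ : IsScalarTower K E F := IsScalarTower.of_algebraMap_eq fun a => (φ.commutes a).symm
  have _ : Algebra.IsIntegral E F := ⟨fun x => isIntegralAlong φ x⟩
  have h1 := w.ord_restrict (F := E) y
  change w.ord (φ y) = _ at h1
  rw [h1]
  exact (h _).mul_left _

/-- The divisor `(div f) / n`. -/
theorem exists_div {K F : Type*} [Field K] [Field F] [Algebra K F] [IsFF K F] {n : ℕ}
    (hn : n ≠ 0) {f : F} (h : ∀ v : Place K F, (n : ℤ) ∣ v.ord f) :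
    ∃ Dv : Divisor K F, Divisor.degree Dv = 0 ∧ ∀ v : Place K F, (n : ℤ) * Dv v = v.ord f := by
  have hn' : (n : ℤ) ≠ 0 := by exact_mod_cast hn
  have h1 : ∀ v : Place K F, (n : ℤ) * (RR.div f : Divisor K F).mapRange (· / (n : ℤ)) (by simp) v =
      v.ord f := by
    intro v
    rw [Finsupp.mapRange_apply, div_apply]
    exact Int.mul_ediv_cancel' (h v)
  refine ⟨(RR.div f : Divisor K F).mapRange (· / (n : ℤ)) (by simp), ?_, h1⟩
  have h2 : (n : ℤ) • (RR.div f : Divisor K F).mapRange (· / (n : ℤ)) (by simp) = RR.div f := by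
    ext v
    rw [Finsupp.smul_apply, smul_eq_mul, h1, div_apply]
  have h3 := congrArg Divisor.degree h2
  rw [map_zsmul, degree_div, smul_eq_mul] at h3
  exact (mul_eq_zero.1 h3).resolve_left hn'

/-- Constants. -/
theorem exists_const_of_ell {K F : Type*} [Field K] [Field F] [Algebra K F] [IsFF K F]
    (h : ell (0 : Divisor K F) = 1) {f : F} (hf : ∀ v : Place K F, 0 ≤ v.ord f) :
    ∃ c : K, f = algebraMap K F c := by
  rcases eq_or_ne f 0 with rfl | hf0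
  · exact ⟨0, by rw [map_zero]⟩
  have h1 : f ∈ riemannRochSpace (0 : Divisor K F) := by
    intro v
    rw [v.adicValuation_le_exp_iff]
    right; simpa using hf v
  have h2 : (1 : F) ∈ riemannRochSpace (0 : Divisor K F) := by
    intro v
    rw [v.adicValuation_le_exp_iff]
    right; simp
  have h3 : (⟨1, h2⟩ : riemannRochSpace (0 : Divisor K F)) ≠ 0 := by
    intro h4
    exact one_ne_zero (congrArg Subtype.val h4)
  obtain ⟨c, hc⟩ := (finrank_eq_one_iff_of_nonzero' _ h3).1 h ⟨f, h1⟩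
  refine ⟨c, ?_⟩
  have h4 := congrArg Subtype.val hc
  change c • (1 : F) = f at h4
  rw [← h4, Algebra.smul_def, mul_one]

section

variable {K F k Er F' E : Type*} [Field K] [Field F] [Algebra K F] [Field k] [CommRing Er]
    [Algebra k Er] [Field F'] [Algebra k F'] [Field E] [Algebra K E] {q : ℕ}
    {D : Data K F k Er F' q} {X : Setup K E F F' k q}

/-- The second degeneracy embedding of level `q m` into level `q² m`. -/
structure LevelB (L : LevelQ D X) where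
  be : E →ₐ[K] F
  mem0 : ∀ y ∈ X.W0.O, be y ∈ X.V0.O
  mem1 : ∀ y ∈ X.W1.O, be y ∈ X.V1.O
  mem2 : ∀ y ∈ X.W1.O, be y ∈ X.V2.O
  red0 : ∀ y ∈ X.W0.O, X.V0.red (be y) = X.Vq (X.W0.red y)
  red1 : ∀ y ∈ X.W1.O, X.V1.red (be y) = X.W1.red y
  red2 : ∀ y ∈ X.W1.O, X.V2.red (be y) = X.W1.red y
  al_red1 : ∀ y ∈ X.W0.O, X.V1.red (L.al y) = X.W0.red y
  int : ∀ y : E, IsIntegral (Algebra.adjoin K {D.j}) (L.al y) →
    IsIntegral (Algebra.adjoin K {D.j}) (be y)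

/-- **Supply of toric classes at level `q m`** (`Pr` is an arbitrary extra property of the
function, used to record that its divisor is divisible by `n` over `ℚ̄`). -/
def Supply (L : LevelQ D X) (M : GlueMod D X.Vq) (n : ℕ) (Pr : E → Prop) : Prop :=
  ∀ ε : SSP D → k, (∀ P, ε P ^ n = 1) → ∃ f : E, f ≠ 0 ∧ Pr f ∧
    X.W0.ord f = 0 ∧ X.W1.ord f = 0 ∧ X.W0.red f = 1 ∧ X.W1.red f = 1 ∧
    (∀ v : Place K E, (n : ℤ) ∣ v.ord f) ∧
    ∀ P, ∃ h : E, h ^ n * f⁻¹ ∈ L.Bq ∧ h ∈ X.W0.O ∧ h ∈ X.W1.O ∧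
      (L.glueData M).evt P (X.W0.red h) ≠ 0 ∧
      (L.glueData M).evt P (X.Vq (X.W1.red h)) = ε P * (L.glueData M).evt P (X.W0.red h)

theorem frob_frob (L : LevelQ D X) (M : GlueMod D X.Vq) (P : SSP D) :
    (L.glueData M).frob ((L.glueData M).frob P) = P := by
  apply Subtype.ext
  apply AlgHom.ext
  rintro ⟨x, hx⟩
  exact (L.glueData M).ev_VV P x hx

theorem LevelB.mem_BB {L : LevelQ D X} (B : LevelB L) {y : E} (hy : y ∈ L.Bq) :
    B.be y ∈ BB D := by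
  obtain ⟨h0, h1, h2⟩ := L.mem_Bq_iff.1 hy
  refine ⟨(D.mem_O_iff _).2 fun i => ?_, B.int y h2⟩
  fin_cases i
  · exact L.V0_eq ▸ B.mem0 y h0
  · exact L.V1_eq ▸ B.mem1 y h1
  · exact L.V2_eq ▸ B.mem2 y h1

/-- a unit at `W0` maps to a unit. -/
theorem ord_eq_zero_of_unit {F κ F₂ κ₂ : Type*} [Field F] [Field κ] [Field F₂] [Field κ₂]
    {v : DV F κ} {w : DV F₂ κ₂} (φ : F →+* F₂) (h : ∀ y ∈ v.O, φ y ∈ w.O) {y : F} (hy : y ≠ 0)
    (hy0 : v.ord y = 0) : w.ord (φ y) = 0 := by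
  have h1 : φ y ≠ 0 := (_root_.map_ne_zero φ).2 hy
  have h2 := (w.mem_iff _ h1).1 (h y (v.mem_of_ord_eq_zero hy hy0))
  have h3 := (w.mem_iff _ (inv_ne_zero h1)).1 (by
    rw [← map_inv₀]
    exact h _ (v.inv_mem_of_ord_eq_zero hy hy0))
  rw [w.ord_inv h1] at h3
  omega

end

section

variable {K F k Er F' E : Type*} [Field K] [Field F] [Algebra K F] [Field k] [CommRing Er]
    [Algebra k Er] [Field F'] [Algebra k F'] [Field E] [Algebra K E] {q : ℕ}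
    {D : Data K F k Er F' q} {X : Setup K E F F' k q}
    [IsFF K E] [IsFF K F] [IsFF k F'] [IsAlgClosed k]

omit [IsFF K E] in
/-- The general case of `ZT` implies being a constant times an `n`-th power. -/
theorem isKPow_of_zt (L : LevelQ D X) (M : GlueMod D X.Vq) (Nm : D.Num) (G : D.Glue) {n : ℕ}
    (hn : (n : k) ≠ 0) {ψ : F} (hψ : ψ ≠ 0) (h1 : GlueData.RedOne X ψ)
    (hdvd : ∀ v : Place K F, (n : ℤ) ∣ v.ord ψ) (hz : (L.glueData M).ZT n ψ) :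
    ∃ (c : K) (g : F), c ≠ 0 ∧ g ≠ 0 ∧ ψ = algebraMap K F c * g ^ n := by
  have hn0 : n ≠ 0 := by
    rintro rfl
    simp at hn
  have hnF' : (n : F') ≠ 0 := by
    intro h
    apply hn
    have h2 : algebraMap k F' (n : k) = 0 := by rw [map_natCast, h]
    exact (map_eq_zero_iff _ (algebraMap k F').injective).1 h2
  -- Hensel
  obtain ⟨c0, c1, c2⟩ := GlueData.RedOne.cong (X := X) hψ h1
  obtain ⟨g, hg, ⟨g0, g1, g2⟩, ⟨s0, s1, s2⟩, d0, d1, d2⟩ := X.exists_cong_one hnF' c0 c1 c2 q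
  have hgn := pow_ne_zero n hg
  set ψ' : F := ψ * (g ^ n)⁻¹ with hψ'
  have hψ'0 : ψ' ≠ 0 := mul_ne_zero hψ (inv_ne_zero hgn)
  have hcong : GlueData.CongAll X q ψ' := ⟨d0, d1, d2⟩
  have hq := D.q_two_le
  have hzt : (L.glueData M).ZT n ψ' := by
    intro P h hh
    have hh' : h * g ∈ (L.glueData M).MM n ψ := by
      refine ⟨⟨mul_mem hh.1.1 (X.V0.mem_of_ord_eq_zero hg g0),
        mul_mem hh.1.2.1 (X.V1.mem_of_ord_eq_zero hg g1),
        mul_mem hh.1.2.2 (X.V2.mem_of_ord_eq_zero hg g2)⟩, ?_⟩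
      have : (h * g) ^ n * ψ⁻¹ = h ^ n * (ψ * (g ^ n)⁻¹)⁻¹ := by
        rw [mul_inv ψ (g ^ n)⁻¹, inv_inv, mul_pow]; ring
      rw [this]; exact hh.2
    obtain ⟨e1, e2⟩ := hz P _ hh'
    rw [X.V0.red_mul hh.1.1 (X.V0.mem_of_ord_eq_zero hg g0), s0, mul_one] at e1 e2
    rw [X.V1.red_mul hh.1.2.1 (X.V1.mem_of_ord_eq_zero hg g1), s1, mul_one] at e1
    rw [X.V2.red_mul hh.1.2.2 (X.V2.mem_of_ord_eq_zero hg g2), s2, mul_one] at e2
    exact ⟨e1, e2⟩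
  obtain ⟨hψO, hψr⟩ := L.r_of_congAll (D := D) le_rfl hcong
  have T := L.tw_of_congAll (D := D) hn0 hψ'0 (by omega) hcong
  have hinv : ψ'⁻¹ ∈ D.R.O := by
    rw [D.mem_O_iff]
    exact fun i => (D.v i).inv_mem_of_ord_eq_zero hψ'0 (T.ord i)
  have hdvd' : ∀ v : Place K F, (n : ℤ) ∣ v.ord ψ' := by
    intro v
    rw [hψ', v.ord_mul hψ (inv_ne_zero hgn), v.ord_inv, FF.ord_pow]
    exact (hdvd v).add ((dvd_mul_right _ _).neg_right)
  obtain ⟨Dv, hD0, hD⟩ := exists_div hn0 hdvd'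
  have key : Divisor.IsPrincipal Dv := by
    refine torsInj_of_num Nm G n ψ' Dv hn hD0 hD hψO hψr fun P hP h hO hint i => ?_
    have hP' : P ⟨ut D, ut_mem D⟩ = 0 := by
      rw [← ev_of_mem P (ut_mem D)]
      exact hP
    have hMM : h ∈ (L.glueData M).MM n ψ' := by
      refine ⟨⟨L.V0_eq ▸ (D.mem_O_iff h).1 hO 0, L.V1_eq ▸ (D.mem_O_iff h).1 hO 1,
        L.V2_eq ▸ (D.mem_O_iff h).1 hO 2⟩, mul_mem (pow_mem hO n) hinv, ?_⟩
      rw [← div_eq_mul_inv]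
      exact hint
    have hz' := hzt (⟨P, hP'⟩ : SSP D) h hMM
    have hevt : ∀ x : F', (L.glueData M).evt (⟨P, hP'⟩ : SSP D) x = ev P x := by
      intro x
      by_cases hx : x ∈ ic k D.jt
      · rw [ev_of_mem P hx]
        exact (L.glueData M).evt_of_mem (⟨P, hP'⟩ : SSP D) (show x ∈ (L.glueData M).Bt from hx)
      · rw [ev, dif_neg hx]
        exact dif_neg hx
    rw [hevt, hevt, hevt, L.red0_eq, L.red1_eq, L.red2_eq] at hz'
    fin_cases i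
    · exact hz'.1
    · rfl
    · exact hz'.2.symm.trans hz'.1
  obtain ⟨g', hg', e⟩ := key
  obtain ⟨c, hc⟩ := exists_const_of_ell (K := K) Nm.ell_zero (f := ψ' * (g' ^ n)⁻¹) (fun v => by
    rw [v.ord_mul hψ'0 (inv_ne_zero (pow_ne_zero _ hg')), v.ord_inv, FF.ord_pow, ← hD v, e v]
    omega)
  have hc0 : c ≠ 0 := by
    rintro rfl
    rw [map_zero] at hc
    exact mul_ne_zero hψ'0 (inv_ne_zero (pow_ne_zero _ hg')) hc
  refine ⟨c, g' * g, hc0, mul_ne_zero hg' hg, ?_⟩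
  have hg'n := pow_ne_zero n hg'
  rw [← hc, hψ', mul_pow]
  field_simp

/-- **Closing step.** -/
theorem close (L : LevelQ D X) (M : GlueMod D X.Vq) (B : LevelB L) (Nm : D.Num) (G : D.Glue)
    {n : ℕ} (hn : (n : k) ≠ 0) {Pr : E → Prop} (S : Supply L M n Pr) {ψ : F} (hψ : ψ ≠ 0)
    (h1 : GlueData.RedOne X ψ) (hdvd : ∀ v : Place K F, (n : ℤ) ∣ v.ord ψ) :
    ∃ (f₁ f₂ : E) (c : K) (g : F), f₁ ≠ 0 ∧ f₂ ≠ 0 ∧ Pr f₁ ∧ Pr f₂ ∧ c ≠ 0 ∧ g ≠ 0 ∧
      ψ * L.al f₁ * B.be f₂ = algebraMap K F c * g ^ n := by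
  have hn0 : n ≠ 0 := by
    rintro rfl
    simp at hn
  set Gd := L.glueData M with hGd
  -- sections
  obtain ⟨Dv, hD0, hD⟩ := exists_div hn0 hdvd
  have T : D.Tw n ψ := by
    refine ⟨hn0, hψ, fun i => ?_, fun i => ?_⟩
    · fin_cases i
      · exact L.V0_eq ▸ h1.1.1
      · exact L.V1_eq ▸ h1.1.2.1
      · exact L.V2_eq ▸ h1.1.2.2
    · fin_cases i
      · exact L.V0_eq ▸ h1.2.1
      · exact L.V1_eq ▸ h1.2.2.1
      · exact L.V2_eq ▸ h1.2.2.2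
  obtain ⟨h, hO, hint, hr1⟩ := exists_section (numerics_of_num Nm) T hD0 hD
  have hinv : ψ⁻¹ ∈ D.R.O := by
    rw [D.mem_O_iff]
    exact fun i => (D.v i).inv_mem_of_ord_eq_zero hψ (T.ord i)
  have hh : h ∈ Gd.MM n ψ := by
    refine ⟨⟨L.V0_eq ▸ (D.mem_O_iff h).1 hO 0, L.V1_eq ▸ (D.mem_O_iff h).1 hO 1,
      L.V2_eq ▸ (D.mem_O_iff h).1 hO 2⟩, mul_mem (pow_mem hO n) hinv, ?_⟩
    rw [← div_eq_mul_inv]
    exact hint
  have hr1' : ∀ P, Gd.evt P (X.V1.red h) = 1 := by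
    intro P
    rw [L.red1_eq, hr1]
    have := Gd.evt_const P 1
    rwa [map_one] at this
  have hz0 : ∀ P, Gd.evt P (X.V0.red h) ^ n = 1 := by
    intro P
    rw [Gd.pow_eq01 hn0 hψ h1 hh P, hr1', one_pow]
  have hz2 : ∀ P, Gd.evt P (X.V2.red h) ^ n = 1 := by
    intro P
    rw [← Gd.pow_eq02 hn0 hψ h1 hh P, hz0]
  have hne : ∀ {x : k}, x ^ n = 1 → x ≠ 0 := by
    rintro x hx rfl
    rw [zero_pow hn0] at hx
    exact zero_ne_one hx
  -- the supply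
  obtain ⟨f₁, hf₁, p₁, a0, a1, a2, a3, hdvd1, hs₁⟩ := S (fun P => (Gd.evt P (X.V2.red h))⁻¹)
    (fun P => by rw [inv_pow, hz2, inv_one])
  obtain ⟨f₂, hf₂, p₂, b0, b1, b2, b3, hdvd2, hs₂⟩ := S (fun P => Gd.evt (Gd.frob P) (X.V0.red h))
    (fun P => hz0 _)
  have hal : L.al f₁ ≠ 0 := (_root_.map_ne_zero _).2 hf₁
  have hbe : B.be f₂ ≠ 0 := (_root_.map_ne_zero _).2 hf₂
  set ψ' : F := ψ * L.al f₁ * B.be f₂ with hψ'
  have hψ'0 : ψ' ≠ 0 := mul_ne_zero (mul_ne_zero hψ hal) hbe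
  -- orders and reductions
  have al0 : ∀ y ∈ X.W0.O, L.al y ∈ X.V0.O := fun y hy => (L.mem0 y).2 hy
  have al2 : ∀ y ∈ X.W1.O, L.al y ∈ X.V2.O := fun y hy => (L.mem2 y).2 hy
  have oa0 : X.V0.ord (L.al f₁) = 0 := ord_eq_zero_of_unit (L.al : E →+* F) al0 hf₁ a0
  have oa1 : X.V1.ord (L.al f₁) = 0 := ord_eq_zero_of_unit (L.al : E →+* F) L.mem1 hf₁ a0
  have oa2 : X.V2.ord (L.al f₁) = 0 := ord_eq_zero_of_unit (L.al : E →+* F) al2 hf₁ a1
  have ob0 : X.V0.ord (B.be f₂) = 0 := ord_eq_zero_of_unit (B.be : E →+* F) B.mem0 hf₂ b0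
  have ob1 : X.V1.ord (B.be f₂) = 0 := ord_eq_zero_of_unit (B.be : E →+* F) B.mem1 hf₂ b1
  have ob2 : X.V2.ord (B.be f₂) = 0 := ord_eq_zero_of_unit (B.be : E →+* F) B.mem2 hf₂ b1
  have mf1 := X.W0.mem_of_ord_eq_zero hf₁ a0
  have mf1' := X.W1.mem_of_ord_eq_zero hf₁ a1
  have mf2 := X.W0.mem_of_ord_eq_zero hf₂ b0
  have mf2' := X.W1.mem_of_ord_eq_zero hf₂ b1
  have hone : GlueData.RedOne X ψ' := by
    obtain ⟨⟨o0, o1, o2⟩, r0, r1, r2⟩ := h1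
    have m0 := X.V0.mem_of_ord_eq_zero hψ o0
    have m1 := X.V1.mem_of_ord_eq_zero hψ o1
    have m2 := X.V2.mem_of_ord_eq_zero hψ o2
    refine ⟨⟨?_, ?_, ?_⟩, ?_, ?_, ?_⟩
    · rw [hψ', X.V0.ord_mul _ _ (mul_ne_zero hψ hal) hbe, X.V0.ord_mul _ _ hψ hal, o0, oa0, ob0]
      rfl
    · rw [hψ', X.V1.ord_mul _ _ (mul_ne_zero hψ hal) hbe, X.V1.ord_mul _ _ hψ hal, o1, oa1, ob1]
      rfl
    · rw [hψ', X.V2.ord_mul _ _ (mul_ne_zero hψ hal) hbe, X.V2.ord_mul _ _ hψ hal, o2, oa2, ob2]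
      rfl
    · rw [hψ', X.V0.red_mul (mul_mem m0 (al0 _ mf1)) (B.mem0 _ mf2), X.V0.red_mul m0 (al0 _ mf1),
        r0, L.red0 _ mf1, a2, B.red0 _ mf2, b2, map_one]
      simp
    · rw [hψ', X.V1.red_mul (mul_mem m1 (L.mem1 _ mf1)) (B.mem1 _ mf2'),
        X.V1.red_mul m1 (L.mem1 _ mf1), r1, B.al_red1 _ mf1, a2, B.red1 _ mf2', b3]
      simp
    · rw [hψ', X.V2.red_mul (mul_mem m2 (al2 _ mf1')) (B.mem2 _ mf2'),
        X.V2.red_mul m2 (al2 _ mf1'), r2, L.red2 _ mf1', a3, B.red2 _ mf2', b3, map_one]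
      simp
  have hdvd' : ∀ v : Place K F, (n : ℤ) ∣ v.ord ψ' := by
    intro v
    rw [hψ', v.ord_mul (mul_ne_zero hψ hal) hbe, v.ord_mul hψ hal]
    exact ((hdvd v).add (dvd_ord_map L.al hdvd1 v)).add (dvd_ord_map B.be hdvd2 v)
  have hzt : Gd.ZT n ψ' := by
    intro P x hx
    obtain ⟨y₁, c1, c2, c3, c4, c5⟩ := hs₁ P
    obtain ⟨y₂, e1, e2, e3, e4, e5⟩ := hs₂ (Gd.frob P)
    rw [← hGd] at c4 c5 e4 e5
    have hff : Gd.frob (Gd.frob P) = P := frob_frob L M P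
    simp only [hff] at e5
    -- memberships of reductions
    have key : ∀ (f : E), f ≠ 0 → X.W0.ord f = 0 → X.W0.red f = 1 → ∀ y : E, y ^ n * f⁻¹ ∈ L.Bq →
        y ∈ X.W0.O → X.W0.red y ∈ Gd.Bt := by
      intro f hf hf0 hf1 y hy hy0
      apply Gd.mem_of_pow _ n hn0
      have h2 := Gd.Bq_red0 _ hy
      rwa [X.W0.red_mul (pow_mem hy0 n) (X.W0.inv_mem_of_ord_eq_zero hf hf0), X.W0.red_inv hf hf0,
        hf1, inv_one, mul_one, X.W0.red_pow hy0] at h2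
    have key' : ∀ (f : E), f ≠ 0 → X.W1.ord f = 0 → X.W1.red f = 1 → ∀ y : E,
        y ^ n * f⁻¹ ∈ L.Bq → y ∈ X.W1.O → X.W1.red y ∈ Gd.Bt := by
      intro f hf hf0 hf1 y hy hy0
      apply Gd.mem_of_pow _ n hn0
      have h2 := Gd.Bq_red1 _ hy
      rwa [X.W1.red_mul (pow_mem hy0 n) (X.W1.inv_mem_of_ord_eq_zero hf hf0), X.W1.red_inv hf hf0,
        hf1, inv_one, mul_one, X.W1.red_pow hy0] at h2
    have k1 := key f₁ hf₁ a0 a2 y₁ c1 c2
    have k1' := key' f₁ hf₁ a1 a3 y₁ c1 c3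
    have k2 := key f₂ hf₂ b0 b2 y₂ e1 e2
    have k2' := key' f₂ hf₂ b1 b3 y₂ e1 e3
    have t0 := Gd.red0_mem hn0 hψ h1 hh
    have t1 := Gd.red1_mem hn0 hψ h1 hh
    have t2 := Gd.red2_mem hn0 hψ h1 hh
    -- the section of `ψ'`
    have hw : h * L.al y₁ * B.be y₂ ∈ Gd.MM n ψ' := by
      refine ⟨⟨mul_mem (mul_mem hh.1.1 (al0 _ c2)) (B.mem0 _ e2),
        mul_mem (mul_mem hh.1.2.1 (L.mem1 _ c2)) (B.mem1 _ e3),
        mul_mem (mul_mem hh.1.2.2 (al2 _ c3)) (B.mem2 _ e3)⟩, ?_⟩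
      have : (h * L.al y₁ * B.be y₂) ^ n * ψ'⁻¹ =
          (h ^ n * ψ⁻¹) * L.al (y₁ ^ n * f₁⁻¹) * B.be (y₂ ^ n * f₂⁻¹) := by
        rw [hψ', map_mul, map_mul, map_pow, map_pow, map_inv₀, map_inv₀]
        rw [mul_inv, mul_inv, mul_pow, mul_pow]
        ring
      rw [this]
      exact mul_mem (mul_mem hh.2 (L.mem_Bq.1 c1)) (B.mem_BB e1)
    have v0 : Gd.evt P (X.V0.red (h * L.al y₁ * B.be y₂)) =
        Gd.evt P (X.V0.red h) * Gd.evt P (X.W0.red y₁) * Gd.evt (Gd.frob P) (X.W0.red y₂) := by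
      rw [X.V0.red_mul (mul_mem hh.1.1 (al0 _ c2)) (B.mem0 _ e2), X.V0.red_mul hh.1.1 (al0 _ c2),
        L.red0 _ c2, B.red0 _ e2, Gd.evt_mul P (mul_mem t0 k1) (Gd.Vq_mem _ k2),
        Gd.evt_mul P t0 k1, Gd.evt_frob P k2]
    have v1 : Gd.evt P (X.V1.red (h * L.al y₁ * B.be y₂)) =
        Gd.evt P (X.V0.red h) * Gd.evt P (X.W0.red y₁) * Gd.evt (Gd.frob P) (X.W0.red y₂) := by
      rw [X.V1.red_mul (mul_mem hh.1.2.1 (L.mem1 _ c2)) (B.mem1 _ e3),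
        X.V1.red_mul hh.1.2.1 (L.mem1 _ c2), B.al_red1 _ c2, B.red1 _ e3,
        Gd.evt_mul P (mul_mem t1 k1) k2', Gd.evt_mul P t1 k1, hr1', one_mul,
        ← Gd.evt_VV P k2', ← Gd.evt_frob P (Gd.Vq_mem _ k2'), e5]
      ring
    have v2 : Gd.evt P (X.V2.red (h * L.al y₁ * B.be y₂)) =
        Gd.evt P (X.V0.red h) * Gd.evt P (X.W0.red y₁) * Gd.evt (Gd.frob P) (X.W0.red y₂) := by
      rw [X.V2.red_mul (mul_mem hh.1.2.2 (al2 _ c3)) (B.mem2 _ e3),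
        X.V2.red_mul hh.1.2.2 (al2 _ c3), L.red2 _ c3, B.red2 _ e3,
        Gd.evt_mul P (mul_mem t2 (Gd.Vq_mem _ k1')) k2', Gd.evt_mul P t2 (Gd.Vq_mem _ k1'), c5,
        ← Gd.evt_VV P k2', ← Gd.evt_frob P (Gd.Vq_mem _ k2'), e5]
      have hz := hne (hz2 P)
      field_simp
    have hv : Gd.evt P (X.V0.red h) * Gd.evt P (X.W0.red y₁) *
        Gd.evt (Gd.frob P) (X.W0.red y₂) ≠ 0 :=
      mul_ne_zero (mul_ne_zero (hne (hz0 P)) c4) e4
    have l1 := Gd.line01 hn0 hψ'0 hone (L.MM_add M hn0 ψ') hx hw P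
    have l2 := Gd.line02 hn0 hψ'0 hone (L.MM_add M hn0 ψ') hx hw P
    rw [v0, v1] at l1
    rw [v0, v2] at l2
    exact ⟨mul_right_cancel₀ hv l1, mul_right_cancel₀ hv l2⟩
  obtain ⟨c, g, hc, hg, he⟩ := isKPow_of_zt L M Nm G hn hψ'0 hone hdvd' hzt
  exact ⟨f₁, f₂, c, g, hf₁, hf₂, p₁, p₂, hc, hg, he⟩

end

end Fermat.Agent.TriLow
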