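import Fermat.Agent.TriLow.SupplyAbs

/-!
# Rational representatives of toric torsion classes: main theorem (abstract form)
-/

set_option autoImplicit false
set_option linter.unusedSectionVars false

open AlgebraicCurve WithZero Module Polynomial
open scoped IntermediateField
open Fermat.Agent.RR Fermat.Agent.Deuring Fermat.Agent.FF Fermat.Agent.TwoComp
open Fermat.Agent.TwoComp.Data Fermat.Agent.QX4

namespace Fermat.Agent.TriLow

variable {K Fm F k F' : Type*} [Field K] [Field Fm] [Algebra K Fm] [Field F]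
    [Algebra K F] [Field k] [Field F'] [Algebra k F'] {q : ℕ}
    [IsFF K F] {D : Data K Fm F k F' q} {G : Type*} [Group G] {gal : G →* SemilinearAut K F}

/-- Invariant torsion classes are represented by invariant functions. -/
def RepHyp (gal : G →* SemilinearAut K F) : Prop :=
  ∀ (n : ℕ), 0 < n → ∀ x : Pic0 K F, n • x = 0 → (∀ σ, gal σ • x = x) →
    ∃ (D₀ : Divisor.degZero (K := K) (F := F)) (f : F), f ≠ 0 ∧ x = Pic0.mk D₀ ∧
      (∀ v : Place K F, v.ord f = n * (D₀ : Divisor K F) v) ∧ f ∈ fixF gal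

theorem Rd.smul₁ {g : SemilinearAut K F} (hg : D.Act g id) {f : F} {b : F'}
    (h : Rd D.O₁ D.ρ₁ f b) : Rd D.O₁ D.ρ₁ (g • f) b := by
  obtain ⟨h1, rfl⟩ := h
  exact ⟨hg.mem₁ f h1, hg.ρ₁ f h1⟩

theorem Rd.smul₂ {g : SemilinearAut K F} (hg : D.Act g id) {f : F} {b : F'}
    (h : Rd D.O₂ D.ρ₂ f b) : Rd D.O₂ D.ρ₂ (g • f) b := by
  obtain ⟨h1, rfl⟩ := h
  exact ⟨hg.mem₂ f h1, hg.ρ₂ f h1⟩

theorem Tor.rd₁ {n : ℕ} {E : Divisor K F} {φ : D.R.O} (h : D.Tor n E φ) :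
    Rd D.O₁ D.ρ₁ (φ : F) 1 := ⟨φ.2.1, congrArg Prod.fst h.ρ_eq⟩

theorem Tor.rd₂ {n : ℕ} {E : Divisor K F} {φ : D.R.O} (h : D.Tor n E φ) :
    Rd D.O₂ D.ρ₂ (φ : F) 1 := ⟨φ.2.2, congrArg Prod.snd h.ρ_eq⟩

theorem M_le_M_add_div {E : Divisor K F} {g : F} (h₁ : Rd D.O₁ D.ρ₁ g 1)
    (h₂ : Rd D.O₂ D.ρ₂ g 1) (N : ℕ) : D.M E N ≤ D.M (E + RR.div g) N := by
  have hg0 : g ≠ 0 := h₁.ne_zero one_ne_zero
  rintro _ ⟨f, hf, rfl⟩
  refine ⟨⟨g, h₁.mem, h₂.mem⟩ * f, ?_, ?_⟩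
  · change g * (f : F) ∈ riemannRochSpace _
    rcases eq_or_ne (f : F) 0 with h0 | h0
    · rw [h0, mul_zero]; exact Submodule.zero_mem _
    rw [mem_L_iff h0] at hf
    rw [mem_L_iff (mul_ne_zero hg0 h0)]
    intro v
    have h1 := hf v
    rw [Finsupp.sub_apply] at h1
    rw [v.ord_mul hg0 h0, Finsupp.sub_apply, Finsupp.add_apply, RR.div_apply]
    linarith
  · rw [map_mul]
    have h1 : D.R.ρ ⟨g, h₁.mem, h₂.mem⟩ = 1 := Prod.ext h₁.2 h₂.2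
    rw [h1, one_mul]

theorem M_add_div {E : Divisor K F} {g : F} (h₁ : Rd D.O₁ D.ρ₁ g 1)
    (h₂ : Rd D.O₂ D.ρ₂ g 1) (N : ℕ) : D.M (E + RR.div g) N = D.M E N := by
  refine le_antisymm ?_ (M_le_M_add_div h₁ h₂ N)
  have h₁' := h₁.inv D.ρ₁_eq_zero_iff one_ne_zero
  have h₂' := h₂.inv D.ρ₂_eq_zero_iff one_ne_zero
  rw [inv_one] at h₁' h₂'
  have h := M_le_M_add_div (E := E + RR.div g) h₁' h₂' N
  have e : E + RR.div g + RR.div g⁻¹ = E := by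
    ext v
    rw [Finsupp.add_apply, Finsupp.add_apply, RR.div_apply, RR.div_apply, v.ord_inv]
    ring
  rwa [e] at h

namespace Inertia

variable (I : Inertia D gal) [IsFF k F'] [IsFF K Fm] [IsAlgClosed k] [IsAlgClosed K]

include I

theorem exists_first (hq : 2 ≤ q) (arch : D.Arch) (hrep : RepHyp gal) {n : ℕ}
    (hn : (n : k) ≠ 0) {E : Divisor K F} {φ : D.R.O} (h : D.Tor n E φ) :
    ∃ (g : F) (b : F'), g ≠ 0 ∧ (φ : F) * g ^ n ∈ fixF gal ∧ b ≠ 0 ∧ Rd D.O₁ D.ρ₁ g b := by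
  have hn0 : 0 < n := Nat.pos_of_ne_zero (by rintro rfl; simp at hn)
  let E' : Divisor.degZero (K := K) (F := F) := ⟨E, Divisor.mem_degZero.mpr h.deg⟩
  have h1 : n • Pic0.mk E' = 0 := by
    have : n • Pic0.mk E' = Pic0.mk (n • E') := rfl
    rw [this, mk_eq_zero_iff]
    refine ⟨φ, h.ne_zero, fun v => ?_⟩
    rw [h.ord, AddSubgroup.coe_nsmul, Finsupp.smul_apply, nsmul_eq_mul]
  have h2 : ∀ σ, gal σ • Pic0.mk E' = Pic0.mk E' := by
    intro σ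
    rw [SemilinearAut.pic0_smul_mk]
    apply mk_eq_mk_of
    rw [SemilinearAut.coe_degZeroSMulHom]
    exact (I.act σ).isPrincipal_smul_sub hq arch hn h
  obtain ⟨D₀, f₀, hf₀, hx, ho, hfix⟩ := hrep n hn0 _ h1 h2
  obtain ⟨a, b₁, hb₁, hR⟩ := I.exists_zpow₁ (by omega) arch hfix hf₀
  have hc0 : algebraMap K F (I.ϖ ^ a) ≠ 0 :=
    (_root_.map_ne_zero _).mpr (zpow_ne_zero _ I.ϖ_ne_zero)
  obtain ⟨g, hg0, hg⟩ := exists_common_root hn0 hx h.ne_zero (mul_ne_zero hc0 hf₀) h.ord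
    (fun v => by
      rw [v.ord_mul hc0 hf₀, ord_algebraMap_eq_zero v (zpow_ne_zero _ I.ϖ_ne_zero), zero_add, ho])
  have hgn : Rd D.O₁ D.ρ₁ (g ^ n) (b₁ / 1) := by
    rw [hg, mul_comm] at hR
    exact hR.of_mul D.ρ₁_eq_zero_iff (Tor.rd₁ h) one_ne_zero
  obtain ⟨b, hb, hbn⟩ := hgn.of_pow hn0
  refine ⟨g, b, hg0, ?_, ?_, hb⟩
  · rw [← hg]
    exact mul_mem (I.ϖ_zpow_fix a) hfix
  · rintro rfl
    rw [zero_pow hn0.ne', div_one] at hbn
    exact hb₁ hbn.symm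

/-- The cocycle is congruent to one on the second component. -/
theorem kappa₂ {n : ℕ} (hn0 : 0 < n) {T : D.NodeSet} (hNd : T.Nd.Nonempty)
    {E : Divisor K F} {φ : D.R.O} (h : D.Tor n E φ) {ζ : (D.Rb →ₐ[k] k) → k}
    (hζ1 : ∀ s ∈ T.Nd, ζ s ^ n = 1) (hζ : T.IsGlue E ζ) {g : F} {b : F'} (hg0 : g ≠ 0)
    (hfix : (φ : F) * g ^ n ∈ fixF gal) (hb : b ≠ 0) (hg : Rd D.O₁ D.ρ₁ g b) (σ : G) :
    Rd D.O₂ D.ρ₂ (gal σ • g * g⁻¹) 1 := by
  set κ : F := gal σ • g * g⁻¹ with hκ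
  have hσg0 : gal σ • g ≠ 0 := by rwa [Ne, smul_eq_zero_iff_eq]
  have hκ0 : κ ≠ 0 := mul_ne_zero hσg0 (inv_ne_zero hg0)
  have hφ0 := h.ne_zero
  have hσφ0 : gal σ • (φ : F) ≠ 0 := by rwa [Ne, smul_eq_zero_iff_eq]
  have hκn : κ ^ n = (φ : F) * (gal σ • (φ : F))⁻¹ := by
    have h1 := hfix σ
    rw [smul_mul', smul_pow'] at h1
    rw [hκ, mul_pow, inv_pow]
    have hgn := pow_ne_zero n hg0
    field_simp
    rw [mul_comm, h1, mul_comm]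
  -- reductions
  have hφ₁ := Tor.rd₁ h
  have hφ₂ := Tor.rd₂ h
  have hκ₁ : Rd D.O₁ D.ρ₁ κ 1 := by
    have h1 := (Rd.smul₁ (I.act σ) hg).mul (hg.inv D.ρ₁_eq_zero_iff hb)
    rwa [mul_inv_cancel₀ hb] at h1
  have hκn₂ : Rd D.O₂ D.ρ₂ (κ ^ n) 1 := by
    rw [hκn]
    have h1 := hφ₂.mul ((Rd.smul₂ (I.act σ) hφ₂).inv D.ρ₂_eq_zero_iff one_ne_zero)
    rwa [inv_one, mul_one] at h1
  obtain ⟨ω, hω, hωn⟩ := hκn₂.of_pow hn0
  -- orders
  have hord : ∀ v : Place K F, v.ord κ = E v - (gal σ • E) v := by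
    intro v
    have h1 := congrArg v.ord hκn
    have h2 : v.ord (gal σ • (φ : F)) = n * (gal σ • E) v := by
      obtain ⟨w, rfl⟩ : ∃ w : Place K F, v = gal σ • w :=
        ⟨(gal σ)⁻¹ • v, (smul_inv_smul (gal σ) v).symm⟩
      rw [SemilinearAut.divisor_smul_apply_smul, SemilinearAut.ord_smul, h.ord]
    rw [ord_pow, v.ord_mul hφ0 (inv_ne_zero hσφ0), v.ord_inv, h.ord, h2] at h1
    have hn' : (n : ℤ) ≠ 0 := by exact_mod_cast hn0.ne'
    apply mul_left_cancel₀ hn'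
    rw [h1]; ring
  -- the action on `M E N`
  have hM : ∀ (N : ℕ) (w : F' × F'), w ∈ D.M E N → (w.1, ω * w.2) ∈ D.M E N := by
    rintro N _ ⟨f, hf, rfl⟩
    refine ⟨⟨κ, hκ₁.mem, hω.mem⟩ * (I.act σ).app f, ?_, ?_⟩
    · change κ * (gal σ • (f : F)) ∈ _
      rcases eq_or_ne (f : F) 0 with h0 | h0
      · rw [h0, smul_zero, mul_zero]; exact Submodule.zero_mem _
      have h1 := smul_mem_L (gal σ) hf
      rw [smul_sub, smul_comm, (I.act σ).smul_E₀] at h1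
      have hσf0 : gal σ • (f : F) ≠ 0 := by rwa [Ne, smul_eq_zero_iff_eq]
      rw [mem_L_iff hσf0] at h1
      rw [mem_L_iff (mul_ne_zero hκ0 hσf0)]
      intro v
      have h2 := h1 v
      rw [Finsupp.sub_apply] at h2
      rw [v.ord_mul hκ0 hσf0, hord, Finsupp.sub_apply]
      linarith
    · rw [map_mul, (I.act σ).ρ_app]
      have h1 : D.R.ρ ⟨κ, hκ₁.mem, hω.mem⟩ = (1, ω) := Prod.ext hκ₁.2 hω.2
      rw [h1, Prod.mk_mul_mk, one_mul]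
      rfl
  obtain ⟨r, N₁, hr, hrN⟩ := hζ.exists_wit
  obtain ⟨N₃, h₃⟩ := hζ
  have h4 := hM (max N₁ N₃) _ (hrN _ (le_max_left _ _))
  rw [h₃ _ (le_max_right _ _)] at h4
  obtain ⟨d, hd, hdn⟩ := exists_const_of_pow_eq_one (k := k) hn0.ne' hωn
  have hω1 : ω * ((1 : D.Rb) : F') = ((algebraMap k D.Rb d : D.Rb) : F') := by
    rw [← hd]
    exact mul_one _
  have h5 : ((r : F'), ((algebraMap k D.Rb d : D.Rb) : F')) ∈ T.Uz ζ (max N₁ N₃) := by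
    rw [← hω1]
    exact h4
  obtain ⟨s, hs⟩ := hNd
  have h6 := (NodeSet.mem_Uz.mp h5).2 s hs
  rw [hr s hs, AlgHom.commutes, AlgHom.commutes] at h6
  have hζ0 : ζ s ≠ 0 := by
    intro h0
    have := hζ1 s hs
    rw [h0, zero_pow hn0.ne'] at this
    exact zero_ne_one this
  have hd1 : d = 1 := by
    apply mul_left_cancel₀ hζ0
    rw [mul_one]
    exact h6.symm
  rw [← hd, hd1, map_one] at hω
  exact hω

/-- **No slopes.** -/
theorem exists_slope (hq : 2 ≤ q) (arch : D.Arch) {n : ℕ} (hn : (n : k) ≠ 0) {E : Divisor K F}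
    {φ : D.R.O} (h : D.Tor n E φ) {g : F} (hg0 : g ≠ 0)
    (hfix : (φ : F) * g ^ n ∈ fixF gal)
    (hκ : ∀ σ, Rd D.O₂ D.ρ₂ (gal σ • g * g⁻¹) 1) :
    ∃ (a : ℤ) (b : F'), b ≠ 0 ∧ Rd D.O₂ D.ρ₂ (algebraMap K F (I.ϖ ^ (-a)) * g) b := by
  have hn0 : 0 < n := Nat.pos_of_ne_zero (by rintro rfl; simp at hn)
  have hφ0 := h.ne_zero
  obtain ⟨b, β, hβ, hR⟩ := I.exists_zpow₂ (by omega) arch hfix
    (mul_ne_zero hφ0 (pow_ne_zero n hg0))
  obtain ⟨π, hπ⟩ := IsAlgClosed.exists_pow_nat_eq I.ϖ hn0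
  have hπ0 : π ≠ 0 := by
    rintro rfl
    rw [zero_pow hn0.ne'] at hπ
    exact I.ϖ_ne_zero hπ.symm
  set c : K := π ^ b with hc
  have hc0 : c ≠ 0 := zpow_ne_zero _ hπ0
  have hcn : c ^ n = I.ϖ ^ b := by
    rw [hc, ← hπ, ← zpow_natCast, ← zpow_natCast, ← zpow_mul, ← zpow_mul, mul_comm]
  have hcF : algebraMap K F c ≠ 0 := (_root_.map_ne_zero _).mpr hc0
  have hcg0 : algebraMap K F c * g ≠ 0 := mul_ne_zero hcF hg0
  obtain ⟨β', hβ', hβn⟩ : ∃ β', Rd D.O₂ D.ρ₂ (algebraMap K F c * g) β' ∧ β' ^ n = β / 1 := by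
    apply Rd.of_pow hn0
    refine Rd.of_mul D.ρ₂_eq_zero_iff ?_ (Tor.rd₂ h) one_ne_zero
    have e : (algebraMap K F c * g) ^ n * (φ : F) =
        algebraMap K F (I.ϖ ^ b) * ((φ : F) * g ^ n) := by
      rw [mul_pow, ← map_pow, hcn]; ring
    rw [e]
    exact hR
  have hβ0 : β' ≠ 0 := by
    rintro rfl
    rw [zero_pow hn0.ne', div_one] at hβn
    exact hβ hβn.symm
  -- `c` is fixed
  have hcfix : algebraMap K F c ∈ fixF gal := by
    intro σ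
    rw [SemilinearAut.smul_algebraMap]
    set c' := SemilinearAut.baseAut (gal σ) c with hc'
    have hc'F : gal σ • algebraMap K F c = algebraMap K F c' := SemilinearAut.smul_algebraMap _ _
    have h1 : Rd D.O₂ D.ρ₂ (gal σ • (algebraMap K F c * g) * (algebraMap K F c * g)⁻¹) 1 := by
      have h2 := (Rd.smul₂ (I.act σ) hβ').mul (hβ'.inv D.ρ₂_eq_zero_iff hβ0)
      rwa [mul_inv_cancel₀ hβ0] at h2
    have e1 : gal σ • (algebraMap K F c * g) * (algebraMap K F c * g)⁻¹ =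
        algebraMap K F (c' * c⁻¹) * (gal σ • g * g⁻¹) := by
      rw [smul_mul', hc'F, map_mul, map_inv₀, mul_inv]
      ring
    rw [e1] at h1
    have h3 := h1.of_mul D.ρ₂_eq_zero_iff (hκ σ) one_ne_zero
    rw [div_one] at h3
    have hm : c' * c⁻¹ ∈ D.G.A := (D.mem_O₂_iff _).mp h3.mem
    have h4 : D.G.res ⟨c' * c⁻¹, hm⟩ = 1 := by
      apply (algebraMap k F').injective
      rw [← D.ρ₂_algebraMap, map_one]
      exact h3.2
    have h5 : (c' * c⁻¹) ^ n = 1 := by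
      have h6 := I.ϖ_zpow_fix b σ
      rw [SemilinearAut.smul_algebraMap, ← hcn, map_pow] at h6
      have h7 := (algebraMap K F).injective h6
      rw [mul_pow, inv_pow, ← hc'] at *
      rw [h7, mul_inv_cancel₀ (pow_ne_zero _ hc0)]
    have h8 := eq_one_of_res_eq_one D.G.res hn hm h5 h4
    have h9 : c' = c := by
      rw [mul_inv_eq_one₀ hc0] at h8
      exact h8
    rw [h9]
  obtain ⟨a, β'', hβ'', hR'⟩ := I.exists_zpow₁ (by omega) arch hcfix hcF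
  have e2 : (algebraMap K F (I.ϖ ^ a) * algebraMap K F c) ^ n =
      algebraMap K F (I.ϖ ^ (a * n + b)) := by
    rw [← map_mul, ← map_pow, mul_pow, hcn, ← zpow_natCast, ← zpow_mul, ← zpow_add₀ I.ϖ_ne_zero]
  have hab : a * n + b = 0 := by
    have h1 := hR'.pow n
    rw [e2] at h1
    exact I.zpow_eq_zero (pow_ne_zero _ hβ'') h1
  -- `u = c ϖ ^ a` is a root of unity
  have hu : Rd D.O₂ D.ρ₂ ((algebraMap K F (I.ϖ ^ a) * algebraMap K F c) ^ n) 1 := by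
    rw [e2, hab, zpow_zero, map_one]
    exact Rd.one
  obtain ⟨u, hu, hun⟩ := hu.of_pow hn0
  have hu0 : u ≠ 0 := by
    rintro rfl
    rw [zero_pow hn0.ne'] at hun
    exact zero_ne_one hun
  refine ⟨a, β' / u, div_ne_zero hβ0 hu0, ?_⟩
  have h1 := hβ'.div D.ρ₂_eq_zero_iff hu hu0
  have e3 : algebraMap K F (I.ϖ ^ (-a)) * g =
      algebraMap K F c * g / (algebraMap K F (I.ϖ ^ a) * algebraMap K F c) := by
    have : algebraMap K F (I.ϖ ^ a) ≠ 0 :=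
      (_root_.map_ne_zero _).mpr (zpow_ne_zero _ I.ϖ_ne_zero)
    rw [zpow_neg, map_inv₀]
    field_simp
  rw [e3]
  exact h1

/-- **Rational representatives of toric classes.** -/
theorem exists_supply (hq : 2 ≤ q) (arch : D.Arch) (hrep : RepHyp gal) {n : ℕ}
    (hn : (n : k) ≠ 0) {T : D.NodeSet} (hNd : T.Nd.Nonempty) {E : Divisor K F} {φ : D.R.O}
    (h : D.Tor n E φ) {ζ : (D.Rb →ₐ[k] k) → k} (hζ1 : ∀ s ∈ T.Nd, ζ s ^ n = 1)
    (hζ : T.IsGlue E ζ) :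
    ∃ (E₂ : Divisor K F) (f₂ : D.R.O), (f₂ : F) ∈ fixF gal ∧ D.Tor n E₂ f₂ ∧ T.IsGlue E₂ ζ := by
  have hn0 : 0 < n := Nat.pos_of_ne_zero (by rintro rfl; simp at hn)
  have hφ0 := h.ne_zero
  obtain ⟨g, b₁, hg0, hfix, hb₁, hg⟩ := I.exists_first hq arch hrep hn h
  obtain ⟨a, b₂, hb₂, hg₂⟩ := I.exists_slope hq arch hn h hg0 hfix
    (I.kappa₂ hn0 hNd h hζ1 hζ hg0 hfix hb₁ hg)
  obtain ⟨w, hw, hw₁, hw₂⟩ := I.exists_w (by omega) arch a
  obtain ⟨w', hw', hw₁', hw₂'⟩ := I.exists_fixed (by omega) arch b₁ b₂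
  have hw0 := hw₁.ne_zero one_ne_zero
  have hw'0 := hw₁'.ne_zero hb₁
  have hc0 : algebraMap K F (I.ϖ ^ (-a)) ≠ 0 :=
    (_root_.map_ne_zero _).mpr (zpow_ne_zero _ I.ϖ_ne_zero)
  set g₂ : F := g / (w * w') with hg₂def
  have r₁ : Rd D.O₁ D.ρ₁ g₂ 1 := by
    have h1 := hg.div D.ρ₁_eq_zero_iff (hw₁.mul hw₁') (by rwa [one_mul])
    rwa [one_mul, div_self hb₁] at h1
  have r₂ : Rd D.O₂ D.ρ₂ g₂ 1 := by
    have h1 := hg₂.div D.ρ₂_eq_zero_iff (hw₂.mul hw₂') (by rwa [one_mul])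
    rw [one_mul, div_self hb₂, mul_assoc, mul_div_mul_left _ _ hc0] at h1
    exact h1
  have hg₂0 : g₂ ≠ 0 := r₁.ne_zero one_ne_zero
  have m₁ := (Tor.rd₁ h).mul (r₁.pow n)
  have m₂ := (Tor.rd₂ h).mul (r₂.pow n)
  rw [one_pow, mul_one] at m₁ m₂
  refine ⟨E + RR.div g₂, ⟨(φ : F) * g₂ ^ n, m₁.mem, m₂.mem⟩, ?_, ?_, ?_⟩
  · change (φ : F) * g₂ ^ n ∈ fixF gal
    have e : (φ : F) * g₂ ^ n = (φ : F) * g ^ n / (w * w') ^ n := by
      rw [hg₂def, div_pow, mul_div_assoc]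
    rw [e]
    exact div_mem hfix (pow_mem (mul_mem hw hw') n)
  · refine { deg := ?_, ρ_eq := ?_, ord := fun v => ?_ }
    · rw [map_add, h.deg, zero_add]
      exact Divisor.mem_degZero.mp (div_mem_degZero g₂)
    · exact Prod.ext m₁.2 m₂.2
    · change v.ord ((φ : F) * g₂ ^ n) = _
      rw [v.ord_mul hφ0 (pow_ne_zero n hg₂0), h.ord, ord_pow, Finsupp.add_apply, RR.div_apply]
      ring
  · obtain ⟨N₃, h₃⟩ := hζ
    exact ⟨N₃, fun N hN => by rw [M_add_div r₁ r₂, h₃ N hN]⟩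

/-- **Rational sections.** -/
theorem exists_section (hq : 2 ≤ q) (arch : D.Arch) {n : ℕ} (hn0 : 0 < n) {T : D.NodeSet}
    {E : Divisor K F} {f₂ : D.R.O} (h : D.Tor n E f₂) (hfix : (f₂ : F) ∈ fixF gal)
    {ζ : (D.Rb →ₐ[k] k) → k} (hζ : T.IsGlue E ζ) :
    ∃ (h : D.R.O) (r : D.Rb) (N : ℕ), (h : F) ∈ fixF gal ∧
      (h : F) ^ n * (f₂ : F)⁻¹ ∈ riemannRochSpace (N • D.E₀) ∧
      D.R.ρ h = ((r : F'), 1) ∧ ∀ s ∈ T.Nd, s r = ζ s := by
  obtain ⟨r, N₁, hr, hrN⟩ := hζ.exists_wit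
  -- `E` is fixed
  have hE : ∀ σ, gal σ • E = E := by
    intro σ
    ext w
    obtain ⟨v, rfl⟩ : ∃ v : Place K F, w = gal σ • v :=
      ⟨(gal σ)⁻¹ • w, (smul_inv_smul (gal σ) w).symm⟩
    have h1 := h.ord (gal σ • v)
    rw [← hfix σ, SemilinearAut.ord_smul, h.ord] at h1
    have hn' : (n : ℤ) ≠ 0 := by exact_mod_cast hn0.ne'
    rw [SemilinearAut.divisor_smul_apply_smul]
    exact mul_left_cancel₀ hn' h1
  obtain ⟨f, hfV, hff, hfρ⟩ := I.exists_lift (by omega) arch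
    (riemannRochSpace (N₁ • D.E₀ - E)) (fun σ x hx => by
      have h1 := smul_mem_L (gal σ) hx
      rwa [smul_sub, smul_comm, (I.act σ).smul_E₀, hE] at h1) (hrN N₁ le_rfl)
  refine ⟨f, r, n * N₁, hff, ?_, hfρ, hr⟩
  rcases eq_or_ne (f : F) 0 with hf0 | hf0
  · rw [hf0, zero_pow hn0.ne', zero_mul]
    exact Submodule.zero_mem _
  · rw [mem_L_iff hf0] at hfV
    rw [mem_L_iff (mul_ne_zero (pow_ne_zero n hf0) (inv_ne_zero h.ne_zero))]
    intro v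
    have h1 := hfV v
    rw [Finsupp.sub_apply, Finsupp.smul_apply, nsmul_eq_mul] at h1
    rw [v.ord_mul (pow_ne_zero n hf0) (inv_ne_zero h.ne_zero), ord_pow, v.ord_inv, h.ord,
      Finsupp.smul_apply, nsmul_eq_mul]
    have h2 : (0 : ℤ) ≤ n := Int.natCast_nonneg n
    push_cast
    nlinarith

/-- A point satisfying the gluing relations is a node. -/
theorem mem_Nd (hq : 2 ≤ q) (arch : D.Arch) (T : D.NodeSet) (P : D.Rb →ₐ[k] k)
    (hP : ∀ (f : D.R.O) (N : ℕ) (a b : D.Rb), (f : F) ∈ fixF gal →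
      (f : F) ∈ riemannRochSpace (N • D.E₀) → D.R.ρ f = ((a : F'), (b : F')) →
      P a = P (D.Vb b)) : P ∈ T.Nd := by
  classical
  by_contra hmem
  have hex : ∀ s : D.Rb →ₐ[k] k, ∃ r : D.Rb, s ∈ T.Nd → s r = 0 ∧ P r ≠ 0 := by
    intro s
    by_cases hs : s ∈ T.Nd
    · have hne : P ≠ s := fun h0 => hmem (h0 ▸ hs)
      obtain ⟨x, hx⟩ := DFunLike.ne_iff.mp hne
      refine ⟨x - algebraMap k D.Rb (s x), fun _ => ⟨?_, ?_⟩⟩
      · rw [map_sub, AlgHom.commutes]; exact sub_self _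
      · rw [map_sub, AlgHom.commutes]; exact sub_ne_zero.mpr hx
    · exact ⟨0, fun h => absurd h hs⟩
  choose r hr using hex
  set ρ : D.Rb := ∏ s ∈ T.Nd, r s with hρ
  have h1 : ∀ s ∈ T.Nd, s ρ = 0 := by
    intro s hs
    rw [hρ, map_prod]
    exact Finset.prod_eq_zero hs (hr s hs).1
  have h2 : P ρ ≠ 0 := by
    rw [hρ, map_prod]
    exact Finset.prod_ne_zero_iff.mpr fun s hs => (hr s hs).2
  obtain ⟨N, hN⟩ : ((ρ, 0) : D.Rb × D.Rb) ∈ D.S := (T.mem_S_iff _ _).mpr fun s hs => by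
    rw [h1 s hs, map_zero, map_zero]
  obtain ⟨f, hfV, hff, hfρ⟩ := I.exists_lift (by omega) arch (riemannRochSpace (N • D.E₀))
    (fun σ x hx => by
      have h1 := smul_mem_L (gal σ) hx
      rwa [smul_comm, (I.act σ).smul_E₀] at h1) hN
  apply h2
  rw [hP f N ρ 0 hff hfV hfρ, map_zero, map_zero]

end Inertia

end Fermat.Agent.TriLow
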