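import Mathlib
import Fermat.Agent.TriLow.SupplyMain
import Fermat.Agent.TwoGauss.Uncond
import Fermat.Agent.TriVal.GlueKz
import Fermat.Agent.S36.LastMile

/-!
# The inertia data of `X₀(m q)`
-/

set_option autoImplicit false
set_option linter.unusedSectionVars false
set_option linter.style.haveILetI false

open ModularCurve HahnSeries Module AlgebraicCurve
open scoped IntermediateField
open Fermat.Agent.GaussVal Fermat.Agent.FF Fermat.Agent.RR Fermat.Agent.TwoGauss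
open Fermat.Agent.TriVal Fermat.Agent.TriGlue Fermat.Agent.S36mile Fermat.Agent.S36desc
open Fermat.Agent.LocE (K0 mem_K0_iff)
open Fermat.Agent.S36norm (DV)
open scoped Fermat.Agent.GaussVal

noncomputable section

namespace Fermat.Agent.TriLow

/-- the algebraic numbers -/
local notation "𝕂" => AlgebraicClosure ℚ

/-! ### Fixed functions -/

section Fixed

variable {A : ValuationSubring (AlgebraicClosure ℚ)} {N : ℕ} [NeZero N]

/-- the Galois action of inertia -/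
abbrev galI (A : ValuationSubring (AlgebraicClosure ℚ)) (N : ℕ) [NeZero N] :
    A.inertiaSubgroupIn ℚ →* SemilinearAut 𝕂 (modularFunctionFieldBar N) :=
  gal N (A.inertiaSubgroupIn ℚ)

theorem coeffMap_of_fixed {x : modularFunctionFieldBar N} (hx : x ∈ fixF (galI A N)) :
    ∀ σ ∈ Gam A, coeffMap σ (x : LaurentSeries 𝕂) = x := by
  rintro _ ⟨τ, hτ, rfl⟩
  exact congrArg Subtype.val (hx ⟨τ, hτ⟩)

theorem fixed_of_coeffMap {x : modularFunctionFieldBar N}
    (hx : ∀ σ ∈ Gam A, coeffMap σ (x : LaurentSeries 𝕂) = x) : x ∈ fixF (galI A N) := by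
  rintro ⟨τ, hτ⟩
  exact Subtype.ext (hx _ ⟨τ, hτ, rfl⟩)

variable {L : Type*} [Field L] [Algebra L 𝕂] (hL : TriGlue.IsK0 A L)

include hL

theorem exists_bcb {x : modularFunctionFieldBar N} (hx : x ∈ fixF (galI A N)) :
    ∃ y : modularFunctionFieldFullC L N, bcb L N y = x :=
  exists_bcb_eq (Gam A) (mem_range_of_Gam hL) (coeffMap_of_fixed hx)

theorem bcb_mem_fixF (y : modularFunctionFieldFullC L N) : bcb L N y ∈ fixF (galI A N) := by
  apply fixed_of_coeffMap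
  rintro _ ⟨τ, hτ, rfl⟩
  ext n
  rw [coeffMap_coeff, coe_bcb, coeffMap_coeff]
  have h3 : algebraMap L 𝕂 ((y : LaurentSeries L).coeff n) ∈ K0 A := (hL _).mp ⟨_, rfl⟩
  exact mem_K0_iff.mp h3 τ hτ

omit hL in
theorem algebraMap_mem_fixF {c : 𝕂} (hc : c ∈ K0 A) :
    algebraMap 𝕂 (modularFunctionFieldBar N) c ∈ fixF (galI A N) := by
  have h := bcb_mem_fixF (A := A) (N := N) (isK0_K0 A) (algebraMap (K0 A) _ ⟨c, hc⟩)
  rw [bcb_algebraMap] at h
  exact h

end Fixed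

/-! ### Bases -/

section Basis

theorem exists_basis_aux {A : ValuationSubring (AlgebraicClosure ℚ)} {N : ℕ}
    {E : IntermediateField 𝕂 (LaurentSeries 𝕂)} (hE : modularFunctionFieldFullC 𝕂 N = E)
    (V : Submodule 𝕂 E) [FiniteDimensional 𝕂 V]
    (hV : ∀ σ ∈ Gam A, ∀ v ∈ V, ∃ w ∈ V, (w : LaurentSeries 𝕂) = coeffMap σ (v : LaurentSeries 𝕂)) :
    ∃ b : Basis (Fin (finrank 𝕂 V)) 𝕂 V, ∀ i, ∀ σ ∈ Gam A,
      coeffMap σ (((b i : V) : E) : LaurentSeries 𝕂) = ((b i : V) : E) := by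
  subst hE
  obtain ⟨b, hb⟩ := exists_bc_basis (L := K0 A) (Gam A) (mem_range_of_Gam (isK0_K0 A)) V hV
  refine ⟨b, fun i => ?_⟩
  obtain ⟨y, hy⟩ := hb i
  rintro _ ⟨τ, hτ, rfl⟩
  rw [← hy]
  ext n
  rw [coeffMap_coeff, coe_bc, coeffMap_coeff]
  exact mem_K0_iff.mp ((y : LaurentSeries (K0 A)).coeff n).2 τ hτ

theorem exists_basis {A : ValuationSubring (AlgebraicClosure ℚ)} {N : ℕ} [NeZero N]
    (V : Submodule 𝕂 (modularFunctionFieldBar N)) [FiniteDimensional 𝕂 V]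
    (hV : ∀ σ, ∀ f ∈ V, galI A N σ • f ∈ V) :
    ∃ g₀ : Basis (Fin (finrank 𝕂 V)) 𝕂 V,
      ∀ i, ((g₀ i : V) : modularFunctionFieldBar N) ∈ fixF (galI A N) := by
  obtain ⟨b, hb⟩ := exists_basis_aux (A := A) (TriDim.fullC_eq_bar N).symm V (by
    rintro _ ⟨τ, hτ, rfl⟩ v hv
    exact ⟨_, hV ⟨τ, hτ⟩ v hv, rfl⟩)
  exact ⟨b, fun i => fixed_of_coeffMap (hb i)⟩

end Basis

/-! ### The instance -/

section Inst

variable {A : ValuationSubring (AlgebraicClosure ℚ)} {q m : ℕ} [NeZero m]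
  [Fact q.Prime] [CharP (IsLocalRing.ResidueField A) q]
  [IsAlgClosed (IsLocalRing.ResidueField A)] [PerfectRing (IsLocalRing.ResidueField A) q]
  (hq : q.Prime) (hm : ¬ q ∣ m) (hA : A.LiesOverPrime q)
  (H3 : S18aux.DegThm (IsLocalRing.ResidueField A) m)
  (H2 : genusFF (AlgebraicClosure ℚ) (modularFunctionFieldBar m) ≤
    genusFF (IsLocalRing.ResidueField A) (modularFunctionFieldFullC (IsLocalRing.ResidueField A) m))

/-- the residue field -/
local notation "κ" => IsLocalRing.ResidueField A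

include hq hA in
/-- the value group of the fixed functions is generated by `q` -/
theorem div_q_mem {N : ℕ} [NeZero N] {f : modularFunctionFieldBar N}
    (hf : f ∈ fixF (galI A N)) (h : (f : LaurentSeries 𝕂) ∈ gaussSubring A)
    (h0 : gaussRed A ⟨(f : LaurentSeries 𝕂), h⟩ = 0) :
    ((algebraMap 𝕂 (modularFunctionFieldBar N) (q : 𝕂)⁻¹ * f : modularFunctionFieldBar N) :
      LaurentSeries 𝕂) ∈ gaussSubring A := by
  obtain ⟨y, rfl⟩ := exists_bcb (isK0_K0 A) hf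
  have hy : y ∈ (vm hq hA (isK0_K0 A) N).O := h
  have h1 : (vm hq hA (isK0_K0 A) N).red y = 0 := (vm_red hq hA (isK0_K0 A) h).trans h0
  have hq0 : ((q : ℕ) : K0 A) ≠ 0 := Nat.cast_ne_zero.mpr hq.ne_zero
  have hqF : algebraMap (K0 A) (modularFunctionFieldFullC (K0 A) N) (q : K0 A) ≠ 0 :=
    (_root_.map_ne_zero _).mpr hq0
  have h2 : (algebraMap (K0 A) (modularFunctionFieldFullC (K0 A) N) (q : K0 A))⁻¹ * y ∈
      (vm hq hA (isK0_K0 A) N).O := by
    rcases eq_or_ne y 0 with rfl | hy0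
    · rw [mul_zero]; exact zero_mem _
    · rw [DV.mem_iff _ _ (mul_ne_zero (inv_ne_zero hqF) hy0),
        DV.ord_mul _ _ _ (inv_ne_zero hqF) hy0, DV.ord_inv _ hqF, vm_ord_q]
      have h3 := (DV.mem_iff _ _ hy0).mp hy
      have h4 : (vm hq hA (isK0_K0 A) N).ord y ≠ 0 := fun h5 =>
        ((DV.red_ne_zero_iff _ hy0 hy).mpr h5) h1
      omega
  have e : ((algebraMap 𝕂 (modularFunctionFieldBar N) (q : 𝕂)⁻¹ * bcb (K0 A) N y :
      modularFunctionFieldBar N) : LaurentSeries 𝕂) =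
      iota0 (K0 A) N ((algebraMap (K0 A) (modularFunctionFieldFullC (K0 A) N) (q : K0 A))⁻¹ * y) := by
    have e1 : algebraMap 𝕂 (modularFunctionFieldBar N) (q : 𝕂)⁻¹ * bcb (K0 A) N y =
        bcb (K0 A) N ((algebraMap (K0 A) (modularFunctionFieldFullC (K0 A) N) (q : K0 A))⁻¹ * y) := by
      rw [map_mul, map_inv₀ (bcb (K0 A) N), bcb_algebraMap, map_inv₀, map_natCast,
        map_natCast, map_natCast]
    rw [e1, coe_bcb]
    rfl
  rw [e]
  exact h2

/-- **The inertia data of `X₀(m q)`.** -/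
def inertiaData : Inertia (mkData hq hm hA H3 H2) (galI A (m * q)) where
  act σ := (act_mkData_inertia hq hm hA H3 H2 σ.2).toAct_id
  ϖ := (q : 𝕂)
  ϖ_ne_zero := Nat.cast_ne_zero.mpr hq.ne_zero
  ϖ_fix := algebraMap_mem_fixF (natCast_mem _ q)
  ϖ_nonunit := hA
  res c := by
    obtain ⟨a, ha⟩ := res0_surj (L := K0 A) hq hA (isK0_K0 A) c
    exact ⟨A0incl A (K0 A) a, algebraMap_mem_fixF (a : K0 A).2, ha⟩
  disc₁ f hf h := by
    obtain ⟨h1, h2⟩ := h
    exact div_q_mem hq hA hf h1 (by rw [← coe_mkData_ρ₁ hq hm hA H3 H2 f h1, h2]; rfl)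
  disc₂ f hf h := by
    obtain ⟨h1, h2⟩ := h
    rw [mem_mkData_O₂, map_mul, AlgEquiv.commutes]
    refine div_q_mem hq hA ?_ h1 (by rw [← coe_mkData_ρ₂ hq hm hA H3 H2 f h1, h2]; rfl)
    intro σ
    have h3 := wq_arithmetic hq hm (σ : 𝕂 ≃ₐ[ℚ] 𝕂) f
    exact h3.symm.trans (congrArg (wq hq hm) (hf σ))
  orb := finite_gal (m * q) _
  basis V _ hV := exists_basis V hV

/-- invariant torsion classes have invariant representatives -/
theorem repHyp (N : ℕ) [NeZero N] (A : ValuationSubring (AlgebraicClosure ℚ)) :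
    RepHyp (galI A N) := by
  haveI : IsFF 𝕂 (modularFunctionFieldBar N) := isFF_m
  intro n hn x hx hI
  obtain ⟨D, f, hf, hx', ho, -, hG⟩ := exists_invariant_rep (gal N (A.inertiaSubgroupIn ℚ)) (lead N)
    (lead_gal N _) (finite_gal N _) hn x hx hI
  exact ⟨D, f, hf, hx', ho, hG⟩

end Inst

end Fermat.Agent.TriLow
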