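import Mathlib
import Fermat.Agent.TriLow.SupplyInst
import Fermat.Agent.TriLow.Close
import Fermat.Agent.TwoComp.Full5
import Fermat.Agent.S36.SetupDef

/-!
# The supply of toric classes at level `m q`
-/

set_option autoImplicit false
set_option linter.unusedSectionVars false
set_option linter.style.haveILetI false

open ModularCurve HahnSeries Module AlgebraicCurve
open scoped IntermediateField
open Fermat.Agent.GaussVal Fermat.Agent.FF Fermat.Agent.RR Fermat.Agent.TwoGauss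
open Fermat.Agent.TriVal Fermat.Agent.TriGlue Fermat.Agent.S36mile Fermat.Agent.S36desc
open Fermat.Agent.TEll Fermat.Agent.TriGauss Fermat.Agent.TriComp
open Fermat.Agent.LocE (K0 mem_K0_iff)
open Fermat.Agent.S36norm (DV LevelInput TriInput IsSwap fullC_ringHom_ext jd_congr_index W0 W1
  W0_gauss W1_gauss e0 rr SSP Bti BB ut ut_mem LevelQ GlueMod GlueData setup levelQ alphaC
  coe_alphaC)
open Fermat.Agent.TriDim (Qb)
open Fermat.Agent.TwoComp.Data
open Fermat.Agent.Deuring (mem_L_iff)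
open scoped Fermat.Agent.GaussVal

noncomputable section

namespace Fermat.Agent.TriLow

/-- the algebraic numbers -/
local notation "𝕂" => AlgebraicClosure ℚ

/-! ### The Atkin--Lehner involutions -/

section Swap

variable {K : Type*} [Field K] [Algebra K (AlgebraicClosure ℚ)] {m q : ℕ} [NeZero m] [NeZero q]
  [NeZero (m * q)]

theorem bcb_jd (N : ℕ) [NeZero N] (d : ℕ) [NeZero d] (hd : d ∣ N) :
    bcb K N (TriVal.jd K N d hd) = jdB 𝕂 N ⟨d, hd⟩ := by
  apply Subtype.ext
  rw [coe_bcb, TriVal.coe_jd, coeffMap_qExpand, coeffMap_jqModC]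
  rfl

theorem bcb_swap (hq : q.Prime) (hm : ¬ q ∣ m)
    {w' : modularFunctionFieldFullC K (m * q) ≃ₐ[K] modularFunctionFieldFullC K (m * q)}
    (hw' : IsSwap K (m * q) q m w') (x : modularFunctionFieldFullC K (m * q)) :
    bcb K (m * q) (w' x) = wq hq hm (bcb K (m * q) x) := by
  have h : (bcb K (m * q)).comp (w' : modularFunctionFieldFullC K (m * q) →+*
      modularFunctionFieldFullC K (m * q)) =
      (wq hq hm : modularFunctionFieldBar (m * q) →+* modularFunctionFieldBar (m * q)).comp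
        (bcb K (m * q)) := by
    apply fullC_ringHom_ext
    · intro c
      change bcb K (m * q) (w' (algebraMap K _ c)) = wq hq hm (bcb K (m * q) (algebraMap K _ c))
      rw [AlgEquiv.commutes, bcb_algebraMap, AlgEquiv.commutes]
    · intro d hne hd
      change bcb K (m * q) (w' (TriVal.jd K (m * q) d hd)) =
        wq hq hm (bcb K (m * q) (TriVal.jd K (m * q) d hd))
      rw [bcb_jd, wq_jdB]
      by_cases h : q ∣ d
      · obtain ⟨e, rfl⟩ := h
        have he : e ∣ m := dvd_m_of_mul hq hd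
        have hne' : NeZero e := ⟨fun h0 => NeZero.ne (q * e) (by rw [h0, mul_zero])⟩
        have hne1 : NeZero (e * q) := ⟨by rw [mul_comm]; exact NeZero.ne (q * e)⟩
        have hne2 : NeZero (e * 1) := ⟨by rw [mul_one]; exact NeZero.ne e⟩
        have he' : e ∣ m * q := he.trans (dvd_mul_right m q)
        have h1 := hw'.jd e q 1 he (one_mul q) (by rwa [mul_comm]) (by rwa [mul_one])
        rw [jd_congr_index (K := K) (mul_comm e q) _ hd, jd_congr_index (K := K) (mul_one e) _ he']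
          at h1
        rw [h1, bcb_jd, swapD_mul hq hm hd he']
      · have he : d ∣ m := dvd_m_of_not_dvd hq h hd
        have hne1 : NeZero (d * 1) := ⟨by rw [mul_one]; exact NeZero.ne d⟩
        have hne2 : NeZero (d * q) := ⟨mul_ne_zero (NeZero.ne d) (NeZero.ne q)⟩
        have hne3 : NeZero (q * d) := ⟨mul_ne_zero (NeZero.ne q) (NeZero.ne d)⟩
        have he' : q * d ∣ m * q := mul_dvd_level he
        have h1 := hw'.jd d 1 q he (mul_one q) (by rwa [mul_one]) (by rwa [mul_comm])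
        rw [jd_congr_index (K := K) (mul_comm d q) _ he', jd_congr_index (K := K) (mul_one d) _ hd]
          at h1
        rw [h1, bcb_jd, swapD_of_dvd_m hq hm he hd he']
  exact DFunLike.congr_fun h x

end Swap

/-! ### Transport of points -/

section Points

variable {k F' : Type*} [Field k] [Field F'] [Algebra k F'] {z z' : F'} (hz : z = z')

/-- transport of points -/
def ptG (P : ic k z →ₐ[k] k) : integralClosure (Algebra.adjoin k {z'}) F' →ₐ[k] k :=
  P.comp ((((integralClosure (Algebra.adjoin k {z'}) F').val).restrictScalars k).codRestrict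
    (ic k z) (fun r => hz ▸ r.2))

theorem ptG_apply (P : ic k z →ₐ[k] k) (r : integralClosure (Algebra.adjoin k {z'}) F')
    (h : (r : F') ∈ ic k z) : ptG hz P r = P ⟨r, h⟩ := rfl

theorem ptG_injective : Function.Injective (ptG (k := k) hz) := by
  intro P Q h
  apply AlgHom.ext
  rintro ⟨x, hx⟩
  have hx' : x ∈ integralClosure (Algebra.adjoin k {z'}) F' := hz ▸ hx
  exact DFunLike.congr_fun h ⟨x, hx'⟩

end Points

/-! ### Descent of integrality and of divisors -/

section Descent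

variable {K : Type*} [Field K] [Algebra K (AlgebraicClosure ℚ)] {N : ℕ} [NeZero N]

theorem isIntegral_descent_aux {E : IntermediateField 𝕂 (LaurentSeries 𝕂)}
    (hE : modularFunctionFieldFullC 𝕂 N = E) {x f : modularFunctionFieldFullC K N} {X Y : E}
    (hX : (X : LaurentSeries 𝕂) = coeffMap (algebraMap K 𝕂) (x : LaurentSeries K))
    (hY : (Y : LaurentSeries 𝕂) = coeffMap (algebraMap K 𝕂) (f : LaurentSeries K))
    (h : IsIntegral (Algebra.adjoin 𝕂 {X}) Y) : IsIntegral (Algebra.adjoin K {x}) f := by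
  subst hE
  have h1 : X = bc K 𝕂 N x := Subtype.ext hX
  have h2 : Y = bc K 𝕂 N f := Subtype.ext hY
  rw [h1, h2] at h
  exact isIntegral_descent h

theorem isIntegral_of_bcb {x f : modularFunctionFieldFullC K N}
    (h : IsIntegral (Algebra.adjoin 𝕂 {bcb K N x}) (bcb K N f)) :
    IsIntegral (Algebra.adjoin K {x}) f :=
  isIntegral_descent_aux (TriDim.fullC_eq_bar N).symm (coe_bcb K N x) (coe_bcb K N f) h

variable {A : ValuationSubring (AlgebraicClosure ℚ)} (hK : TriGlue.IsK0 A K)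

include hK

theorem dvd_of_dvd_bcb {n : ℕ} (hn : 0 < n) {f : modularFunctionFieldFullC K N} (hf : f ≠ 0)
    {D : Divisor 𝕂 (modularFunctionFieldBar N)}
    (h : ∀ v : Place 𝕂 (modularFunctionFieldBar N), v.ord (bcb K N f) = n * D v)
    (v : Place K (modularFunctionFieldFullC K N)) : (n : ℤ) ∣ v.ord f := by
  haveI := TriDim.isFF_full K N (S36K0.natCast_ne_zero_of_algebra K N)
  obtain ⟨D₀, -, h2, -⟩ := descend_divisor_aux (Gam A) (mem_range_of_Gam hK) (by
    rintro _ ⟨σ, hσ, rfl⟩ a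
    exact mem_K0_iff.mp ((hK _).mp ⟨a, rfl⟩) σ hσ) (TriDim.fullC_eq_bar N).symm hn h hf
    (coe_bcb K N f)
  exact ⟨D₀ v, (h2 v).symm⟩

end Descent

/-! ### The main theorem -/

section Main

variable {A : ValuationSubring (AlgebraicClosure ℚ)} {K : Type*} [Field K]
    [Algebra K (AlgebraicClosure ℚ)] {m q : ℕ}
    [NeZero m] [NeZero q] [NeZero (m * q)] [NeZero (m * q * q)] {ζ : (AlgebraicClosure ℚ)ˣ}
    {e₁ : modularFunctionFieldFullC K (m * q * q) →+* LaurentSeries (AlgebraicClosure ℚ)}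
    {w : modularFunctionFieldFullC K (m * q * q) ≃ₐ[K] modularFunctionFieldFullC K (m * q * q)}
    {w' : modularFunctionFieldFullC K (m * q) ≃ₐ[K] modularFunctionFieldFullC K (m * q)}
    [CharZero K] {Er : Type*} [CommRing Er] [Algebra (IsLocalRing.ResidueField A) Er]
    {D : TriComp.Data K (modularFunctionFieldFullC K (m * q * q)) (IsLocalRing.ResidueField A) Er
      (modularFunctionFieldFullC (IsLocalRing.ResidueField A) m) q}
    [Fact q.Prime] [CharP (IsLocalRing.ResidueField A) q]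

/-- the residue field -/
local notation "κ" => IsLocalRing.ResidueField A

/-- the two-component data of level `m q` -/
abbrev tw (I : LevelInput A K m q ζ e₁ w w') :
    TwoComp.Data 𝕂 (modularFunctionFieldBar m) (modularFunctionFieldBar (m * q)) κ
      (modularFunctionFieldFullC κ m) q := twoComp I.hq I.hm I.hA

/-- the inertia data of level `m q` -/
def twI (I : LevelInput A K m q ζ e₁ w w') : Inertia (tw I) (galI A (m * q)) :=
  inertiaData I.hq I.hm I.hA _ _

variable (hK : TriGlue.IsK0 A K) (I : LevelInput A K m q ζ e₁ w w')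
  (T : TriInput A K m q ζ e₁ w D)

include T in
theorem W0_of_rd {y : modularFunctionFieldFullC K (m * q)} {b : modularFunctionFieldFullC κ m}
    (h : Rd (tw I).O₁ (tw I).ρ₁ (bcb K (m * q) y) b) : y ∈ (W0 D).O ∧ (W0 D).red y = b := by
  obtain ⟨h1, h2⟩ := h
  have h1' : e0 K (m * q) y ∈ gaussSubring A := h1
  refine ⟨((W0_gauss T).mem_iff y).2 h1', ?_⟩
  apply (rr A m).injective
  rw [(W0_gauss T).red y h1', ← h2]
  exact (coe_mkData_ρ₁ I.hq I.hm I.hA _ _ _ h1).symm

include T in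
theorem W1_of_rd {y : modularFunctionFieldFullC K (m * q)} {b : modularFunctionFieldFullC κ m}
    (h : Rd (tw I).O₂ (tw I).ρ₂ (bcb K (m * q) y) b) : y ∈ (W1 D).O ∧ (W1 D).red y = b := by
  obtain ⟨h1, h2⟩ := h
  have e : (wq I.hq I.hm (bcb K (m * q) y) : LaurentSeries 𝕂) =
      ((e0 K (m * q)).comp (RingHomClass.toRingHom w')) y := by
    rw [← bcb_swap I.hq I.hm I.hw' y]
    rfl
  have h1' : ((e0 K (m * q)).comp (RingHomClass.toRingHom w')) y ∈ gaussSubring A := e ▸ h1
  refine ⟨((W1_gauss I T).mem_iff y).2 h1', ?_⟩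
  apply (rr A m).injective
  rw [(W1_gauss I T).red y h1', ← h2]
  refine Eq.trans ?_ (coe_mkData_ρ₂ I.hq I.hm I.hA _ _ _ h1).symm
  exact congrArg (gaussRed A) (Subtype.ext e.symm)

theorem rd_j : Rd (tw I).O₁ (tw I).ρ₁ (bcb K (m * q) (TriVal.jd K (m * q) 1 (one_dvd _)))
    (tw I).jb := by
  have e : bcb K (m * q) (TriVal.jd K (m * q) 1 (one_dvd _)) = (tw I).α (tw I).j :=
    (bcb_jd (m * q) 1 (one_dvd _)).trans alpha_jm.symm
  rw [e]
  exact ⟨(tw I).α_mem₁ _ (tw I).j_mem, (tw I).ρ₁_α _ (tw I).j_mem⟩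

theorem alphaC_jd : alphaC K (m * q) q (TriVal.jd K (m * q) 1 (one_dvd _)) =
    TriVal.jd K (m * q * q) 1 (one_dvd _) := Subtype.ext (by rw [coe_alphaC]; rfl)

include T in
theorem jt_eq : D.jt = (tw I).jb := by
  rw [← (W0_of_rd I T (rd_j I)).2, ← D.red_j0, T.hj]
  change _ = ((D.v 0).comap _).red _
  rw [S36norm.DV.comap_red]
  exact congrArg (D.v 0).red alphaC_jd.symm

include T in
theorem mem_Bti_iff {x : modularFunctionFieldFullC κ m} :
    x ∈ Bti D ↔ x ∈ integralClosure (Algebra.adjoin κ {(tw I).jb}) (modularFunctionFieldFullC κ m) := by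
  rw [← jt_eq I T]
  exact Iff.rfl

/-- transport of points -/
abbrev pt (P : Bti D →ₐ[κ] κ) : (tw I).Rb →ₐ[κ] κ := ptG (jt_eq I T) P

instance isFF_mq : IsFF 𝕂 (modularFunctionFieldBar (m * q)) := isFF_m

/-- integrality from orders -/
theorem isIntegral_of_mem_L {y : modularFunctionFieldFullC K (m * q)} {N : ℕ}
    (h : bcb K (m * q) y ∈ riemannRochSpace (N • (tw I).E₀)) :
    IsIntegral (Algebra.adjoin K {TriVal.jd K (m * q) 1 (one_dvd _)}) y := by
  apply isIntegral_of_bcb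
  rw [bcb_jd, TwoComp.isIntegral_adjoin_iff]
  intro v hv
  have hv' : (tw I).α (tw I).j ∈ v.toValuationSubring := by
    rw [show (tw I).α (tw I).j = jdB 𝕂 (m * q) ⟨1, one_dvd _⟩ from alpha_jm]
    exact hv
  rw [mem_iff_ord_nonneg v (tw I).αj_ne_zero] at hv'
  rcases eq_or_ne (bcb K (m * q) y) 0 with h0 | h0
  · rw [h0]; exact v.toValuationSubring.zero_mem
  rw [mem_iff_ord_nonneg v h0]
  have h1 := (mem_L_iff h0).mp h v
  rw [Finsupp.smul_apply, (tw I).E₀_eq_zero hv', smul_zero] at h1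
  linarith

variable (ι : K →+* ℂ)

include T in
theorem mem_Bq_of {y : modularFunctionFieldFullC K (m * q)} {N : ℕ}
    {a b : modularFunctionFieldFullC κ m}
    (h : bcb K (m * q) y ∈ riemannRochSpace (N • (tw I).E₀))
    (h₁ : Rd (tw I).O₁ (tw I).ρ₁ (bcb K (m * q) y) a)
    (h₂ : Rd (tw I).O₂ (tw I).ρ₂ (bcb K (m * q) y) b) : y ∈ (levelQ I T ι).Bq := by
  rw [LevelQ.mem_Bq_iff]
  refine ⟨(W0_of_rd I T h₁).1, (W1_of_rd I T h₂).1, ?_⟩
  have h1 := S36norm.isIntegral_adjoin_map (alphaC K (m * q) q) (isIntegral_of_mem_L I h)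
  rw [alphaC_jd, ← T.hj] at h1
  exact h1

variable (M : GlueMod D (setup I T).Vq)

theorem evt_eq (P : SSP D) (r : (tw I).Rb) :
    ((levelQ I T ι).glueData M).evt P (r : modularFunctionFieldFullC κ m) = pt I T P.1 r := by
  have h : (r : modularFunctionFieldFullC κ m) ∈ Bti D := (mem_Bti_iff I T).2 r.2
  exact ((levelQ I T ι).glueData M).evt_of_mem P
    (show (r : modularFunctionFieldFullC κ m) ∈ ((levelQ I T ι).glueData M).Bt from h)

set_option maxHeartbeats 4000000 in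
include hK M ι in
theorem pt_mem_Nd (T2 : (tw I).NodeSet) (P : SSP D) : pt I T P.1 ∈ T2.Nd := by
  haveI : IsFF 𝕂 (modularFunctionFieldBar m) := isFF_m
  haveI : IsFF κ (modularFunctionFieldFullC κ m) :=
    isFF_m' (m := m) (GoodRed.degThm_res I.hq I.hA (NeZero.ne m) I.hm)
  refine (twI I).mem_Nd I.hq.two_le (arch_mkData I.hq I.hm I.hA _ _) T2 _ ?_
  intro f N a b hff hfL hρ
  obtain ⟨y, hy⟩ := exists_bcb hK hff
  have h₁ : Rd (tw I).O₁ (tw I).ρ₁ (bcb K (m * q) y) a := by
    rw [hy]; exact ⟨f.2.1, congrArg Prod.fst hρ⟩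
  have h₂ : Rd (tw I).O₂ (tw I).ρ₂ (bcb K (m * q) y) b := by
    rw [hy]; exact ⟨f.2.2, congrArg Prod.snd hρ⟩
  have hB := mem_Bq_of I T ι (by rw [hy]; exact hfL) h₁ h₂
  have h3 := ((levelQ I T ι).glueData M).glueq' P hB
  have e0 : (setup I T).W0.red y = (a : modularFunctionFieldFullC κ m) := (W0_of_rd I T h₁).2
  have e1 : (setup I T).W1.red y = (b : modularFunctionFieldFullC κ m) := (W1_of_rd I T h₂).2
  rw [e0, e1] at h3
  have e2 : (setup I T).Vq (b : modularFunctionFieldFullC κ m) =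
      (((tw I).Vb b : (tw I).Rb) : modularFunctionFieldFullC κ m) := rfl
  rw [e2, evt_eq, evt_eq] at h3
  exact h3

/-- the values of the gluing data -/
def zet (ε : SSP D → κ) (s : (tw I).Rb →ₐ[κ] κ) : κ :=
  open Classical in if h : ∃ P : SSP D, pt I T P.1 = s then (ε h.choose)⁻¹ else 1

theorem zet_pt (ε : SSP D → κ) (P : SSP D) : zet I T ε (pt I T P.1) = (ε P)⁻¹ := by
  have h : ∃ Q : SSP D, pt I T Q.1 = pt I T P.1 := ⟨P, rfl⟩
  rw [zet, dif_pos h]
  have h1 : h.choose = P := Subtype.ext (ptG_injective _ h.choose_spec)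
  rw [h1]

theorem zet_pow {n : ℕ} {ε : SSP D → κ} (hε : ∀ P, ε P ^ n = 1) (s : (tw I).Rb →ₐ[κ] κ) :
    zet I T ε s ^ n = 1 := by
  rw [zet]
  split_ifs with h
  · rw [inv_pow, hε, inv_one]
  · rw [one_pow]

theorem fixF_div {f g : modularFunctionFieldBar (m * q)} (hf : f ∈ fixF (galI A (m * q)))
    (hg : g ∈ fixF (galI A (m * q))) : f / g ∈ fixF (galI A (m * q)) := div_mem hf hg

set_option maxHeartbeats 4000000 in
include hK in
/-- **The supply of toric classes at level `m q`.** -/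
theorem supply {n : ℕ} (hn : (n : κ) ≠ 0) :
    Supply (levelQ I T ι) M n (fun f => ∀ v : Place 𝕂 (modularFunctionFieldBar (m * q)),
      (n : ℤ) ∣ v.ord (bcb K (m * q) f)) := by
  haveI : IsFF 𝕂 (modularFunctionFieldBar m) := isFF_m
  haveI : IsFF κ (modularFunctionFieldFullC κ m) :=
    isFF_m' (m := m) (GoodRed.degThm_res I.hq I.hA (NeZero.ne m) I.hm)
  have hn0 : 0 < n := Nat.pos_of_ne_zero (by rintro rfl; simp at hn)
  intro ε hε
  rcases isEmpty_or_nonempty (SSP D) with hE | ⟨⟨P₀⟩⟩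
  · refine ⟨1, one_ne_zero, fun v => ?_, DV.ord_one _, DV.ord_one _, DV.red_one _, DV.red_one _,
      fun v => ?_, fun P => hE.elim P⟩
    · rw [map_one, v.ord_one]; exact dvd_zero _
    · rw [v.ord_one]; exact dvd_zero _
  have hq2 := I.hq.two_le
  have arch : (tw I).Arch := arch_mkData I.hq I.hm I.hA _ _
  obtain ⟨T2⟩ := (tw I).nonempty_nodeSet hq2
  have hmem : ∀ P : SSP D, pt I T P.1 ∈ T2.Nd := fun P => pt_mem_Nd hK I T ι M T2 P
  have hnK : (n : 𝕂) ≠ 0 := Nat.cast_ne_zero.mpr hn0.ne'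
  obtain ⟨E₁, φ, hφ, hζ₁⟩ := TwoComp.Data.exists_tor_of_glue hq2 arch T2 hnK hn (zet I T ε)
    (fun s _ => zet_pow I T hε s)
  obtain ⟨E, f₂, hff, hf₂, hζ⟩ := (twI I).exists_supply hq2 arch (repHyp (m * q) A) hn
    ⟨_, hmem P₀⟩ hφ (fun s _ => zet_pow I T hε s) hζ₁
  obtain ⟨g, r, N, hgf, hgL, hgρ, hr⟩ := (twI I).exists_section hq2 arch hn0 hf₂ hff hζ
  obtain ⟨f, hf⟩ := exists_bcb hK hff
  obtain ⟨h, hh⟩ := exists_bcb hK hgf
  have f₁r : Rd (tw I).O₁ (tw I).ρ₁ (bcb K (m * q) f) 1 := by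
    rw [hf]; exact ⟨f₂.2.1, congrArg Prod.fst hf₂.ρ_eq⟩
  have f₂r : Rd (tw I).O₂ (tw I).ρ₂ (bcb K (m * q) f) 1 := by
    rw [hf]; exact ⟨f₂.2.2, congrArg Prod.snd hf₂.ρ_eq⟩
  have h₁r : Rd (tw I).O₁ (tw I).ρ₁ (bcb K (m * q) h) r := by
    rw [hh]; exact ⟨g.2.1, congrArg Prod.fst hgρ⟩
  have h₂r : Rd (tw I).O₂ (tw I).ρ₂ (bcb K (m * q) h) 1 := by
    rw [hh]; exact ⟨g.2.2, congrArg Prod.snd hgρ⟩
  have hf0 : f ≠ 0 := by
    rintro rfl
    rw [map_zero] at hf
    exact hf₂.ne_zero hf.symm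
  obtain ⟨a0, a1⟩ := W0_of_rd I T f₁r
  obtain ⟨b0, b1⟩ := W1_of_rd I T f₂r
  obtain ⟨c0, c1⟩ := W0_of_rd I T h₁r
  obtain ⟨d0, d1⟩ := W1_of_rd I T h₂r
  refine ⟨f, hf0, fun v => ?_, ?_, ?_, a1, b1, ?_, fun P => ⟨h, ?_, c0, d0, ?_, ?_⟩⟩
  · rw [hf, hf₂.ord]; exact dvd_mul_right _ _
  · exact ((W0 D).red_ne_zero_iff hf0 a0).1 (by rw [a1]; exact one_ne_zero)
  · exact ((W1 D).red_ne_zero_iff hf0 b0).1 (by rw [b1]; exact one_ne_zero)
  · exact dvd_of_dvd_bcb hK hn0 hf0 (D := E) (fun v => by rw [hf, hf₂.ord])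
  · refine mem_Bq_of I T ι (N := N) ?_ ?_ ?_ (a := r ^ n * 1⁻¹) (b := 1 ^ n * 1⁻¹)
    · rw [map_mul, map_pow, map_inv₀, hf, hh]; exact hgL
    · rw [map_mul, map_pow, map_inv₀]
      exact (h₁r.pow n).mul (f₁r.inv (tw I).ρ₁_eq_zero_iff one_ne_zero)
    · rw [map_mul, map_pow, map_inv₀]
      exact (h₂r.pow n).mul (f₂r.inv (tw I).ρ₂_eq_zero_iff one_ne_zero)
  · have e : (setup I T).W0.red h = (r : modularFunctionFieldFullC κ m) := c1
    rw [e, evt_eq, hr _ (hmem P), zet_pt]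
    apply inv_ne_zero
    intro h0
    have := hε P
    rw [h0, zero_pow hn0.ne'] at this
    exact zero_ne_one this
  · have e : (setup I T).W0.red h = (r : modularFunctionFieldFullC κ m) := c1
    have e' : (setup I T).W1.red h = 1 := d1
    have hε0 : ε P ≠ 0 := by
      intro h0
      have := hε P
      rw [h0, zero_pow hn0.ne'] at this
      exact zero_ne_one this
    have h1 := ((levelQ I T ι).glueData M).evt_const P 1
    rw [map_one] at h1
    rw [e, e', map_one, h1, evt_eq, hr _ (hmem P), zet_pt, mul_inv_cancel₀ hε0]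

end Main

end Fermat.Agent.TriLow
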