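import Fermat.Agent.TriLow.StepOrd
import Fermat.Agent.TriLow.StepC
import Fermat.Agent.TriLow.LevelBInst
import Fermat.Agent.TriLow.SupplyQ
import Fermat.Agent.TriLow.CountG
import Fermat.Agent.TriLow.Num11
import Fermat.Agent.S36.AllRec

/-!
# Level lowering from `q²` to `q`: the main theorem
-/

set_option autoImplicit false
set_option linter.unusedSectionVars false
set_option linter.style.haveILetI false

noncomputable section

open AlgebraicCurve ModularCurve HahnSeries Fermat.Agent.TEll Fermat.Agent.TriGauss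
  Fermat.Agent.LocE Fermat.Agent.GaussVal Fermat.Agent.TwoGauss
  Fermat.Agent.TriComp Fermat.Agent.S36norm Fermat.Agent.GalRep Fermat.Agent.S36mile
  Fermat.Agent.S37aux Fermat.Agent.TriDim Fermat.Agent.FF
open Fermat.Agent.TriVal hiding e0 e0_apply e0_algebraMap e0_jd e1 e2 Qb

namespace Fermat.Agent.TriLow

section

variable {A : ValuationSubring Qb} {K : Type*} [Field K] [Algebra K Qb] {m q : ℕ}
    [NeZero m] [NeZero q] [NeZero (m * q)] [NeZero (m * q * q)] {ζ : Qbˣ}
    {e₁ : modularFunctionFieldFullC K (m * q * q) →+* LaurentSeries Qb}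
    {w : modularFunctionFieldFullC K (m * q * q) ≃ₐ[K] modularFunctionFieldFullC K (m * q * q)}
    {w' : modularFunctionFieldFullC K (m * q) ≃ₐ[K] modularFunctionFieldFullC K (m * q)}
    [CharZero K] {Er : Type*} [CommRing Er] [Algebra (IsLocalRing.ResidueField A) Er]
    {D : Data K (modularFunctionFieldFullC K (m * q * q)) (IsLocalRing.ResidueField A) Er
      (modularFunctionFieldFullC (IsLocalRing.ResidueField A) m) q}
    [Fact q.Prime] [CharP (IsLocalRing.ResidueField A) q]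

/-- **The main theorem**, for given records. -/
theorem main_of (hK : TriGlue.IsK0 A K) (I : LevelInput A K m q ζ e₁ w w')
    (T : TriInput A K m q ζ e₁ w D) (ι : K →+* ℂ) (M : GlueMod D (setup I T).Vq) (Nm : D.Num)
    (G : D.Glue) {n : ℕ} (hn : (n : IsLocalRing.ResidueField A) ≠ 0) {S : Set ℕ}
    (hS : ∀ r : ℕ, r.Prime → r ∣ m * q → r ∈ S) (t : HeckeAlgS S)
    (ht₁ : ∀ y : JZero (m * q), n • y = 0 → actS (m * q) S t y = 0)
    (ht₂ : ∀ y : JZero m, n • y = 0 → actS m S t y = 0)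
    {x : JZero (m * q * q)} (hx : n • x = 0) (hI : ∀ σ ∈ A.inertiaSubgroupIn ℚ, σ • x = x)
    (ℓ : {ℓ : Nat.Primes // (ℓ : ℕ) ∉ S}) :
    actS (m * q * q) S
      (t * (t * (MvPolynomial.X ℓ - (((ℓ.1 : ℕ) : HeckeAlgS S) + 1)))) x = 0 := by
  have hn0 : n ≠ 0 := by
    rintro rfl
    exact hn Nat.cast_zero
  haveI : IsFF (IsLocalRing.ResidueField A)
    (modularFunctionFieldFullC (IsLocalRing.ResidueField A) m) := isFF_res I.hq I.hA I.hm
  haveI : IsFF K (modularFunctionFieldFullC K (m * q)) := isFF_K K (m * q)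
  haveI : IsFF K (modularFunctionFieldFullC K (m * q * q)) := isFF_K K (m * q * q)
  obtain ⟨φ₀, h0⟩ := exists_rep_of_fixed hK (Nat.pos_of_ne_zero hn0) hx hI
  obtain ⟨φ, h1, o1⟩ := exists_rep_ord_zero I T hS ℓ h0
  obtain ⟨Dv, hD0, hD⟩ := exists_div hn0 (h1.dvd_K hK hn0)
  obtain ⟨ψ, h2, hone⟩ := heckeStep I T hn hS t ht₂ h1 o1
    (fun i P => dvd_ord_red Nm ⟨hn0, h1.1, o1⟩ hD0 hD i P)
  rw [actS_mul, actS_mul]
  exact smul_eq_zero_of_redOne hK I.hq I.hm I.hw I.hw' (levelQ I T ι) (fun _ => rfl) M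
    (levelB I T ι) (fun _ => rfl) Nm G hn (supply hK I T ι M hn) S hS t ht₁ h2 hone

end

/-- **The main theorem on `J₀(q² m)`.** -/
theorem mainSq : MainSq := by
  intro m q p _ _ _ hq hm hp hqp h11
  haveI : NeZero q := ⟨hq.ne_zero⟩
  obtain ⟨A, hA⟩ := Frob.exists_liesOverPrime q hq
  haveI : Fact q.Prime := ⟨hq⟩
  haveI : CharP (IsLocalRing.ResidueField A) q := FrobDensity.charP_residue hq hA
  haveI : CharZero (Kz A) := (algebraMap (Kz A) Qb).charZero
  have hL : TriGlue.IsK0 A (Kz A) := TriGlue.isK0_Kz A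
  haveI : IsFF (IsLocalRing.ResidueField A)
    (modularFunctionFieldFullC (IsLocalRing.ResidueField A) m) := isFF_res hq hA hm
  haveI : IsFF (Kz A) (modularFunctionFieldFullC (Kz A) (m * q * q)) := isFF_K _ (m * q * q)
  have hT : S36rec.TriRec hq hm (triData hq hm hA hL) :=
    S36rec.triRec hq hm hA hL (P := pre hq hm hA hL) rfl (exh hq hm hA hL) (fun _ => rfl) rfl rfl
      rfl rfl (PuC_spec hq hA).2.2
  have hj : (triData hq hm hA hL).j = jE (Kz A) (m * q * q) := by
    change TriVal.jd (Kz A) (m * q * q) 1 (one_dvd _) = _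
    apply Subtype.ext
    exact ModularCurve.qExpand_one_apply _
  have Nm : (triData hq hm hA hL).Num :=
    num_of_mod hq hA hm h11 (fun x => hL x) (triData hq hm hA hL) hj rfl
  obtain ⟨w, w', hw, hw', he⟩ := exists_w hq hm (Kz A)
  have hn : ((p : ℕ) : IsLocalRing.ResidueField A) ≠ 0 := by
    intro h
    rw [CharP.cast_eq_zero_iff (IsLocalRing.ResidueField A) q] at h
    exact hqp ((Nat.prime_dvd_prime_iff_eq hq hp).1 h)
  refine ⟨A, hA, fun S hS t ht₁ ht₂ x hx hI ℓ => ?_⟩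
  have key := main_of hL (levelInput hq hm hA hL hw hw')
    (triInput hq hm hA hL (P := pre hq hm hA hL) rfl (exh hq hm hA hL)
      (D := triData hq hm hA hL) (fun _ => rfl) rfl he)
    (S36norm.iotaL (Kz A)) (S36rec.glueMod hq hm hA hL hT) Nm
    (S36rec.glue hq hm hA hL hT) hn hS t ht₁ ht₂ hx hI ℓ
  have e : (MvPolynomial.X ℓ - (((ℓ.1 : ℕ) : HeckeAlgS (↑S : Set ℕ)) + 1)) * t ^ 3 =
      t * (t * (t * (MvPolynomial.X ℓ - (((ℓ.1 : ℕ) : HeckeAlgS (↑S : Set ℕ)) + 1)))) := by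
    ring
  rw [e, actS_mul, key, actS_zero]

/-- **(E0)**: level lowering from `q²` to `q`. -/
theorem lowerSq : S59aux.LowerSq := lowerSq_of_main mainSq

end Fermat.Agent.TriLow
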