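import Fermat.Agent.TriLow.LocalUnip
import Fermat.Agent.S44w.Final
import Fermat.Agent.S41.NonEis
import Fermat.Agent.S59.Top
import Fermat.Agent.Cofaith.Main
import Fermat.Agent.Cofaith.Finite
import Fermat.Agent.Cofaith.ES
import Fermat.Agent.S37aux.RI
import Fermat.Agent.QX4.Spec

/-!
# Level lowering from `q²` to `q`: the wiring

`lowerSq_of_main`: the statement `S59aux.LowerSq` follows from the geometric statement `MainSq` on
`J₀(q² m)`.
-/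

set_option autoImplicit false
set_option linter.style.haveILetI false

noncomputable section

open CuspForm ModularCurve Fermat.Agent.GalRep Fermat.Agent.ECFrob WeierstrassCurve
  WeierstrassCurve.Affine WeierstrassCurve.Affine.Point Fermat.Agent.Torsion Fermat.Agent.S44w

namespace Fermat.Agent.TriLow

/-- `t` in the Hecke algebra outside `S` acts on `J₀(N)`. -/
def actS (N : ℕ) [NeZero N] (S : Set ℕ) (t : HeckeAlgS S) (x : JZero N) : JZero N :=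
  letI := heckeModuleBar N
  inclS S t • x

theorem actS_mul (N : ℕ) [NeZero N] (S : Set ℕ) (s t : HeckeAlgS S) (x : JZero N) :
    actS N S (s * t) x = actS N S s (actS N S t x) := by
  letI := heckeModuleBar N
  change inclS S (s * t) • x = inclS S s • inclS S t • x
  rw [map_mul, mul_smul]

theorem actS_zero (N : ℕ) [NeZero N] (S : Set ℕ) (t : HeckeAlgS S) :
    actS N S t (0 : JZero N) = 0 := by
  letI := heckeModuleBar N
  exact smul_zero (inclS S t)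

/-- elementary -/
theorem eq_zero_of_smul {J : Type*} [AddCommGroup J] {p : ℕ} (hp : p.Prime) {c : ℤ}
    (hc : ¬ (p : ℤ) ∣ c) {y : J} (h1 : p • y = 0) (h2 : c • y = 0) : y = 0 := by
  obtain ⟨u, v, huv⟩ : IsCoprime (p : ℤ) c :=
    (Prime.coprime_iff_not_dvd (Nat.prime_iff_prime_int.mp hp)).mpr hc
  have h3 : ((1 : ℤ)) • y = 0 := by
    rw [← huv, add_smul, mul_smul, mul_smul, natCast_zsmul, h1, smul_zero, zero_add, h2, smul_zero]
  rwa [one_smul] at h3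

/-- **Exact cofaithfulness**: a Hecke operator vanishing on `S₂(Γ₀(N))` kills the torsion of
`J₀(N)`. -/
theorem actS_eq_zero (N : ℕ) [NeZero N] (S : Set ℕ) (hS : ∀ ℓ : ℕ, ℓ.Prime → ℓ ∣ N → ℓ ∈ S)
    (t : HeckeAlgS S) (ht : evS N S t = 0) {n : ℕ} (hn : n ≠ 0) {x : JZero N} (hx : n • x = 0) :
    actS N S t x = 0 := by
  obtain ⟨e, he, h⟩ := Fermat.Agent.Cofaith.cofaithful' N
  obtain ⟨y, hy⟩ := Fermat.Agent.S37aux.jZero_divisible N e he x
  have h1 := h S hS t ht (n * e) (Nat.mul_ne_zero hn he) y (by rw [mul_smul, hy, hx])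
  letI := heckeModuleBar N
  change inclS S t • x = 0
  have h2 : inclS S (e * t) • y = inclS S t • (e • y) := by
    rw [map_mul, map_natCast, mul_comm, mul_smul, Nat.cast_smul_eq_nsmul]
  rw [← hy, ← h2]
  exact h1

/-- The geometric statement consumed here. -/
def MainSq : Prop :=
  ∀ (m q p : ℕ) [NeZero m] [NeZero (m * q)] [NeZero (m * q * q)], q.Prime → ¬ q ∣ m →
    p.Prime → q ≠ p → (∃ r, r.Prime ∧ r ∣ m ∧ r % 12 = 11) →
    ∃ A : ValuationSubring (AlgebraicClosure ℚ), A.LiesOverPrime q ∧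
      ∀ (S : Finset ℕ), (∀ ℓ : ℕ, ℓ.Prime → ℓ ∣ m * q → ℓ ∈ S) →
        ∀ t : HeckeAlgS (↑S : Set ℕ),
          (∀ y : JZero (m * q), p • y = 0 → actS (m * q) (↑S : Set ℕ) t y = 0) →
          (∀ y : JZero m, p • y = 0 → actS m (↑S : Set ℕ) t y = 0) →
          ∀ x : JZero (m * q * q), p • x = 0 → (∀ σ ∈ A.inertiaSubgroupIn ℚ, σ • x = x) →
            ∀ ℓ : {ℓ : Nat.Primes // (ℓ : ℕ) ∉ (↑S : Set ℕ)},
              actS (m * q * q) (↑S : Set ℕ)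
                ((MvPolynomial.X ℓ - (((ℓ.1 : ℕ) : HeckeAlgS (↑S : Set ℕ)) + 1)) * t ^ 3) x = 0

section

variable {p : ℕ} [hp : Fact p.Prime]

/-- The eigensystem is residually modular or separated. -/
theorem resMod_or_separated (M : ℕ) [NeZero M] (S : Finset ℕ) {W : WeierstrassCurve ℤ}
    (hS : ∀ ℓ : ℕ, ℓ.Prime → ℓ ∈ S → ℓ ∣ M ∨ ℓ = p ∨ ¬ W.IsGoodPrimeFor ℓ) :
    (∃ t : HeckeAlgS (↑S : Set ℕ), evS M (↑S : Set ℕ) t = 0 ∧ theta S p W.apOfModel t = 1) ∨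
      W.IsResiduallyModularOfLevel p M := by
  rcases exists_separating_or_eigenform M S p W.apOfModel with h | ⟨f, 𝔪, hf, h𝔪, hp𝔪, h⟩
  · exact Or.inl h
  · refine Or.inr ⟨f, 𝔪, hf, h𝔪, hp𝔪, fun ℓ hℓ hgood hℓM hℓp => h ℓ hℓ fun hℓS => ?_⟩
    rcases hS ℓ hℓ hℓS with h1 | h1 | h1
    · exact hℓM h1
    · exact hℓp h1
    · exact h1 hgood

theorem exists_fixed_of_ne_zero {J : Type*} [AddCommGroup J] [Module HeckeAlg J]
    [DistribMulAction GQ J] [SMulCommClass GQ HeckeAlg J] {S : Finset ℕ} {a : ℕ → ℤ}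
    {W : WeierstrassCurve ℤ} (hΔ : W.Δ ≠ 0) (hss : W.IsSemistableModel) (hp2 : p ≠ 2)
    (hspan : Submodule.span (ZMod p) (Set.range (rho W p)) = ⊤)
    (hX : ∀ g : GQ, eigenRep S p a J g * eigenRep S p a J g =
      LinearMap.trace (ZMod p) _ (rho W p g) • eigenRep S p a J g -
        algebraMap (ZMod p) _ (LinearMap.det (rho W p g)))
    {q : ℕ} (hq : q.Prime) (hqp : q ≠ p) {A : ValuationSubring (AlgebraicClosure ℚ)}
    (hA : A.LiesOverPrime q) {x : J} (hx : x ∈ eigenPart S p a J) (hx0 : x ≠ 0) :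
    ∃ y ∈ eigenPart S p a J, y ≠ 0 ∧ ∀ σ ∈ A.inertiaSubgroupIn ℚ, σ • y = y := by
  haveI := finite_rat hΔ hp.out.ne_zero
  haveI : Module.Finite (ZMod p)
      (Submodule.torsionBy ℤ ((W.map (Int.castRingHom ℚ))⁄(AlgebraicClosure ℚ)).Point p) :=
    Module.Finite.of_finite
  by_cases hfix : ∀ σ ∈ A.inertiaSubgroupIn ℚ, σ • x = x
  · exact ⟨x, hx, hx0, hfix⟩
  · push Not at hfix
    obtain ⟨τ, hτ, hτx⟩ := hfix
    refine ⟨τ • x - x, sub_mem (gsmul_mem_eigenPart τ hx) hx, sub_ne_zero.mpr hτx,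
      fun σ hσ => ?_⟩
    let b := Module.finBasisOfFinrankEq _ _ (finrank_rat hΔ (p := p))
    have h1 := blr (rho W p) (eigenRep S p a J) (two_ne_zero_zmod hp2) b hspan hX
      ((MonoidAlgebra.of (ZMod p) GQ σ - 1) * (MonoidAlgebra.of (ZMod p) GQ τ - 1)) (by
        rw [_root_.map_mul, map_sub, map_sub, _root_.map_one]
        have h2 := rho_inertia_mul (p := p) hΔ hss hp2 hq hqp hA hσ hτ
        simpa using h2)
    rw [_root_.map_mul, map_sub, map_sub, _root_.map_one] at h1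
    have h2 : (eigenRep S p a J σ - 1) * (eigenRep S p a J τ - 1) = 0 := by simpa using h1
    have h3 := congrArg (fun f : Module.End (ZMod p) (eigenPart S p a J) =>
      ((f ⟨x, hx⟩ : eigenPart S p a J) : J)) h2
    have h4 : σ • (τ • x - x) - (τ • x - x) = 0 := h3
    exact sub_eq_zero.mp h4

theorem isGoodPrimeFor_of_notMem {W : WeierstrassCurve ℤ} (hΔ : W.Δ ≠ 0) {ℓ : ℕ} (hℓ : ℓ.Prime)
    (h : ℓ ∉ W.Δ.natAbs.primeFactors) : W.IsGoodPrimeFor ℓ := fun hd =>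
  h (Nat.mem_primeFactors.mpr ⟨hℓ, Int.natCast_dvd.mp hd, Int.natAbs_ne_zero.mpr hΔ⟩)

/-- **Level lowering from `q²` to `q`.** -/
theorem lowerSq_one (hmain : MainSq) (hp2 : p ≠ 2) {W : WeierstrassCurve ℤ} (hΔ : W.Δ ≠ 0)
    (hss : W.IsSemistableModel) (hirr : W.ModRepIsIrreducible p) {m q : ℕ} (hm0 : m ≠ 0)
    (hq : q.Prime) (hqm : ¬ q ∣ m) (hqp : q ≠ p)
    (hr : ∃ r, r.Prime ∧ r ∣ m ∧ r % 12 = 11)
    (hres : W.IsResiduallyModularOfLevel p (m * q * q)) :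
    W.IsResiduallyModularOfLevel p (m * q) := by
  classical
  haveI : NeZero m := ⟨hm0⟩
  haveI : NeZero (m * q) := ⟨Nat.mul_ne_zero hm0 hq.ne_zero⟩
  haveI : NeZero (m * q * q) := ⟨Nat.mul_ne_zero (NeZero.ne (m * q)) hq.ne_zero⟩
  set S : Finset ℕ := (m * q).primeFactors ∪ {p} ∪ W.Δ.natAbs.primeFactors with hSdef
  have hmemS : ∀ ℓ : ℕ, ℓ.Prime → (ℓ ∈ S ↔ ℓ ∣ m * q ∨ ℓ = p ∨ ¬ W.IsGoodPrimeFor ℓ) := by
    intro ℓ hℓ
    rw [hSdef, Finset.mem_union, Finset.mem_union, Finset.mem_singleton]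
    constructor
    · rintro ((h | h) | h)
      · exact Or.inl (Nat.dvd_of_mem_primeFactors h)
      · exact Or.inr (Or.inl h)
      · exact Or.inr (Or.inr fun hg => hg (Int.natCast_dvd.mpr (Nat.dvd_of_mem_primeFactors h)))
    · rintro (h | h | h)
      · exact Or.inl (Or.inl (Nat.mem_primeFactors.mpr ⟨hℓ, h, NeZero.ne _⟩))
      · exact Or.inl (Or.inr h)
      · by_contra hcon
        push Not at hcon
        exact h (isGoodPrimeFor_of_notMem hΔ hℓ hcon.2)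
  have hdvd2 : ∀ ℓ : ℕ, ℓ.Prime → ℓ ∣ m * q * q → ℓ ∣ m * q := fun ℓ hℓ h =>
    (hℓ.dvd_mul.mp h).elim id fun h' => h'.trans (dvd_mul_left _ _)
  have hNS : ∀ ℓ : ℕ, ℓ.Prime → ℓ ∣ m * q * q → ℓ ∈ S := fun ℓ hℓ h =>
    (hmemS ℓ hℓ).mpr (Or.inl (hdvd2 ℓ hℓ h))
  have hNS1 : ∀ ℓ : ℕ, ℓ.Prime → ℓ ∣ m * q → ℓ ∈ S := fun ℓ hℓ h =>
    (hmemS ℓ hℓ).mpr (Or.inl h)
  have hNS0 : ∀ ℓ : ℕ, ℓ.Prime → ℓ ∣ m → ℓ ∈ S := fun ℓ hℓ h =>
    (hmemS ℓ hℓ).mpr (Or.inl (h.mul_right _))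
  -- the separating operators
  rcases resMod_or_separated (m * q) S (W := W) (p := p) (fun ℓ hℓ h => (hmemS ℓ hℓ).mp h) with
    ⟨t₁, ht₁, hθ₁⟩ | h
  swap
  · exact h
  rcases exists_separating_or_eigenform m S p W.apOfModel with
    ⟨t₂, ht₂, hθ₂⟩ | ⟨f, 𝔪, hf, h𝔪, hp𝔪, h⟩
  swap
  · obtain ⟨g, hg, hgf⟩ := Fermat.Agent.Oldforms.exists_eigenform_raise (dvd_mul_right m q) f hf
    refine ⟨g, 𝔪, hg, h𝔪, hp𝔪, fun ℓ hℓ hgood hℓM hℓp => ?_⟩
    obtain ⟨b, hb, hb'⟩ := h ℓ hℓ fun hℓS => by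
      rcases (hmemS ℓ hℓ).mp hℓS with h1 | h1 | h1
      · exact hℓM h1
      · exact hℓp h1
      · exact h1 hgood
    exact ⟨b, by rw [hb, hgf ℓ hℓ (fun h => absurd h hℓM)], hb'⟩
  exfalso
  -- the eigenspace
  letI := heckeModuleBar (m * q * q)
  haveI := Fermat.Agent.Cofaith.smulCommClass_JZero (m * q * q)
  have hJ : ESInput (m * q * q) p (↑S : Set ℕ) (JZero (m * q * q)) :=
    Fermat.Agent.Cofaith.esInput_JZero (m * q * q) hp.out _
      (fun ℓ hℓ h => Finset.mem_coe.mpr (hNS ℓ hℓ h))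
      (Fermat.Agent.QX4.allSpec (m * q * q) p hp.out)
  obtain ⟨f, 𝔪, hf, h𝔪, hp𝔪, h⟩ := hres
  obtain ⟨x, hx, hx0⟩ := exists_mem_eigenPart_ne_zero (a := W.apOfModel) hJ
    (fun k => Fermat.Agent.Cofaith.finite_torsion_set _ (pow_ne_zero k hp.out.ne_zero)) hf h𝔪 hp𝔪
    (fun ℓ hℓ hℓS => by
      have h1 := (not_congr (hmemS ℓ hℓ)).mp hℓS
      push Not at h1
      exact h ℓ hℓ h1.2.2 (fun h2 => h1.1 (hdvd2 ℓ hℓ h2)) h1.2.1)
  have hX := eigenRep_relation (a := W.apOfModel) hJ hΔ S subset_rfl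
    (Finset.mem_union_left _ (Finset.mem_union_right _ (Finset.mem_singleton_self p)))
    hNS (fun ℓ hℓ hd => (hmemS ℓ hℓ).mpr (Or.inr (Or.inr fun hg => hg hd)))
    (fun _ _ _ => rfl)
  have hspan := span_range_rho (p := p) hΔ hp2 hirr
  obtain ⟨A, hA, hmain'⟩ := hmain m q p hq hqm hp.out hqp hr
  obtain ⟨y, hy, hy0, hfix⟩ := exists_fixed_of_ne_zero hΔ hss hp2 hspan hX hq hqp hA hx hx0
  have hkey := hmain' S hNS1 (t₁ * t₂)
    (fun z hz => by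
      rw [mul_comm t₁ t₂, actS_mul, actS_eq_zero (m * q) (↑S : Set ℕ)
        (fun ℓ hℓ h => Finset.mem_coe.mpr (hNS1 ℓ hℓ h)) t₁ ht₁ hp.out.ne_zero hz, actS_zero])
    (fun z hz => by
      rw [actS_mul, actS_eq_zero m (↑S : Set ℕ)
        (fun ℓ hℓ h => Finset.mem_coe.mpr (hNS0 ℓ hℓ h)) t₂ ht₂ hp.out.ne_zero hz, actS_zero])
    y hy.1 hfix
  have hM0 : 0 < m * q * p * W.Δ.natAbs := by
    refine Nat.mul_pos (Nat.mul_pos (Nat.pos_of_ne_zero (NeZero.ne _)) hp.out.pos)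
      (Nat.pos_of_ne_zero (Int.natAbs_ne_zero.mpr hΔ))
  obtain ⟨ℓ, hℓ, hgood, hℓp, hℓ1, hne⟩ := Fermat.Agent.S41ne.ne1' hp2 hΔ hirr
    (m * q * p * W.Δ.natAbs) hM0
  have hℓM : ¬ ℓ ∣ m * q := by
    intro hd
    have h1 : (ℓ : ℤ) ∣ (ℓ : ℤ) - 1 := by
      refine dvd_trans ?_ hℓ1
      exact_mod_cast (hd.mul_right p).mul_right _
    have h2 : (ℓ : ℤ) ∣ 1 := by
      have := dvd_sub (dvd_refl (ℓ : ℤ)) h1
      simpa using this
    have h3 : ℓ ∣ 1 := by exact_mod_cast h2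
    exact hℓ.one_lt.ne' (Nat.dvd_one.mp h3)
  have hℓS : ℓ ∉ S := fun h1 => by
    rcases (hmemS ℓ hℓ).mp h1 with h2 | h2 | h2
    · exact hℓM h2
    · exact hℓp h2
    · exact h2 hgood
  have h1 := hkey ⟨⟨ℓ, hℓ⟩, by simpa using hℓS⟩
  have hθ : theta S p W.apOfModel (t₁ * t₂) = 1 := by rw [map_mul, hθ₁, hθ₂, one_mul]
  have hθ3 : theta S p W.apOfModel ((t₁ * t₂) ^ 3) = 1 := by rw [map_pow, hθ, one_pow]
  rw [actS, map_mul] at h1
  change (inclS (↑S : Set ℕ) _ * inclS (↑S : Set ℕ) _) • y = 0 at h1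
  rw [mul_smul, inclS_smul_of_theta_eq_one hy hθ3, inclS_smul_of_mem hy] at h1
  rw [map_sub, thetaZ_X, map_add, map_natCast, map_one] at h1
  exact hy0 (eq_zero_of_smul hp.out hne hy.1 h1)

end

/-- **(E0)** from the geometric statement. -/
theorem lowerSq_of_main (hmain : MainSq) : S59aux.LowerSq := by
  intro p hp W hΔ hss hirr r M q hr hM0 hrM hr2 hp2M hcube hq hqp hq2 hres
  have hpp : p.Prime := by rcases hp with rfl | rfl <;> norm_num
  haveI : Fact p.Prime := ⟨hpp⟩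
  have hp2 : p ≠ 2 := by rcases hp with rfl | rfl <;> norm_num
  obtain ⟨m, hm⟩ := hq2
  have hM : M = m * q * q := by rw [hm]; ring
  subst hM
  have hdiv : m * q * q / q = m * q := Nat.mul_div_cancel _ hq.pos
  rw [hdiv]
  have hm0 : m ≠ 0 := by
    rintro rfl
    simp at hM0
  have hqm : ¬ q ∣ m := by
    rintro ⟨c, rfl⟩
    exact hcube q hq hqp ⟨c, by ring⟩
  have hqr : r ≠ q := by
    rintro rfl
    exact hr2 ⟨m, by ring⟩
  have hrm : r ∣ m := by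
    rcases hr.prime.dvd_mul.mp hrM with h | h
    · rcases hr.prime.dvd_mul.mp h with h | h
      · exact h
      · exact absurd ((Nat.prime_dvd_prime_iff_eq hr.prime hq).mp h) hqr
    · exact absurd ((Nat.prime_dvd_prime_iff_eq hr.prime hq).mp h) hqr
  exact lowerSq_one hmain hp2 hΔ hss hirr hm0 hq hqm hqp ⟨r, hr.prime, hrm, hr.mod_twelve⟩ hres

end Fermat.Agent.TriLow
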