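import Fermat.Agent.S36.NormAL
import Fermat.Agent.S36.LastMile
import Fermat.Agent.TEll.Gauss
import Fermat.Agent.TEll.Inputs
import Fermat.Agent.QX4.SecGauss
import Fermat.Agent.TriVal.Exp

/-!
# `T_ℓ` on the function field of `X₀(q² m)` over `K₀` and the three expansions
-/

set_option autoImplicit false

open AlgebraicCurve ModularCurve HahnSeries Fermat.Agent.TEll Fermat.Agent.TriGauss
  Fermat.Agent.LocE Fermat.Agent.GaussVal Fermat.Agent.S36mile
open Fermat.Agent.TwoGauss (Dv)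
open Fermat.Agent.TriVal hiding e0 e0_apply e0_algebraMap e0_jd e1 e2
open Fermat.Agent.S36norm

noncomputable section

namespace Fermat.Agent.TriLow

section TC

variable (K : Type*) [Field K] (N ℓ : ℕ) [NeZero N] [NeZero ℓ] [NeZero (N * ℓ)]

/-- `T_ℓ` on functions with coefficients in `K`. -/
def TC : modularFunctionFieldFullC K N →* modularFunctionFieldFullC K N :=
  (normAlong (alphaC K N ℓ)).comp
    ((betaC K N ℓ : modularFunctionFieldFullC K N →+* modularFunctionFieldFullC K (N * ℓ)) :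
      modularFunctionFieldFullC K N →* modularFunctionFieldFullC K (N * ℓ))

theorem TC_apply (f : modularFunctionFieldFullC K N) :
    TC K N ℓ f = normAlong (alphaC K N ℓ) (betaC K N ℓ f) := rfl

variable [Algebra K Qb]

theorem bcb_TC (f : modularFunctionFieldFullC K N) :
    bcb K N (TC K N ℓ f) = TEll Qb N ℓ (bcb K N f) := by
  rw [TC_apply, bcb_norm_alpha, bcb_betaC]; rfl

theorem TC_ne_zero {f : modularFunctionFieldFullC K N} (hf : f ≠ 0) : TC K N ℓ f ≠ 0 := by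
  intro h
  have h1 := bcb_TC K N ℓ f
  rw [h, map_zero] at h1
  exact TEll_ne_zero Qb N ℓ (FF.finiteAlong _) ((map_ne_zero_iff _ bcb_injective).mpr hf) h1.symm

variable {K N ℓ}

theorem e0_TC (hℓ : ℓ.Prime) (h : ¬ ℓ ∣ N) (f : modularFunctionFieldFullC K N) :
    e0 K N (TC K N ℓ f) = TSer Qb ℓ (e0 K N f) := by
  have h1 := coe_TEll_bar N ℓ hℓ h (bcb K N f)
  rw [← bcb_TC] at h1
  exact h1

end TC

/-! ### The expansion at `1/(qm)` at all levels -/

section EmbG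

theorem neZero_div' {q d : ℕ} [NeZero d] (h : q * q ∣ d) : NeZero (d / (q * q)) := by
  refine ⟨fun h0 => ?_⟩
  obtain ⟨e, he⟩ := h
  have hd := NeZero.ne d
  have hq : 0 < q * q := by
    rcases Nat.eq_zero_or_pos (q * q) with h1 | h1
    · rw [h1, zero_mul] at he; exact absurd he hd
    · exact h1
  rw [he, Nat.mul_div_cancel_left _ hq] at h0
  rw [h0, mul_zero] at he
  exact hd he

/-- the expansion of `j_d` at the cusp `1/(qm)`, all levels. -/
def S1g (ζ : Qbˣ) (q d : ℕ) [NeZero d] : LaurentSeries Qb :=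
  if h : q * q ∣ d then
    have := neZero_div' h
    X0Emb.twist ζ (TwoGauss.jd Qb (d / (q * q)))
  else TwoGauss.jd Qb d

theorem S1g_mul {q : ℕ} (hq : q ≠ 0) (ζ : Qbˣ) (d : ℕ) [NeZero d] [NeZero (q * q * d)] :
    S1g ζ q (q * q * d) = X0Emb.twist ζ (TwoGauss.jd Qb d) := by
  have h : q * q ∣ q * q * d := dvd_mul_right _ _
  have := neZero_div' h
  rw [S1g, dif_pos h]
  exact congrArg (X0Emb.twist ζ)
    (TriGauss.jd_congr (Nat.mul_div_cancel_left d (Nat.mul_pos (Nat.pos_of_ne_zero hq)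
      (Nat.pos_of_ne_zero hq))))

theorem S1g_of_not {q : ℕ} (ζ : Qbˣ) (d : ℕ) [NeZero d] (h : ¬ q * q ∣ d) :
    S1g ζ q d = TwoGauss.jd Qb d := dif_neg h

theorem S1g_congr (ζ : Qbˣ) (q : ℕ) {a b : ℕ} [NeZero a] [NeZero b] (h : a = b) :
    S1g ζ q a = S1g ζ q b := by subst h; rfl

theorem S1_eq_S1g {m q : ℕ} [NeZero (m * q * q)] (ζ : Qbˣ) (d : ℕ) [NeZero d]
    (hd : d ∣ m * q * q) : S1 ζ (⟨d, hd⟩ : Dv (m * q * q)) = S1g ζ q d := rfl

/-- `S1g` of `ℓ d` -/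
theorem S1g_mul_left {q ℓ : ℕ} (hq : q ≠ 0) (hc : (q * q).Coprime ℓ) (ζ : Qbˣ) (d : ℕ)
    [NeZero d] [NeZero ℓ] [NeZero (ℓ * d)] :
    S1g ζ q (ℓ * d) = qExpand Qb ℓ (S1g (ζ ^ ℓ) q d) := by
  by_cases h : q * q ∣ d
  · obtain ⟨e, rfl⟩ := h
    have hne : NeZero e := ⟨fun h0 => NeZero.ne (q * q * e) (by rw [h0, mul_zero])⟩
    have hne2 : NeZero (ℓ * e) := ⟨Nat.mul_ne_zero (NeZero.ne ℓ) (NeZero.ne e)⟩
    have h1 : ℓ * (q * q * e) = q * q * (ℓ * e) := by ring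
    have hne3 : NeZero (q * q * (ℓ * e)) := ⟨by rw [← h1]; exact NeZero.ne _⟩
    rw [S1g_congr ζ q h1, S1g_mul hq, S1g_mul hq, ← twist_qExpand, TwoGauss.qExpand_jd]
  · have h2 : ¬ q * q ∣ ℓ * d := fun h3 => h (hc.dvd_of_dvd_mul_left h3)
    rw [S1g_of_not _ _ h, S1g_of_not _ _ h2, TwoGauss.qExpand_jd]

variable {K : Type*} [Field K] [Algebra K Qb]

/-- The expansion at the cusp `1/(qm)`. -/
structure EmbG (K : Type*) [Field K] [Algebra K Qb] (M q : ℕ) (ζ : Qbˣ)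
    (e : modularFunctionFieldFullC K M →+* LaurentSeries Qb) : Prop where
  const : ∀ c : K, e (algebraMap _ _ c) = algebraMap Qb (LaurentSeries Qb) (algebraMap K Qb c)
  jd : ∀ (d : ℕ) [NeZero d] (hd : d ∣ M), e (TriVal.jd K M d hd) = S1g ζ q d

theorem embG_iff {m q : ℕ} [NeZero (m * q * q)] {ζ : Qbˣ}
    {e : modularFunctionFieldFullC K (m * q * q) →+* LaurentSeries Qb} :
    EmbG K (m * q * q) q ζ e ↔ Emb1 K m q ζ e :=
  ⟨fun h => ⟨h.const, fun d _ hd => h.jd d hd⟩, fun h => ⟨h.const, fun d _ hd => h.jd d hd⟩⟩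

theorem EmbG.unique {M q : ℕ} [NeZero M] {ζ : Qbˣ}
    {e e' : modularFunctionFieldFullC K M →+* LaurentSeries Qb}
    (he : EmbG K M q ζ e) (he' : EmbG K M q ζ e') : e = e' := by
  apply fullC_ringHom_ext
  · intro c; rw [he.const, he'.const]
  · intro d _ hd; rw [he.jd, he'.jd]

theorem exists_embG (K : Type*) [Field K] [Algebra K Qb] {M m q : ℕ} [NeZero M]
    (hM : M = m * q * q) (hq : q.Prime) (hm : ¬ q ∣ m) {ζ : Qbˣ} (hζ : IsPrimitiveRoot ζ q) :
    ∃ e, EmbG K M q ζ e := by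
  subst hM
  obtain ⟨e, he⟩ := TriGauss.exists_e1 (K := Qb) (m := m) TwoGauss.iotaBar hq hm ζ hζ
  let g : modularFunctionFieldFullC Qb (m * q * q) →ₐ[Qb] LaurentSeries Qb :=
    e.comp ((toFB Qb (m * q * q)) : _ →ₐ[Qb] _)
  have hg : ∀ x, g x = e (toFB Qb (m * q * q) x) := fun x => rfl
  refine ⟨(g : modularFunctionFieldFullC Qb (m * q * q) →+* LaurentSeries Qb).comp
    (bc K Qb (m * q * q)), ?_, ?_⟩
  · intro c
    change g (bc K Qb (m * q * q) (algebraMap _ _ c)) = _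
    rw [bc_algebraMap, AlgHom.commutes]
  · intro d _ hd
    change g (bc K Qb (m * q * q) (TriVal.jd K _ d hd)) = _
    rw [bc_jd, hg, toFB_jd Qb _ ⟨d, hd⟩, he]
    rfl

variable {N ℓ q : ℕ} [NeZero N] [NeZero ℓ] [NeZero (N * ℓ)] {ζ : Qbˣ}

theorem EmbG.alpha {e : modularFunctionFieldFullC K N →+* LaurentSeries Qb}
    {e' : modularFunctionFieldFullC K (N * ℓ) →+* LaurentSeries Qb}
    (he : EmbG K N q ζ e) (he' : EmbG K (N * ℓ) q ζ e') (x : modularFunctionFieldFullC K N) :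
    e' (alphaC K N ℓ x) = e x := by
  have key : e'.comp (alphaC K N ℓ : modularFunctionFieldFullC K N →+*
      modularFunctionFieldFullC K (N * ℓ)) = e := by
    apply fullC_ringHom_ext
    · intro c
      change e' (alphaC K N ℓ (algebraMap K _ c)) = _
      rw [AlgHom.commutes, he'.const, he.const]
    · intro d _ hd
      change e' (alphaC K N ℓ (TriVal.jd K N d hd)) = _
      have h4 : alphaC K N ℓ (TriVal.jd K N d hd) = TriVal.jd K (N * ℓ) d (hd.mul_right _) :=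
        Subtype.ext (by rw [coe_alphaC]; rfl)
      rw [h4, he'.jd, he.jd]
  exact congrArg (fun g : modularFunctionFieldFullC K N →+* LaurentSeries Qb => g x) key

omit [Algebra K Qb] in
theorem betaC_jd (d : ℕ) [NeZero d] [NeZero (ℓ * d)] (hd : d ∣ N) (h : ℓ * d ∣ N * ℓ) :
    betaC K N ℓ (TriVal.jd K N d hd) = TriVal.jd K (N * ℓ) (ℓ * d) h := by
  apply Subtype.ext
  rw [coe_betaC, TriVal.coe_jd, TriVal.coe_jd, qExpand_qExpand]

theorem EmbG.beta (hq : q ≠ 0) (hc : (q * q).Coprime ℓ)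
    {e : modularFunctionFieldFullC K N →+* LaurentSeries Qb}
    {e' : modularFunctionFieldFullC K (N * ℓ) →+* LaurentSeries Qb}
    (he : EmbG K N q (ζ ^ ℓ) e) (he' : EmbG K (N * ℓ) q ζ e')
    (x : modularFunctionFieldFullC K N) :
    e' (betaC K N ℓ x) = qExpand Qb ℓ (e x) := by
  have key : e'.comp (betaC K N ℓ : modularFunctionFieldFullC K N →+*
      modularFunctionFieldFullC K (N * ℓ)) = (qExpand Qb ℓ).comp e := by
    apply fullC_ringHom_ext
    · intro c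
      change e' (betaC K N ℓ (algebraMap K _ c)) = qExpand Qb ℓ (e (algebraMap K _ c))
      rw [AlgHom.commutes, he'.const, he.const, algebraMap_laurentSeries_eq_single,
        qExpand_single, mul_zero]
    · intro d _ hd
      change e' (betaC K N ℓ (TriVal.jd K N d hd)) = qExpand Qb ℓ (e (TriVal.jd K N d hd))
      have hne : NeZero (ℓ * d) := ⟨Nat.mul_ne_zero (NeZero.ne ℓ) (NeZero.ne d)⟩
      have h : ℓ * d ∣ N * ℓ := by rw [mul_comm N ℓ]; exact mul_dvd_mul_left _ hd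
      rw [betaC_jd d hd h, he'.jd, he.jd, S1g_mul_left hq hc]
  exact congrArg (fun g : modularFunctionFieldFullC K N →+* LaurentSeries Qb => g x) key

end EmbG

/-! ### The partial Atkin--Lehner involution `w_ℓ` -/

section Swap

variable {K : Type*} [Field K] {N ℓ : ℕ} [NeZero N] [NeZero ℓ] [NeZero (N * ℓ)]
  {w : modularFunctionFieldFullC K (N * ℓ) ≃ₐ[K] modularFunctionFieldFullC K (N * ℓ)}

theorem swapL_alpha (hw : IsSwap K (N * ℓ) ℓ N w) (x : modularFunctionFieldFullC K N) :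
    w (alphaC K N ℓ x) = betaC K N ℓ x := by
  have key : (((w : modularFunctionFieldFullC K (N * ℓ) →ₐ[K] modularFunctionFieldFullC K (N * ℓ)).comp
      (alphaC K N ℓ) : modularFunctionFieldFullC K N →ₐ[K] modularFunctionFieldFullC K (N * ℓ)) :
      modularFunctionFieldFullC K N →+* modularFunctionFieldFullC K (N * ℓ)) =
      (betaC K N ℓ : modularFunctionFieldFullC K N →+* modularFunctionFieldFullC K (N * ℓ)) := by
    apply fullC_ringHom_ext
    · intro c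
      change w (alphaC K N ℓ (algebraMap K _ c)) = betaC K N ℓ (algebraMap K _ c)
      rw [AlgHom.commutes, AlgEquiv.commutes, AlgHom.commutes]
    · intro d _ hd
      change w (alphaC K N ℓ (TriVal.jd K N d hd)) = betaC K N ℓ (TriVal.jd K N d hd)
      have hne1 : NeZero (d * 1) := ⟨by rw [mul_one]; exact NeZero.ne d⟩
      have hne2 : NeZero (d * ℓ) := ⟨Nat.mul_ne_zero (NeZero.ne d) (NeZero.ne ℓ)⟩
      have hne : NeZero (ℓ * d) := ⟨Nat.mul_ne_zero (NeZero.ne ℓ) (NeZero.ne d)⟩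
      have h1 : d * 1 ∣ N * ℓ := by rw [mul_one]; exact hd.mul_right _
      have h2 : d * ℓ ∣ N * ℓ := mul_dvd_mul_right hd _
      have h3 : ℓ * d ∣ N * ℓ := by rw [mul_comm N ℓ]; exact mul_dvd_mul_left _ hd
      have h4 : alphaC K N ℓ (TriVal.jd K N d hd) = TriVal.jd K (N * ℓ) (d * 1) h1 := by
        apply Subtype.ext
        rw [coe_alphaC]
        exact congrArg Subtype.val
          (jd_congr_index (K := K) (N := N * ℓ) (mul_one d).symm (hd.mul_right _) h1)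
      rw [h4, hw.jd d 1 ℓ hd (mul_one ℓ) h1 h2]
      apply Subtype.ext
      rw [coe_betaC, TriVal.coe_jd, TriVal.coe_jd, qExpand_qExpand]
      exact congrArg Subtype.val (jd_congr_index (K := K) (N := N * ℓ) (mul_comm d ℓ) h2 h3)
  exact congrArg (fun g : modularFunctionFieldFullC K N →+*
    modularFunctionFieldFullC K (N * ℓ) => g x) key

theorem swapL_beta (hw : IsSwap K (N * ℓ) ℓ N w) (x : modularFunctionFieldFullC K N) :
    w (betaC K N ℓ x) = alphaC K N ℓ x := by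
  rw [← swapL_alpha hw, hw.invol rfl]

end Swap

/-! ### `w_Q` commutes with `T_ℓ` -/

section SwapQ

variable {K : Type*} [Field K] {N ℓ Q m : ℕ} [NeZero N] [NeZero ℓ] [NeZero (N * ℓ)]
  {w : modularFunctionFieldFullC K N ≃ₐ[K] modularFunctionFieldFullC K N}
  {w' : modularFunctionFieldFullC K (N * ℓ) ≃ₐ[K] modularFunctionFieldFullC K (N * ℓ)}

theorem swapQ_alpha (hN : N = m * Q) (hw : IsSwap K N Q m w)
    (hw' : IsSwap K (N * ℓ) Q (m * ℓ) w') (x : modularFunctionFieldFullC K N) :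
    w' (alphaC K N ℓ x) = alphaC K N ℓ (w x) := by
  have key : (((w' : modularFunctionFieldFullC K (N * ℓ) →ₐ[K]
      modularFunctionFieldFullC K (N * ℓ)).comp (alphaC K N ℓ) :
        modularFunctionFieldFullC K N →ₐ[K] modularFunctionFieldFullC K (N * ℓ)) :
      modularFunctionFieldFullC K N →+* modularFunctionFieldFullC K (N * ℓ)) =
      (((alphaC K N ℓ).comp (w : modularFunctionFieldFullC K N →ₐ[K]
        modularFunctionFieldFullC K N) :
        modularFunctionFieldFullC K N →ₐ[K] modularFunctionFieldFullC K (N * ℓ)) :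
        modularFunctionFieldFullC K N →+* modularFunctionFieldFullC K (N * ℓ)) := by
    apply fullC_ringHom_ext
    · intro c
      change w' (alphaC K N ℓ (algebraMap K _ c)) = alphaC K N ℓ (w (algebraMap K _ c))
      rw [AlgHom.commutes, AlgEquiv.commutes, AlgEquiv.commutes, AlgHom.commutes]
    · intro d hne hd
      obtain ⟨a, b, b', ha, hb, rfl⟩ := exists_fac (m := m) (Q := Q) (hN ▸ hd)
      have h1 : a * b' ∣ N := by rw [hN]; exact mul_dvd_mul ha ⟨b, hb.symm⟩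
      have hne1 : NeZero (a * b') := neZero_of_dvd h1
      change w' (alphaC K N ℓ (TriVal.jd K N (a * b) hd)) =
        alphaC K N ℓ (w (TriVal.jd K N (a * b) hd))
      have h4 : ∀ (d : ℕ) [NeZero d] (hd : d ∣ N), alphaC K N ℓ (TriVal.jd K N d hd) =
          TriVal.jd K (N * ℓ) d (hd.mul_right _) := fun d _ hd => by
        apply Subtype.ext
        rw [coe_alphaC]
        rfl
      rw [h4, hw.jd a b b' ha hb hd h1, h4,
        hw'.jd a b b' (ha.mul_right _) hb (hd.mul_right _) (h1.mul_right _)]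
  exact congrArg (fun g : modularFunctionFieldFullC K N →+*
    modularFunctionFieldFullC K (N * ℓ) => g x) key

theorem swapQ_beta (hN : N = m * Q) (hw : IsSwap K N Q m w)
    (hw' : IsSwap K (N * ℓ) Q (m * ℓ) w') (x : modularFunctionFieldFullC K N) :
    w' (betaC K N ℓ x) = betaC K N ℓ (w x) := by
  have key : (((w' : modularFunctionFieldFullC K (N * ℓ) →ₐ[K]
      modularFunctionFieldFullC K (N * ℓ)).comp (betaC K N ℓ) :
        modularFunctionFieldFullC K N →ₐ[K] modularFunctionFieldFullC K (N * ℓ)) :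
      modularFunctionFieldFullC K N →+* modularFunctionFieldFullC K (N * ℓ)) =
      (((betaC K N ℓ).comp (w : modularFunctionFieldFullC K N →ₐ[K]
        modularFunctionFieldFullC K N) :
        modularFunctionFieldFullC K N →ₐ[K] modularFunctionFieldFullC K (N * ℓ)) :
        modularFunctionFieldFullC K N →+* modularFunctionFieldFullC K (N * ℓ)) := by
    apply fullC_ringHom_ext
    · intro c
      change w' (betaC K N ℓ (algebraMap K _ c)) = betaC K N ℓ (w (algebraMap K _ c))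
      rw [AlgHom.commutes, AlgEquiv.commutes, AlgEquiv.commutes, AlgHom.commutes]
    · intro d hne hd
      obtain ⟨a, b, b', ha, hb, rfl⟩ := exists_fac (m := m) (Q := Q) (hN ▸ hd)
      have h1 : a * b' ∣ N := by rw [hN]; exact mul_dvd_mul ha ⟨b, hb.symm⟩
      have hne1 : NeZero (a * b') := neZero_of_dvd h1
      change w' (betaC K N ℓ (TriVal.jd K N (a * b) hd)) =
        betaC K N ℓ (w (TriVal.jd K N (a * b) hd))
      have hl : ∀ d : ℕ, d ∣ N → ℓ * d ∣ N * ℓ := fun d hd => by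
        rw [mul_comm N ℓ]; exact mul_dvd_mul_left _ hd
      have hn2 : NeZero (ℓ * (a * b)) := neZero_of_dvd (hl _ hd)
      have hn3 : NeZero (ℓ * (a * b')) := neZero_of_dvd (hl _ h1)
      have hn4 : NeZero (ℓ * a * b) := ⟨by rw [mul_assoc]; exact NeZero.ne _⟩
      have hn5 : NeZero (ℓ * a * b') := ⟨by rw [mul_assoc]; exact NeZero.ne _⟩
      have h6 : ℓ * a * b ∣ N * ℓ := by rw [mul_assoc]; exact hl _ hd
      have h7 : ℓ * a * b' ∣ N * ℓ := by rw [mul_assoc]; exact hl _ h1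
      have h8 : ℓ * a ∣ m * ℓ := by rw [mul_comm m ℓ]; exact mul_dvd_mul_left _ ha
      rw [betaC_jd (a * b) hd (hl _ hd), hw.jd a b b' ha hb hd h1, betaC_jd (a * b') h1 (hl _ h1),
        jd_congr_index (K := K) (N := N * ℓ) (mul_assoc ℓ a b).symm (hl _ hd) h6,
        jd_congr_index (K := K) (N := N * ℓ) (mul_assoc ℓ a b').symm (hl _ h1) h7,
        hw'.jd (ℓ * a) b b' h8 hb h6 h7]
  exact congrArg (fun g : modularFunctionFieldFullC K N →+*
    modularFunctionFieldFullC K (N * ℓ) => g x) key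

/-- `T_ℓ` commutes with `w_Q`. -/
theorem TC_swapQ [Algebra K Qb] (hN : N = m * Q) (hQ : Q ≠ 0) (hc : Q.Coprime m)
    (hcℓ : Q.Coprime ℓ) (hw : IsSwap K N Q m w) (f : modularFunctionFieldFullC K N) :
    TC K N ℓ (w f) = w (TC K N ℓ f) := by
  have : CharZero K := ((algebraMap K Qb).charZero_iff (algebraMap K Qb).injective).2 inferInstance
  obtain ⟨w', hw'⟩ := exists_isSwap K (TwoGauss.iotaBar.comp (algebraMap K Qb))
    (N := N * ℓ) (Q := Q) (m := m * ℓ) (by rw [hN]; ring) hQ (hc.mul_right hcℓ)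
  rw [TC_apply, ← swapQ_beta hN hw hw', TC_apply]
  exact normAlong_swap (alphaC K N ℓ) (alphaC K N ℓ) w.toRingEquiv w'.toRingEquiv
    (fun x => swapQ_alpha hN hw hw' x) (betaC K N ℓ f)

end SwapQ

/-! ### The formula for `T_ℓ` at the cusp `1/(qm)` -/

section Main

variable {K : Type*} [Field K] [Algebra K Qb] {N ℓ q : ℕ} [NeZero N] [NeZero ℓ] [NeZero (N * ℓ)]

theorem finrankAlong_alphaC (hℓ : ℓ.Prime) (h : ¬ ℓ ∣ N) :
    finrankAlong K (alphaC K N ℓ) = ℓ + 1 := by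
  rw [← finrankAlong_alpha_eq (L := K), finrankAlong_alpha N ℓ hℓ h]

theorem charZero_of_algebra (K : Type*) [Field K] [Algebra K Qb] : CharZero K :=
  ((algebraMap K Qb).charZero_iff (algebraMap K Qb).injective).2 inferInstance

/-- **The expansion of `T_ℓ f` at the cusp `1/(qm)`.** -/
theorem e1_TC_aux (hq : q.Prime) (hqℓ : q ≠ ℓ) (hℓ : ℓ.Prime) (h : ¬ ℓ ∣ N)
    {ζ ζ'' : Qbˣ} (hζ'' : ζ'' ^ ℓ = ζ)
    {e e₁ e₂ : modularFunctionFieldFullC K N →+* LaurentSeries Qb}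
    {e₃ e₄ : modularFunctionFieldFullC K (N * ℓ) →+* LaurentSeries Qb}
    (he : EmbG K N q ζ e) (he₁ : EmbG K N q (ζ ^ ℓ) e₁) (he₂ : EmbG K N q ζ'' e₂)
    (he₃ : EmbG K (N * ℓ) q ζ e₃) (he₄ : EmbG K (N * ℓ) q ζ'' e₄)
    (f : modularFunctionFieldFullC K N) :
    e (TC K N ℓ f) = qExpand Qb ℓ (e₁ f) * secNorm Qb ℓ (e₂ f) := by
  have : CharZero K := charZero_of_algebra K
  have hc : (q * q).Coprime ℓ := by
    have h1 := (Nat.coprime_primes hq hℓ).mpr hqℓ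
    exact Nat.Coprime.mul_left h1 h1
  have hℓN : ℓ.Coprime N := (Nat.Prime.coprime_iff_not_dvd hℓ).mpr h
  obtain ⟨w, hw⟩ := exists_isSwap K (TwoGauss.iotaBar.comp (algebraMap K Qb))
    (N := N * ℓ) (Q := ℓ) (m := N) rfl hℓ.ne_zero hℓN
  have hfr : Module.finrank (LaurentSeries Qb) (Cov Qb ℓ) = ℓ := finrank_cov Qb ℓ
  have hα₄ : ∀ x, e₄ (alphaC K N ℓ x) = e₂ x := fun x => he₂.alpha he₄ x
  have hβ₄ : ∀ x, e₄ (betaC K N ℓ x) = qExpand Qb ℓ (e x) := fun x =>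
    EmbG.beta (ζ := ζ'') hq.ne_zero hc (by rw [hζ'']; exact he) he₄ x
  have key := normAlong_split (alphaC K N ℓ) (R := Cov Qb ℓ) e e₃ (fun x => he.alpha he₃ x)
    (((toCov Qb ℓ : LaurentSeries Qb →+* Cov Qb ℓ).comp e₄).comp (w.toRingEquiv.toRingHom))
    (fun x => by
      change toCov Qb ℓ (e₄ (w (alphaC K N ℓ x))) = _
      rw [swapL_alpha hw, hβ₄]
      rfl)
    (hfr.symm ▸ hℓ) (by rw [hfr, finrankAlong_alphaC hℓ h]) (betaC K N ℓ (TriVal.jd K N 1 (one_dvd N))) (by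
      change toCov Qb ℓ (e₄ (w (betaC K N ℓ (TriVal.jd K N 1 (one_dvd N))))) ∉ _
      rw [swapL_beta hw, hα₄]
      rintro ⟨c, hc⟩
      have hc' : qExpand Qb ℓ c = e₂ (TriVal.jd K N 1 (one_dvd N)) :=
        (toCov Qb ℓ).injective hc
      have hj : e₂ (TriVal.jd K N 1 (one_dvd N)) = jqModC Qb := by
        rw [he₂.jd, S1g_of_not, TwoGauss.jd, qExpand_one_apply]
        intro h2
        have h3 := Nat.le_of_dvd one_pos h2
        have h4 := hq.two_le
        nlinarith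
      have h1 : (qExpand Qb ℓ c).coeff (-1) = 1 := by
        rw [hc', hj, coeff_jqModC_neg_one]
      rw [qExpand_coeff_of_not_dvd] at h1
      · exact zero_ne_one h1
      · rw [Int.dvd_neg]
        intro h
        have := Int.natCast_dvd_natCast.mp (by simpa using h : ((ℓ : ℕ) : ℤ) ∣ ((1 : ℕ) : ℤ))
        exact hℓ.one_lt.ne' (Nat.dvd_one.mp this)) (betaC K N ℓ f)
  rw [EmbG.beta (ζ := ζ) hq.ne_zero hc he₁ he₃] at key
  rw [TC_apply, key]
  congr 1
  change Algebra.norm (LaurentSeries Qb) (toCov Qb ℓ (e₄ (w (betaC K N ℓ f)))) = _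
  rw [swapL_beta hw, hα₄]
  rfl

end Main

/-! ### Gauss orders and reductions of `TSer` and `secNorm` -/

section Ord

variable {K : Type*} [Field K] {A : ValuationSubring K} {ϖ : K} (ℓ : ℕ) [NeZero ℓ]

theorem HasOrd.secNorm {y : LaurentSeries K} {n : ℤ} (hy : HasOrd A ϖ y n) :
    HasOrd A ϖ (TEll.secNorm K ℓ y) (ℓ * n) := by
  obtain ⟨c, Y₁, Y₂, hc0, hc, h₁, h₂, h⟩ := hy
  refine ⟨c ^ ℓ, TEll.secNorm A ℓ Y₁, TEll.secNorm A ℓ Y₂, pow_ne_zero _ hc0, ?_,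
    QX4.redS_secNorm_ne_zero A ℓ h₁, QX4.redS_secNorm_ne_zero A ℓ h₂, ?_⟩
  · rw [map_pow, hc, mul_comm (ℓ : ℤ) n, zpow_mul, zpow_natCast]
  · rw [incl, coeffMap_secNorm, coeffMap_secNorm, ← map_mul]
    change TEll.secNorm K ℓ (y * incl A Y₂) = _
    rw [h, map_mul, QX4.secNorm_algebraMap]

theorem HasOrd.TSer {y : LaurentSeries K} {n : ℤ} (hϖ : ϖ ≠ 0) (hy : HasOrd A ϖ y n) :
    HasOrd A ϖ (TEll.TSer K ℓ y) ((ℓ + 1) * n) := by
  have h := (HasOrd.qExpand ℓ hy).mul hϖ (HasOrd.secNorm ℓ hy)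
  rw [TSer_apply]
  have h1 : ((ℓ : ℤ) + 1) * n = n + ℓ * n := by ring
  rw [h1]
  exact h

end Ord

/-! ### The three expansions of `T_ℓ f` at level `q² m` -/

section Final

variable {K : Type*} [Field K] [Algebra K Qb] {m q ℓ : ℕ} [NeZero ℓ] [NeZero (m * q * q)]
  [NeZero (m * q * q * ℓ)]
variable {A : ValuationSubring Qb} (hq : q.Prime) (hm : ¬ q ∣ m) (hA : A.LiesOverPrime q)
  (hK : IsK0 A q K) (hℓ : ℓ.Prime) (hℓN : ¬ ℓ ∣ m * q * q)

include hℓ hℓN in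
theorem hasOrd_e0_TC {ϖ : Qb} (hϖ : ϖ ≠ 0) {f : modularFunctionFieldFullC K (m * q * q)} {n : ℤ}
    (hf : HasOrd A ϖ (e0 K (m * q * q) f) n) :
    HasOrd A ϖ (e0 K (m * q * q) (TC K (m * q * q) ℓ f)) ((ℓ + 1) * n) := by
  rw [e0_TC hℓ hℓN]
  exact HasOrd.TSer ℓ hϖ hf

include hℓ hℓN in
theorem e0_TC_mem {f : modularFunctionFieldFullC K (m * q * q)}
    (hf : e0 K (m * q * q) f ∈ gaussSubring A) :
    ∃ h : e0 K (m * q * q) (TC K (m * q * q) ℓ f) ∈ gaussSubring A,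
      gaussRed A ⟨_, h⟩ = TSer (IsLocalRing.ResidueField A) ℓ (gaussRed A ⟨_, hf⟩) := by
  have h1 := TSer_mem_gaussSubring A ℓ hf
  have h : e0 K (m * q * q) (TC K (m * q * q) ℓ f) ∈ gaussSubring A := by
    rw [e0_TC hℓ hℓN]; exact h1
  refine ⟨h, ?_⟩
  rw [← gaussRed_TSer]
  congr 1
  exact Subtype.ext (e0_TC hℓ hℓN f)

variable {ζ : Qbˣ} (hζ : IsPrimitiveRoot ζ q)
  {e₁ : modularFunctionFieldFullC K (m * q * q) →+* LaurentSeries Qb}
  (he₁ : Emb1 K m q ζ e₁)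

include hq hm hA hK hℓ hℓN hζ he₁ in
/-- **The expansion of `T_ℓ f` at `1/(qm)`, over `K₀`.** -/
theorem exists_e1_TC : ∃ σ ∈ A.inertiaSubgroupIn ℚ, ∃ τ ∈ A.inertiaSubgroupIn ℚ,
    ∀ f : modularFunctionFieldFullC K (m * q * q),
      e₁ (TC K (m * q * q) ℓ f) =
        qExpand Qb ℓ (ModularCurve.coeffMap (σ : Qb →+* Qb) (e₁ f)) *
          secNorm Qb ℓ (ModularCurve.coeffMap (τ : Qb →+* Qb) (e₁ f)) := by
  have hqℓ : q ≠ ℓ := by
    rintro rfl
    exact hℓN (dvd_mul_left _ _)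
  have hcop : ℓ.Coprime q := (Nat.coprime_primes hℓ hq).mpr (Ne.symm hqℓ)
  have h1 : IsPrimitiveRoot (ζ : Qb) q := IsPrimitiveRoot.coe_units_iff.mpr hζ
  obtain ⟨k, hk⟩ : ∃ k : ℕ, (ζ ^ k) ^ ℓ = ζ := by
    obtain ⟨k, hk⟩ := Nat.exists_mul_mod_eq_one_of_coprime hcop hq.one_lt
    refine ⟨k, ?_⟩
    rw [← pow_mul, mul_comm k ℓ, ← Nat.mod_add_div (ℓ * k) q, hk.2, _root_.pow_add, pow_mul,
      hζ.pow_eq_one, one_pow, pow_one, mul_one]
  have hkq : k.Coprime q := by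
    rw [Nat.coprime_comm, Nat.Prime.coprime_iff_not_dvd hq]
    rintro ⟨c, rfl⟩
    rw [pow_mul, hζ.pow_eq_one, one_pow, one_pow] at hk
    exact hζ.ne_one hq.one_lt hk.symm
  have hζℓ : IsPrimitiveRoot (ζ ^ ℓ) q := hζ.pow_of_coprime _ hcop
  have hζk : IsPrimitiveRoot (ζ ^ k) q := hζ.pow_of_coprime _ hkq
  obtain ⟨σ, hσ, hσ'⟩ := exists_inertia_zeta hq hA h1 (h1.pow_of_coprime _ hcop)
  obtain ⟨τ, hτ, hτ'⟩ := exists_inertia_zeta hq hA h1 (h1.pow_of_coprime _ hkq)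
  have hσu : Units.map ((σ : Qb →+* Qb) : Qb →* Qb) ζ = ζ ^ ℓ :=
    Units.ext (by rw [Units.val_pow_eq_pow_val]; exact hσ')
  have hτu : Units.map ((τ : Qb →+* Qb) : Qb →* Qb) ζ = ζ ^ k :=
    Units.ext (by rw [Units.val_pow_eq_pow_val]; exact hτ')
  have hM : m * q * q * ℓ = (m * ℓ) * q * q := by ring
  have hmℓ : ¬ q ∣ m * ℓ := by
    intro h
    rcases hq.dvd_mul.mp h with h2 | h2
    · exact hm h2
    · exact hqℓ ((Nat.prime_dvd_prime_iff_eq hq hℓ).mp h2)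
  obtain ⟨e₃, he₃⟩ := exists_embG K hM hq hmℓ hζ
  obtain ⟨e₄, he₄⟩ := exists_embG K hM hq hmℓ hζk
  have hE₁ := he₁.coeffMap hK hσ
  rw [hσu] at hE₁
  have hE₂ := he₁.coeffMap hK hτ
  rw [hτu] at hE₂
  exact ⟨σ, hσ, τ, hτ, fun f => e1_TC_aux hq hqℓ hℓ hℓN hk (embG_iff.2 he₁) (embG_iff.2 hE₁)
    (embG_iff.2 hE₂) he₃ he₄ f⟩

include hq hm hA hK hℓ hℓN hζ he₁ in
theorem hasOrd_e1_TC {ϖ : Qb} (hϖ : ϖ ≠ 0) {f : modularFunctionFieldFullC K (m * q * q)} {n : ℤ}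
    (hf : HasOrd A ϖ (e₁ f) n) :
    HasOrd A ϖ (e₁ (TC K (m * q * q) ℓ f)) ((ℓ + 1) * n) := by
  obtain ⟨σ, hσ, τ, hτ, h⟩ := exists_e1_TC hq hm hA hK hℓ hℓN hζ he₁
  rw [h f]
  have h1 := HasOrd.qExpand ℓ
    (HasOrd.coeffMap (TwoGauss.residueCompat_of_inertia hσ) (MultRed.val_inertia_eq hσ) hf)
  have h2 := HasOrd.secNorm ℓ
    (HasOrd.coeffMap (TwoGauss.residueCompat_of_inertia hτ) (MultRed.val_inertia_eq hτ) hf)
  have h3 : ((ℓ : ℤ) + 1) * n = n + ℓ * n := by ring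
  rw [h3]
  exact h1.mul hϖ h2

include hq hm hA hK hℓ hℓN hζ he₁ in
theorem e1_TC_mem {f : modularFunctionFieldFullC K (m * q * q)} (hf : e₁ f ∈ gaussSubring A) :
    ∃ h : e₁ (TC K (m * q * q) ℓ f) ∈ gaussSubring A,
      gaussRed A ⟨_, h⟩ = TSer (IsLocalRing.ResidueField A) ℓ (gaussRed A ⟨_, hf⟩) := by
  obtain ⟨σ, hσ, τ, hτ, h⟩ := exists_e1_TC hq hm hA hK hℓ hℓN hζ he₁
  have h1 := (TwoGauss.residueCompat_of_inertia hσ).coeffMap_mem hf
  have h2 := (TwoGauss.residueCompat_of_inertia hτ).coeffMap_mem hf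
  have h3 := TEll.qExpand_mem_gaussSubring A ℓ h1
  have h4 := QX4.secNorm_mem_gaussSubring A ℓ h2
  have h5 : e₁ (TC K (m * q * q) ℓ f) ∈ gaussSubring A := by
    rw [h f]; exact mul_mem h3 h4
  refine ⟨h5, ?_⟩
  have h6 : (⟨_, h5⟩ : gaussSubring A) = ⟨_, h3⟩ * ⟨_, h4⟩ := Subtype.ext (h f)
  rw [h6, map_mul]
  have h7 := TEll.gaussRed_qExpand A ℓ ⟨_, h1⟩
  have h8 := QX4.gaussRed_secNorm A ℓ ⟨_, h2⟩
  rw [(TwoGauss.residueCompat_of_inertia hσ).gaussRed_coeffMap ⟨_, hf⟩ h1, coeffMap_id] at h7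
  rw [(TwoGauss.residueCompat_of_inertia hτ).gaussRed_coeffMap ⟨_, hf⟩ h2, coeffMap_id] at h8
  rw [TSer_apply, ← h7, ← h8]

variable {w : modularFunctionFieldFullC K (m * q * q) ≃ₐ[K] modularFunctionFieldFullC K (m * q * q)}
  (hw : IsSwap K (m * q * q) (q * q) m w)

include hq hm hℓ hℓN hw in
/-- `T_ℓ` commutes with `w_{q²}`. -/
theorem TC_w (f : modularFunctionFieldFullC K (m * q * q)) :
    TC K (m * q * q) ℓ (w f) = w (TC K (m * q * q) ℓ f) := by
  have hqℓ : q ≠ ℓ := by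
    rintro rfl
    exact hℓN (dvd_mul_left _ _)
  have h1 : q.Coprime ℓ := (Nat.coprime_primes hq hℓ).mpr hqℓ
  have h2 : q.Coprime m := (Nat.Prime.coprime_iff_not_dvd hq).mpr hm
  exact TC_swapQ (mul_assoc _ _ _) (Nat.mul_ne_zero hq.ne_zero hq.ne_zero)
    (Nat.Coprime.mul_left h2 h2) (Nat.Coprime.mul_left h1 h1) hw f

include hq hm hℓ hℓN hw in
theorem hasOrd_e2_TC {ϖ : Qb} (hϖ : ϖ ≠ 0) {f : modularFunctionFieldFullC K (m * q * q)} {n : ℤ}
    (hf : HasOrd A ϖ (e0 K (m * q * q) (w f)) n) :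
    HasOrd A ϖ (e0 K (m * q * q) (w (TC K (m * q * q) ℓ f))) ((ℓ + 1) * n) := by
  rw [← TC_w hq hm hℓ hℓN hw]
  exact hasOrd_e0_TC hℓ hℓN hϖ hf

include hq hm hℓ hℓN hw in
theorem e2_TC_mem {f : modularFunctionFieldFullC K (m * q * q)}
    (hf : e0 K (m * q * q) (w f) ∈ gaussSubring A) :
    ∃ h : e0 K (m * q * q) (w (TC K (m * q * q) ℓ f)) ∈ gaussSubring A,
      gaussRed A ⟨_, h⟩ = TSer (IsLocalRing.ResidueField A) ℓ (gaussRed A ⟨_, hf⟩) := by
  obtain ⟨h, h'⟩ := e0_TC_mem hℓ hℓN hf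
  have h1 : e0 K (m * q * q) (w (TC K (m * q * q) ℓ f)) ∈ gaussSubring A := by
    rw [← TC_w hq hm hℓ hℓN hw]; exact h
  refine ⟨h1, ?_⟩
  rw [← h']
  congr 1
  exact Subtype.ext (congrArg (e0 K (m * q * q)) (TC_w hq hm hℓ hℓN hw f).symm)

end Final

end Fermat.Agent.TriLow
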