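import Fermat.Agent.TriLow.RelC
import Fermat.Agent.RibetE.Surj

/-!
# The relation of `RelC` with torsion divisors

Every function `g` in characteristic `q` with divisor divisible by `n`, `n` prime to `q`, is
related to a divisor `E` over `ℚ̄` such that `n E` is principal.
-/

set_option autoImplicit false

open AlgebraicCurve WithZero Module Polynomial ModularCurve HahnSeries
open scoped IntermediateField
open Fermat.Agent.RR Fermat.Agent.FF Fermat.Agent.Deuring Fermat.Agent.S37aux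
  Fermat.Agent.GaussVal

noncomputable section

namespace Fermat.Agent.TriLow

section Abs

attribute [local instance] nonempty_place finiteResidue

variable {K F k F' : Type*} [Field K] [Field F] [Algebra K F] [Field k] [Field F'] [Algebra k F']
  [IsFF K F] [IsFF k F'] [IsAlgClosed K] [IsAlgClosed k] {G : GaussData K F k F'}

/-- Torsion version of `RelG.exists_of_dvd`. -/
theorem RelG.exists_tors {R : RedMap G} {n : ℕ} (hg : genusFF K F ≤ genusFF k F')
    (hnK : (n : K) ≠ 0) (hnk : (n : k) ≠ 0) {g : F'} (hg0 : g ≠ 0)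
    (h : ∀ v : Place k F', (n : ℤ) ∣ v.ord g) :
    ∃ E : Divisor K F, Divisor.degree E = 0 ∧ RelG R n E g ∧
      Divisor.IsPrincipal ((n : ℤ) • E) := by
  obtain ⟨E, g₀, hg₀, y, hy0, hρ, hE, hgy⟩ :=
    RibetE.exists_kummer_lift G hg hnK hnk hg0 h
  have hn0 : n ≠ 0 := by rintro rfl; exact hnk Nat.cast_zero
  have hnZ : (n : ℤ) ≠ 0 := by exact_mod_cast hn0
  have hg₀0 : g₀ ≠ 0 := by
    rintro rfl
    exact hρ (map_zero G.ρ)
  have hE' : (n : ℤ) • (E : Divisor K F) = div g₀ := by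
    ext v
    rw [Finsupp.smul_apply, div_apply, hE v, smul_eq_mul]
  refine ⟨E, Divisor.mem_degZero.mp E.2, ⟨hg0, y, hy0, ?_⟩, ⟨g₀, hg₀0, fun v => ?_⟩⟩
  · have h1 : R.r ((n : ℤ) • (E : Divisor K F)) = div (G.ρ ⟨g₀, hg₀⟩) := by
      rw [hE', R.r_div g₀ hg₀ hρ]
    rw [map_zsmul] at h1
    rw [smul_add, h1, hgy, RR.div_mul hρ (pow_ne_zero n hy0), Deuring.div_pow, natCast_zsmul]
  · rw [Finsupp.smul_apply, hE v, smul_eq_mul]

end Abs

/-- A Hecke compatible relation with torsion lifts. -/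
structure HRelT (A : ValuationSubring (AlgebraicClosure ℚ)) (N n : ℕ) [NeZero N] extends
    HRel A N n where
  exists_tors : ∀ {g : FC A N}, g ≠ 0 → (∀ v : Place (RF A) (FC A N), (n : ℤ) ∣ v.ord g) →
    ∃ E, Divisor.degree E = 0 ∧ Rel E g ∧ Divisor.IsPrincipal ((n : ℤ) • E)

/-- **Existence of the relation**, torsion version. -/
theorem exists_hrelT {A : ValuationSubring (AlgebraicClosure ℚ)} {q : ℕ} (hq : q.Prime)
    (hA : A.LiesOverPrime q) {N : ℕ} [NeZero N] (hN : ¬ q ∣ N) {n : ℕ} (hn : n ≠ 0)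
    (hqn : ¬ q ∣ n) : Nonempty (HRelT A N n) := by
  classical
  have h := degC A N (cast_ne_zero hq hA hN)
  have := h.isFF
  have hg : genusFF (AlgebraicClosure ℚ) (modularFunctionFieldBar N) ≤ genusFF (RF A) (FC A N) :=
    GoodRed.genus_le_all hq hA N hN
  obtain ⟨R, -⟩ := (gauss hq hA N h).exists_redMap_of_le hg
  refine ⟨{
    Rel := RelG R n
    ne_zero := fun h => h.1
    one := RelG.one
    mul := fun h₁ h₂ => h₁.mul h₂
    inv := fun h => h.inv
    exists_of_dvd := fun h0 h => RelG.exists_of_dvd hg hn h0 h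
    exists_pow := fun h hE => h.exists_pow hE
    hecke := fun {ℓ} _ hℓ hℓN E g hEg g' hg' => ?_
    exists_tors := fun h0 h => RelG.exists_tors hg (by exact_mod_cast hn)
      (cast_ne_zero hq hA hqn) h0 h }⟩
  let τb : FC A N → FC A N := fun g =>
    if h : TEll.TSer (RF A) ℓ (g : LaurentSeries (RF A)) ∈ FC A N then ⟨_, h⟩ else 0
  have hτb : ∀ (g g' : FC A N), (g' : LaurentSeries (RF A)) =
      TEll.TSer (RF A) ℓ (g : LaurentSeries (RF A)) → τb g = g' := by
    intro g g' hg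
    have hmem : TEll.TSer (RF A) ℓ (g : LaurentSeries (RF A)) ∈ FC A N := by
      rw [← hg]; exact g'.2
    change (if h : TEll.TSer (RF A) ℓ (g : LaurentSeries (RF A)) ∈ FC A N then
      (⟨_, h⟩ : FC A N) else 0) = g'
    rw [dif_pos hmem]
    exact Subtype.ext hg.symm
  rw [← hτb g g' hg']
  refine RelG.hecke (TEll.heckeDiv N ℓ)
    (finrankAlong (AlgebraicClosure ℚ) (heckeBetaBar (AlgebraicClosure ℚ) N ℓ))
    (fun v => TEll.heckeDiv_nonneg (single_nonneg v)) (fun v => ?_)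
    (TEll.TEll (AlgebraicClosure ℚ) N ℓ) (fun f hf => TEll.heckeDiv_div hf) τb
    (fun f hf h0 => ?_) hEg
  · rw [TEll.degree_heckeDiv, degree_single_one, mul_one]
  · have hf1 : (f : LaurentSeries (AlgebraicClosure ℚ)) ∈ gaussSubring A := mem_gauss_O.1 hf
    have e1 := TEll.coe_TEll_bar N ℓ hℓ hℓN f
    have h1 : (TEll.TEll (AlgebraicClosure ℚ) N ℓ f : LaurentSeries (AlgebraicClosure ℚ)) ∈
        gaussSubring A := by
      rw [e1]
      exact TEll.TSer_mem_gaussSubring A ℓ hf1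
    have h2 : ((gauss hq hA N h).ρ ⟨_, mem_gauss_O.2 h1⟩ : LaurentSeries (RF A)) =
        TEll.TSer (RF A) ℓ ((gauss hq hA N h).ρ ⟨f, hf⟩ : LaurentSeries (RF A)) := by
      rw [coe_gauss_ρ, coe_gauss_ρ]
      have h3 : gaussRed A ⟨(TEll.TEll (AlgebraicClosure ℚ) N ℓ f :
          LaurentSeries (AlgebraicClosure ℚ)), h1⟩ =
          gaussRed A ⟨TEll.TSer (AlgebraicClosure ℚ) ℓ f, TEll.TSer_mem_gaussSubring A ℓ hf1⟩ :=
        congrArg (gaussRed A) (Subtype.ext e1)
      exact h3.trans (TEll.gaussRed_TSer A ℓ ⟨_, hf1⟩)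
    have h3 := hτb _ _ h2
    refine ⟨mem_gauss_O.2 h1, h3.symm, ?_⟩
    rw [h3]
    intro h4
    have h5 : ((gauss hq hA N h).ρ ⟨f, hf⟩ : LaurentSeries (RF A)) ≠ 0 := by
      intro h6
      exact h0 (Subtype.ext h6)
    apply TEll.TSer_ne_zero ℓ h5
    rw [← h2, h4]
    rfl

end Fermat.Agent.TriLow
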