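import Fermat.Agent.TriLow.Rep
import Fermat.Agent.TriLow.TorsSurj
import Fermat.Agent.TriLow.Wiring
import Fermat.Agent.TriLow.HeckeOrd
import Fermat.Agent.S36.SetupDef
import Fermat.Agent.S36.NormsGlue

/-!
# The Hecke step

`x` a class with a `K`-rational representative `φ` whose three reductions have divisor divisible
by `n`; if `t` kills the `n`-torsion of `J₀(m)` then `t x` has a representative all of whose
reductions are `1`.
-/

set_option autoImplicit false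
set_option linter.unusedSectionVars false
set_option linter.style.haveILetI false

noncomputable section

open AlgebraicCurve ModularCurve HahnSeries Fermat.Agent.TEll Fermat.Agent.TriGauss
  Fermat.Agent.LocE Fermat.Agent.GaussVal Fermat.Agent.TwoGauss
  Fermat.Agent.TriComp Fermat.Agent.S36norm Fermat.Agent.GalRep Fermat.Agent.S36mile
  Fermat.Agent.S37aux
open Fermat.Agent.TriVal hiding e0 e0_apply e0_algebraMap e0_jd e1 e2

namespace Fermat.Agent.TriLow

section Rep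

variable {K : Type*} [Field K] [Algebra K Qb] {N : ℕ} [NeZero N]

variable {n : ℕ} {x : JZero N} {φ : modularFunctionFieldFullC K N}

/-- Changing by an `n`-th power. -/
theorem Rep.mul_npow (h₁ : Rep K N n x φ) {g : modularFunctionFieldFullC K N} (hg : g ≠ 0) :
    Rep K N n x (φ * g ^ n) := by
  have h := h₁.mul (rep_pow (K := K) (N := N) (n := n) hg)
  rwa [add_zero] at h

/-- The Hecke operator `T_ℓ`. -/
theorem Rep.hecke (h₁ : Rep K N n x φ) (ℓ : Nat.Primes) [NeZero (ℓ : ℕ)]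
    [NeZero (N * (ℓ : ℕ))] :
    Rep K N n (heckeOperatorBar N ℓ x) (TriLow.TC K N (ℓ : ℕ) φ) := by
  obtain ⟨h0, D₁, rfl, h1⟩ := h₁
  obtain ⟨D', hD', hD''⟩ := heckeOperatorBar_mk ℓ D₁
  refine ⟨TC_ne_zero K N _ h0, D', hD'', fun v => ?_⟩
  rw [bcb_TC, hD']
  have h2 := heckeDiv_div (N := N) (ℓ := (ℓ : ℕ)) ((_root_.map_ne_zero (bcb K N)).2 h0)
  have h3 : (RR.div (K := Qb) (bcb K N φ)) = (n : ℤ) • (D₁ : Divisor Qb (modularFunctionFieldBar N)) := by
    ext v
    rw [RR.div_apply, h1, Finsupp.smul_apply, smul_eq_mul]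
  rw [h3, map_zsmul] at h2
  have h4 := DFunLike.congr_fun h2 v
  rw [Finsupp.smul_apply, smul_eq_mul, RR.div_apply] at h4
  exact h4.symm

end Rep

/-! ### The Hecke action -/

section Act

variable (N : ℕ) [NeZero N] (S : Set ℕ)

theorem actS_X (ℓ : {ℓ : Nat.Primes // (ℓ : ℕ) ∉ S}) (x : JZero N) :
    actS N S (MvPolynomial.X ℓ) x = heckeOperatorBar N ℓ.1 x := by
  letI := heckeModuleBar N
  change inclS S (MvPolynomial.X ℓ) • x = _
  have h : inclS S (MvPolynomial.X ℓ) = heckeGen ℓ.1 := MvPolynomial.rename_X _ _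
  rw [h]
  exact heckeModuleBar_heckeGen_smul (HeckeComm.heckeOperatorsCommuteBar N) ℓ.1 x

theorem actS_C (a : ℤ) (x : JZero N) : actS N S (MvPolynomial.C a) x = a • x := by
  letI := heckeModuleBar N
  change inclS S (MvPolynomial.C a) • x = _
  have h : inclS S (MvPolynomial.C a) = MvPolynomial.C a := MvPolynomial.rename_C _ _
  rw [h]
  exact heckeModuleBar_C_smul a x

theorem actS_add (s t : HeckeAlgS S) (x : JZero N) :
    actS N S (s + t) x = actS N S s x + actS N S t x := by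
  letI := heckeModuleBar N
  change inclS S (s + t) • x = inclS S s • x + inclS S t • x
  rw [map_add, add_smul]

end Act

section Step

variable {A : ValuationSubring Qb} {K : Type*} [Field K] [Algebra K Qb] {m q : ℕ}
    [NeZero m] [NeZero q] [NeZero (m * q)] [NeZero (m * q * q)] {ζ : Qbˣ}
    {e₁ : modularFunctionFieldFullC K (m * q * q) →+* LaurentSeries Qb}
    {w : modularFunctionFieldFullC K (m * q * q) ≃ₐ[K] modularFunctionFieldFullC K (m * q * q)}
    {w' : modularFunctionFieldFullC K (m * q) ≃ₐ[K] modularFunctionFieldFullC K (m * q)}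
    [CharZero K] {Er : Type*} [CommRing Er] [Algebra (IsLocalRing.ResidueField A) Er]
    {D : Data K (modularFunctionFieldFullC K (m * q * q)) (IsLocalRing.ResidueField A) Er
      (modularFunctionFieldFullC (IsLocalRing.ResidueField A) m) q}
    [Fact q.Prime] [CharP (IsLocalRing.ResidueField A) q]

/-- The joint relation between a class of level `q² m` and three classes of level `m`. -/
def JRel (D : Data K (modularFunctionFieldFullC K (m * q * q)) (IsLocalRing.ResidueField A) Er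
      (modularFunctionFieldFullC (IsLocalRing.ResidueField A) m) q) {n : ℕ} (R : HRelT A m n)
    (x : JZero (m * q * q)) (y : Fin 3 → JZero m) (φ : modularFunctionFieldFullC K (m * q * q)) :
    Prop :=
  Rep K (m * q * q) n x φ ∧ ∀ i, (D.v i).ord φ = 0 ∧
    ∃ E : Divisor.degZero (K := Qb) (F := modularFunctionFieldBar m), y i = Pic0.mk E ∧
      R.Rel (E : Divisor Qb (modularFunctionFieldBar m)) ((D.v i).red φ)

variable {n : ℕ} {R : HRelT A m n} {x x' : JZero (m * q * q)} {y y' : Fin 3 → JZero m}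
  {φ φ' : modularFunctionFieldFullC K (m * q * q)}

theorem JRel.one : JRel D R 0 0 1 := by
  refine ⟨rep_one, fun i => ⟨(D.v i).ord_one, 0, rfl, ?_⟩⟩
  rw [(D.v i).red_one]
  exact R.one

theorem JRel.mul (h : JRel D R x y φ) (h' : JRel D R x' y' φ') :
    JRel D R (x + x') (y + y') (φ * φ') := by
  obtain ⟨h0, h1⟩ := h
  obtain ⟨h0', h1'⟩ := h'
  refine ⟨h0.mul h0', fun i => ?_⟩
  obtain ⟨o, E, hE, hR⟩ := h1 i
  obtain ⟨o', E', hE', hR'⟩ := h1' i
  refine ⟨?_, E + E', ?_, ?_⟩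
  · rw [(D.v i).ord_mul _ _ h0.1 h0'.1, o, o', add_zero]
  · rw [Pi.add_apply, hE, hE']; rfl
  · rw [(D.v i).red_mul ((D.v i).mem_of_ord_eq_zero h0.1 o)
      ((D.v i).mem_of_ord_eq_zero h0'.1 o')]
    exact R.mul hR hR'

theorem JRel.inv (h : JRel D R x y φ) : JRel D R (-x) (-y) φ⁻¹ := by
  obtain ⟨h0, h1⟩ := h
  refine ⟨h0.inv, fun i => ?_⟩
  obtain ⟨o, E, hE, hR⟩ := h1 i
  refine ⟨?_, -E, ?_, ?_⟩
  · rw [(D.v i).ord_inv h0.1, o, neg_zero]
  · rw [Pi.neg_apply, hE]; rfl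
  · rw [(D.v i).red_inv h0.1 o]
    exact R.inv hR

theorem JRel.pow (h : JRel D R x y φ) (a : ℕ) : JRel D R (a • x) (a • y) (φ ^ a) := by
  induction a with
  | zero =>
    rw [zero_nsmul, zero_nsmul, _root_.pow_zero]
    exact JRel.one
  | succ a ih =>
    rw [succ_nsmul, succ_nsmul, _root_.pow_succ]
    exact ih.mul h

theorem JRel.zpow (h : JRel D R x y φ) (a : ℤ) : ∃ ψ, JRel D R (a • x) (a • y) ψ := by
  obtain ⟨a, rfl | rfl⟩ := a.eq_nat_or_neg
  · exact ⟨_, by rw [natCast_zsmul, natCast_zsmul]; exact h.pow a⟩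
  · refine ⟨(φ ^ a)⁻¹, ?_⟩
    rw [neg_smul, neg_smul, natCast_zsmul, natCast_zsmul]
    exact (h.pow a).inv

variable (I : LevelInput A K m q ζ e₁ w w') (T : TriInput A K m q ζ e₁ w D)

include I T in
/-- The three reductions of `T_ℓ φ`. -/
theorem red_TC (ℓ : ℕ) [NeZero ℓ] [NeZero (m * q * q * ℓ)] (hℓ : ℓ.Prime)
    (hℓN : ¬ ℓ ∣ m * q * q) (hφ : φ ≠ 0) (i : Fin 3) (ho : (D.v i).ord φ = 0) :
    (D.v i).ord (TC K (m * q * q) ℓ φ) = 0 ∧
      (((D.v i).red (TC K (m * q * q) ℓ φ) :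
        modularFunctionFieldFullC (IsLocalRing.ResidueField A) m) :
          LaurentSeries (IsLocalRing.ResidueField A)) =
        TSer (IsLocalRing.ResidueField A) ℓ (((D.v i).red φ :
          modularFunctionFieldFullC (IsLocalRing.ResidueField A) m) :
            LaurentSeries (IsLocalRing.ResidueField A)) := by
  have hne := TC_ne_zero K (m * q * q) ℓ hφ
  have hζ1 : IsPrimitiveRoot (ζ : Qb) q := IsPrimitiveRoot.coe_units_iff.mpr I.hζ
  have hmem := (D.v i).mem_of_ord_eq_zero hφ ho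
  have hq0 : (q : Qb) ≠ 0 := I.hK.unif.ne_zero
  fin_cases i
  · have h0 := T.h0.hasOrd φ hφ
    change (D.v 0).ord φ = 0 at ho
    rw [ho] at h0
    have h1 := hasOrd_e0_TC hℓ hℓN hq0 h0
    rw [mul_zero] at h1
    obtain ⟨h2, h3⟩ := e0_TC_mem hℓ hℓN ((T.h0.mem_iff φ).1 hmem)
    refine ⟨T.h0.ord_eq I.hK.unif hne h1, ?_⟩
    exact (T.h0.red _ h2).trans (h3.trans (congrArg (TSer (IsLocalRing.ResidueField A) ℓ)
      (T.h0.red φ ((T.h0.mem_iff φ).1 hmem)).symm))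
  · have h0 := T.h1.hasOrd φ hφ
    change (D.v 1).ord φ = 0 at ho
    rw [ho] at h0
    have hz0 : ((ζ : Qb) - 1) ≠ 0 := (isUnif_K1 I.hq I.hA hζ1).ne_zero
    have h1 := hasOrd_e1_TC I.hq I.hm I.hA I.hK hℓ hℓN I.hζ I.he₁ hz0 h0
    rw [mul_zero] at h1
    obtain ⟨h2, h3⟩ := e1_TC_mem I.hq I.hm I.hA I.hK hℓ hℓN I.hζ I.he₁ ((T.h1.mem_iff φ).1 hmem)
    refine ⟨T.h1.ord_eq (isUnif_K1 I.hq I.hA hζ1) hne h1, ?_⟩
    exact (T.h1.red _ h2).trans (h3.trans (congrArg (TSer (IsLocalRing.ResidueField A) ℓ)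
      (T.h1.red φ ((T.h1.mem_iff φ).1 hmem)).symm))
  · have h0 := T.h2.hasOrd φ hφ
    change (D.v 2).ord φ = 0 at ho
    rw [ho] at h0
    have h1 := hasOrd_e2_TC I.hq I.hm hℓ hℓN I.hw hq0 h0
    rw [mul_zero] at h1
    obtain ⟨h2, h3⟩ := e2_TC_mem I.hq I.hm hℓ hℓN I.hw ((T.h2.mem_iff φ).1 hmem)
    refine ⟨T.h2.ord_eq I.hK.unif hne h1, ?_⟩
    exact (T.h2.red _ h2).trans (h3.trans (congrArg (TSer (IsLocalRing.ResidueField A) ℓ)
      (T.h2.red φ ((T.h2.mem_iff φ).1 hmem)).symm))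

include I T in
theorem JRel.hecke (ℓ : Nat.Primes) (hℓN : ¬ (ℓ : ℕ) ∣ m * q * q) (h : JRel D R x y φ) :
    ∃ ψ, JRel D R (heckeOperatorBar (m * q * q) ℓ x) (fun i => heckeOperatorBar m ℓ (y i)) ψ := by
  haveI : NeZero (ℓ : ℕ) := ⟨ℓ.2.ne_zero⟩
  haveI : NeZero (m * q * q * (ℓ : ℕ)) := ⟨mul_ne_zero (NeZero.ne _) (NeZero.ne _)⟩
  obtain ⟨h0, h1⟩ := h
  refine ⟨TC K (m * q * q) ℓ φ, h0.hecke ℓ, fun i => ?_⟩
  obtain ⟨o, E, hE, hR⟩ := h1 i
  obtain ⟨o', hr⟩ := red_TC I T (ℓ : ℕ) ℓ.2 hℓN h0.1 i o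
  obtain ⟨E', hE', hE''⟩ := heckeOperatorBar_mk ℓ E
  refine ⟨o', E', ?_, ?_⟩
  · change heckeOperatorBar m ℓ (y i) = _
    rw [hE]; exact hE''
  · rw [hE']
    exact R.hecke ℓ.2 (fun hd => hℓN ((hd.mul_right q).mul_right q)) hR _ hr

include I T in
/-- Stability of the relation under the Hecke algebra. -/
theorem JRel.act {S : Set ℕ} (hS : ∀ r : ℕ, r.Prime → r ∣ m * q → r ∈ S) (t : HeckeAlgS S) :
    ∀ {x : JZero (m * q * q)} {y : Fin 3 → JZero m}
      {φ : modularFunctionFieldFullC K (m * q * q)}, JRel D R x y φ →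
        ∃ ψ, JRel D R (actS (m * q * q) S t x) (fun i => actS m S t (y i)) ψ := by
  induction t using MvPolynomial.induction_on with
  | C a =>
    intro x y φ h
    obtain ⟨ψ, hψ⟩ := h.zpow a
    refine ⟨ψ, ?_⟩
    have e : (fun i => actS m S (MvPolynomial.C a) (y i)) = a • y := by
      funext i
      rw [actS_C]; rfl
    rw [e, actS_C]
    exact hψ
  | add s t hs ht =>
    intro x y φ h
    obtain ⟨ψ, hψ⟩ := hs h
    obtain ⟨ψ', hψ'⟩ := ht h
    refine ⟨ψ * ψ', ?_⟩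
    have e : (fun i => actS m S (s + t) (y i)) =
        (fun i => actS m S s (y i)) + (fun i => actS m S t (y i)) := by
      funext i
      rw [actS_add]; rfl
    rw [e, actS_add]
    exact hψ.mul hψ'
  | mul_X t ℓ ht =>
    intro x y φ h
    have hℓN : ¬ (ℓ.1 : ℕ) ∣ m * q * q := by
      intro hd
      apply ℓ.2
      apply hS _ ℓ.1.2
      rcases ℓ.1.2.dvd_mul.1 hd with h1 | h1
      · exact h1
      · exact h1.mul_left m
    obtain ⟨ψ, hψ⟩ := h.hecke I T ℓ.1 hℓN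
    obtain ⟨ψ', hψ'⟩ := ht hψ
    refine ⟨ψ', ?_⟩
    have e : (fun i => actS m S (t * MvPolynomial.X ℓ) (y i)) =
        (fun i => actS m S t (heckeOperatorBar m ℓ.1 (y i))) := by
      funext i
      rw [actS_mul, actS_X]
    rw [e, actS_mul, actS_X]
    exact hψ'

include I T in
/-- **The Hecke step.** -/
theorem heckeStep (hn : (n : IsLocalRing.ResidueField A) ≠ 0) {S : Set ℕ}
    (hS : ∀ r : ℕ, r.Prime → r ∣ m * q → r ∈ S) (t : HeckeAlgS S)
    (ht : ∀ y : JZero m, n • y = 0 → actS m S t y = 0) (hx : Rep K (m * q * q) n x φ)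
    (hord : ∀ i, (D.v i).ord φ = 0)
    (hdvd : ∀ (i : Fin 3) (P : Place (IsLocalRing.ResidueField A)
      (modularFunctionFieldFullC (IsLocalRing.ResidueField A) m)),
        (n : ℤ) ∣ P.ord ((D.v i).red φ)) :
    ∃ ψ : modularFunctionFieldFullC K (m * q * q), 
      Rep K (m * q * q) n (actS (m * q * q) S t x) ψ ∧
      GlueData.RedOne (setup I T) ψ := by
  have hq := I.hq
  have hn0 : n ≠ 0 := by
    rintro rfl
    exact hn Nat.cast_zero
  have hqn : ¬ q ∣ n := by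
    rintro ⟨c, rfl⟩
    apply hn
    rw [Nat.cast_mul, CharP.cast_eq_zero, zero_mul]
  have : IsAlgClosed (IsLocalRing.ResidueField A) := inferInstance
  obtain ⟨R⟩ := exists_hrelT (A := A) I.hq I.hA (N := m) I.hm hn0 hqn
  have hred : ∀ i, (D.v i).red φ ≠ 0 := fun i =>
    ((D.v i).red_ne_zero_iff hx.1 ((D.v i).mem_of_ord_eq_zero hx.1 (hord i))).2 (hord i)
  choose E hE0 hE hEp using fun i => R.exists_tors (hred i) (hdvd i)
  have hJ : JRel D R x (fun i => Pic0.mk ⟨E i, Divisor.mem_degZero.mpr (hE0 i)⟩) φ :=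
    ⟨hx, fun i => ⟨hord i, _, rfl, hE i⟩⟩
  obtain ⟨ψ, hψ0, hψ⟩ := hJ.act I T hS t
  -- the classes vanish
  have key : ∀ i, ∃ z : modularFunctionFieldFullC (IsLocalRing.ResidueField A) m, z ≠ 0 ∧
      (D.v i).red ψ = z ^ n := by
    intro i
    obtain ⟨-, E', hE', hR'⟩ := hψ i
    have h1 : n • (Pic0.mk ⟨E i, Divisor.mem_degZero.mpr (hE0 i)⟩ : JZero m) = 0 := by
      change Pic0.mk (n • (⟨E i, Divisor.mem_degZero.mpr (hE0 i)⟩ :
        Divisor.degZero (K := Qb) (F := modularFunctionFieldBar m))) = 0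
      rw [RibetE.mk_eq_zero_iff']
      have h2 : ((n • (⟨E i, Divisor.mem_degZero.mpr (hE0 i)⟩ :
        Divisor.degZero (K := Qb) (F := modularFunctionFieldBar m)) : Divisor.degZero
          (K := Qb) (F := modularFunctionFieldBar m)) : Divisor Qb (modularFunctionFieldBar m)) =
          (n : ℤ) • E i := by
        rw [natCast_zsmul]; rfl
      rw [h2]
      exact hEp i
    have h2 := ht _ h1
    change actS m S t (Pic0.mk ⟨E i, _⟩) = _ at hE'
    rw [h2] at hE'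
    obtain ⟨c, z, hc, hz, he⟩ := R.exists_pow hR' ((RibetE.mk_eq_zero_iff' _).1 hE'.symm)
    obtain ⟨d, hd⟩ := IsAlgClosed.exists_pow_nat_eq c (Nat.pos_of_ne_zero hn0)
    have hd0 : d ≠ 0 := by
      rintro rfl
      rw [zero_pow hn0] at hd
      exact hc hd.symm
    refine ⟨algebraMap _ _ d * z, mul_ne_zero (by simpa using hd0) hz, ?_⟩
    rw [he, mul_pow, ← map_pow, hd]
  choose z hz0 hz using key
  obtain ⟨g, hg, ⟨g0, g1, g2⟩, s0, s1, s2⟩ := (setup I T).approx_red (z 0)⁻¹ (z 1)⁻¹ (z 2)⁻¹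
    (inv_ne_zero (hz0 0)) (inv_ne_zero (hz0 1)) (inv_ne_zero (hz0 2))
  refine ⟨ψ * g ^ n, hψ0.mul_npow hg, ?_⟩
  have hgn := pow_ne_zero n hg
  have main : ∀ (V : DV (modularFunctionFieldFullC K (m * q * q))
      (modularFunctionFieldFullC (IsLocalRing.ResidueField A) m)) (u), u ≠ 0 → V.ord ψ = 0 →
        V.red ψ = u ^ n → V.ord g = 0 → V.red g = u⁻¹ →
          V.ord (ψ * g ^ n) = 0 ∧ V.red (ψ * g ^ n) = 1 := by
    intro V u hu a1 a2 a3 a4
    have m1 := V.mem_of_ord_eq_zero hψ0.1 a1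
    have m2 := V.mem_of_ord_eq_zero hg a3
    refine ⟨?_, ?_⟩
    · rw [V.ord_mul _ _ hψ0.1 hgn, a1, V.ord_pow hg, a3, mul_zero, add_zero]
    · rw [V.red_mul m1 (pow_mem m2 n), V.red_pow m2, a2, a4, inv_pow,
        mul_inv_cancel₀ (pow_ne_zero n hu)]
  obtain ⟨b0, c0⟩ := main (D.v 0) _ (hz0 0) (hψ 0).1 (hz 0) g0 s0
  obtain ⟨b1, c1⟩ := main (D.v 1) _ (hz0 1) (hψ 1).1 (hz 1) g1 s1
  obtain ⟨b2, c2⟩ := main (D.v 2) _ (hz0 2) (hψ 2).1 (hz 2) g2 s2
  exact ⟨⟨b0, b1, b2⟩, c0, c1, c2⟩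

end Step

end Fermat.Agent.TriLow
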