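import Mathlib.RingTheory.Valuation.ValuationSubring
import Mathlib.FieldTheory.IsAlgClosed.Basic

/-!
# Reductions modulo a valuation ring, as a relation
-/

set_option autoImplicit false

namespace Fermat.Agent.TriLow

variable {F κ : Type*} [Field F] [Field κ]

/-- `f ∈ O` and `ρ f = b`. -/
def Rd (O : ValuationSubring F) (ρ : O →+* κ) (f : F) (b : κ) : Prop :=
  ∃ h : f ∈ O, ρ ⟨f, h⟩ = b

namespace Rd

variable {O : ValuationSubring F} {ρ : O →+* κ} {f g : F} {a b : κ}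

theorem mem (h : Rd O ρ f a) : f ∈ O := h.1

theorem of_mem (hf : f ∈ O) : Rd O ρ f (ρ ⟨f, hf⟩) := ⟨hf, rfl⟩

theorem unique (h : Rd O ρ f a) (h' : Rd O ρ f b) : a = b := by
  obtain ⟨h1, rfl⟩ := h
  obtain ⟨h2, rfl⟩ := h'
  rfl

theorem zero : Rd O ρ 0 0 := ⟨O.zero_mem, map_zero ρ⟩

theorem one : Rd O ρ 1 1 := ⟨O.one_mem, map_one ρ⟩

theorem add (h : Rd O ρ f a) (h' : Rd O ρ g b) : Rd O ρ (f + g) (a + b) := by
  obtain ⟨h1, rfl⟩ := h
  obtain ⟨h2, rfl⟩ := h'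
  exact ⟨O.add_mem _ _ h1 h2, (map_add ρ ⟨f, h1⟩ ⟨g, h2⟩)⟩

theorem mul (h : Rd O ρ f a) (h' : Rd O ρ g b) : Rd O ρ (f * g) (a * b) := by
  obtain ⟨h1, rfl⟩ := h
  obtain ⟨h2, rfl⟩ := h'
  exact ⟨O.mul_mem _ _ h1 h2, (map_mul ρ ⟨f, h1⟩ ⟨g, h2⟩)⟩

theorem pow (h : Rd O ρ f a) (n : ℕ) : Rd O ρ (f ^ n) (a ^ n) := by
  obtain ⟨h1, rfl⟩ := h
  exact ⟨pow_mem h1 n, map_pow ρ ⟨f, h1⟩ n⟩

theorem ne_zero (h : Rd O ρ f a) (ha : a ≠ 0) : f ≠ 0 := by
  rintro rfl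
  exact ha (h.unique zero)

variable (hρ : ∀ x : O, ρ x = 0 ↔ (x : F) ∈ O.nonunits)

include hρ

theorem inv (h : Rd O ρ f a) (ha : a ≠ 0) : Rd O ρ f⁻¹ a⁻¹ := by
  have hf0 := h.ne_zero ha
  obtain ⟨h1, rfl⟩ := h
  have h2 : f⁻¹ ∈ O := by
    have h3 := ha
    rw [ne_eq, hρ, ValuationSubring.mem_nonunits_iff, not_lt] at h3
    rw [← ValuationSubring.valuation_le_one_iff, map_inv₀]
    exact inv_le_one_of_one_le₀ h3
  refine ⟨h2, ?_⟩
  have h4 : ρ ⟨f⁻¹, h2⟩ * ρ ⟨f, h1⟩ = 1 := by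
    rw [← map_mul, ← map_one ρ]
    exact congrArg ρ (Subtype.ext (inv_mul_cancel₀ hf0))
  exact eq_inv_of_mul_eq_one_left h4

theorem div (h : Rd O ρ f a) (h' : Rd O ρ g b) (hb : b ≠ 0) : Rd O ρ (f / g) (a / b) := by
  rw [div_eq_mul_inv, div_eq_mul_inv]
  exact h.mul (h'.inv hρ hb)

theorem zpow (h : Rd O ρ f a) (ha : a ≠ 0) (n : ℤ) : Rd O ρ (f ^ n) (a ^ n) := by
  obtain ⟨m, rfl | rfl⟩ := n.eq_nat_or_neg
  · rw [zpow_natCast, zpow_natCast]; exact h.pow m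
  · rw [zpow_neg, zpow_neg, zpow_natCast, zpow_natCast]
    exact (h.pow m).inv hρ (pow_ne_zero _ ha)

omit hρ in
/-- an element whose power is in `O` -/
theorem of_pow {n : ℕ} (hn : 0 < n) (h : Rd O ρ (f ^ n) a) :
    ∃ b, Rd O ρ f b ∧ b ^ n = a := by
  have h1 : f ∈ O := by
    rw [← ValuationSubring.valuation_le_one_iff]
    have h2 := (ValuationSubring.valuation_le_one_iff _ _).mpr h.mem
    rw [map_pow] at h2
    exact (pow_le_one_iff_of_nonneg zero_le hn.ne').mp h2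
  refine ⟨ρ ⟨f, h1⟩, of_mem h1, ?_⟩
  exact ((of_mem h1 : Rd O ρ f _).pow n).unique h

/-- cancellation -/
theorem of_mul (h : Rd O ρ (f * g) a) (h' : Rd O ρ g b) (hb : b ≠ 0) : Rd O ρ f (a / b) := by
  have h1 := h.div hρ h' hb
  rwa [mul_div_cancel_right₀ _ (h'.ne_zero hb)] at h1

end Rd

/-- A root of unity in the residue class field of a function field is constant. -/
theorem exists_const_of_pow_eq_one {k κ : Type*} [Field k] [IsAlgClosed k] [Field κ] [Algebra k κ]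
    {n : ℕ} (hn : n ≠ 0) {x : κ} (h : x ^ n = 1) : ∃ d : k, algebraMap k κ d = x ∧ d ^ n = 1 := by
  have h1 : IsIntegral k x := by
    refine ⟨Polynomial.X ^ n - Polynomial.C 1, Polynomial.monic_X_pow_sub_C _ hn, ?_⟩
    simp [h]
  have h3 : Algebra.IsIntegral k (Algebra.adjoin k {x}) :=
    Algebra.IsIntegral.adjoin (by simpa using h1)
  have h2 := IsAlgClosed.algebraMap_bijective_of_isIntegral (k := k) (K := Algebra.adjoin k {x})
  obtain ⟨d, hd⟩ := h2.2 ⟨x, Algebra.self_mem_adjoin_singleton k x⟩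
  have hdx : algebraMap k κ d = x := congrArg Subtype.val hd
  refine ⟨d, hdx, (algebraMap k κ).injective ?_⟩
  rw [map_pow, hdx, h, map_one]

/-- A root of unity which reduces to one is one. -/
theorem eq_one_of_res_eq_one {K k : Type*} [Field K] [Field k] {A : ValuationSubring K}
    (res : A →+* k) {n : ℕ} (hn : (n : k) ≠ 0) {x : K} (hx : x ∈ A) (hxn : x ^ n = 1)
    (hr : res ⟨x, hx⟩ = 1) : x = 1 := by
  have h1 : (x - 1) * (∑ i ∈ Finset.range n, x ^ i) = 0 := by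
    rw [mul_comm, geom_sum_mul, hxn, sub_self]
  rcases mul_eq_zero.mp h1 with h | h
  · exact sub_eq_zero.mp h
  · exfalso
    apply hn
    have h2 : (∑ i ∈ Finset.range n, (⟨x, hx⟩ : A) ^ i) = 0 := by
      apply Subtype.ext
      rw [AddSubmonoidClass.coe_finsetSum]
      exact h
    have h3 := congrArg res h2
    rw [map_sum, map_zero] at h3
    simp only [map_pow, hr, one_pow, Finset.sum_const, Finset.card_range, nsmul_eq_mul,
      mul_one] at h3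
    exact h3

end Fermat.Agent.TriLow
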