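import Fermat.Agent.Deuring.Bounded
import Fermat.Agent.RedInj.OfGauss

/-!
# Reduction of divisors and correspondences

A positive bounded homomorphism on divisors which only depends on the reduction of functions kills
the divisors with trivial reduction.  Consequence: the relation
`div g = n (r E + div h)` between divisors `E` in characteristic zero and functions `g` on the
reduction is stable under the Hecke operators.
-/

set_option autoImplicit false

open AlgebraicCurve WithZero Module Polynomial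
open scoped IntermediateField
open Fermat.Agent.RR Fermat.Agent.FF Fermat.Agent.Deuring

namespace Fermat.Agent.TriLow

attribute [local instance] nonempty_place finiteResidue

variable {K F k F' : Type*} [Field K] [Field F] [Algebra K F] [Field k] [Field F'] [Algebra k F']
  [IsFF K F] [IsFF k F'] [IsAlgClosed K] [IsAlgClosed k] {G : GaussData K F k F'}

omit [IsAlgClosed k] in
/-- **Bounded homomorphisms and reduction.** -/
theorem eq_zero_of_red (R : RedMap G) (δ : Divisor K F →+ ℤ) (C : ℤ)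
    (hbd : ∀ v : Place K F, |δ (Finsupp.single v 1)| ≤ C)
    (hcompat : ∀ (f g : F) (hf : f ∈ G.O) (hg : g ∈ G.O), G.ρ ⟨f, hf⟩ ≠ 0 →
      G.ρ ⟨f, hf⟩ = G.ρ ⟨g, hg⟩ → δ (div f) = δ (div g))
    {D : Divisor K F} (hD : R.r D = 0) : δ D = 0 := by
  obtain ⟨x, hx⟩ := IsFF.exists_transcendental (K := K) (F := F)
  have := IsFF.finite_adjoin x hx
  obtain ⟨γ, hγ⟩ := riemann_inequality (K := K) x hx
  obtain ⟨P⟩ := nonempty_place (K := K) (F := F)
  set n : ℤ := |γ| + 1 + |R.n₀| with hn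
  have hn0 : 0 < n := by
    have := abs_nonneg γ
    have := abs_nonneg R.n₀
    omega
  have hC : 0 ≤ C := (abs_nonneg _).trans (hbd P)
  have key : ∀ D : Divisor K F, R.r D = 0 → |δ D| ≤ C * n + C * n := by
    intro D hD
    have hdeg : Divisor.degree D = 0 := by rw [← R.degree_r, hD, map_zero]
    have h1 := hγ (D + Finsupp.single P n)
    rw [map_add, hdeg, degree_single_one, zero_add] at h1
    have h2 : 0 < ell (D + Finsupp.single P n) := by
      have := le_abs_self γ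
      have := abs_nonneg R.n₀
      omega
    have h3 : riemannRochSpace (D + Finsupp.single P n) ≠ ⊥ := by
      intro h
      rw [ell, h, finrank_bot] at h2
      exact absurd h2 (lt_irrefl _)
    obtain ⟨f₀, hf₀, hf₀0⟩ := (Submodule.ne_bot_iff _).mp h3
    obtain ⟨c, hc, hO, hρ⟩ := G.exists_scale hf₀0
    set f : F := c • f₀ with hfdef
    have hf : f ∈ riemannRochSpace (D + Finsupp.single P n) := Submodule.smul_mem _ _ hf₀
    have hf0 : f ≠ 0 := smul_ne_zero hc hf₀0
    -- another function with the same reduction and controlled poles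
    have h4 : G.ρ ⟨f, hO⟩ ∈ G.redSpace (riemannRochSpace (Finsupp.single P n)) := by
      rw [R.redSpace_L _ (by
        rw [degree_single_one]
        have := le_abs_self R.n₀
        have := abs_nonneg γ
        omega)]
      have h5 := R.redSpace_le _ ⟨f, hf, hO, rfl⟩
      rwa [map_add, hD, zero_add] at h5
    obtain ⟨g, hg, hgO, hgρ⟩ := h4
    have hg0 : g ≠ 0 := by
      rintro rfl
      have h5 : (⟨0, hgO⟩ : G.O) = 0 := rfl
      rw [h5, map_zero] at hgρ
      exact hρ hgρ.symm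
    have hδ : δ (div f) = δ (div g) := hcompat f g hO hgO hρ hgρ.symm
    set E := div f + (D + Finsupp.single P n) with hE
    set E' := div g + Finsupp.single P n with hE'
    have hE0 : 0 ≤ E := (mem_riemannRochSpace_iff_div hf0).mp hf
    have hE'0 : 0 ≤ E' := (mem_riemannRochSpace_iff_div hg0).mp hg
    have hdE : Divisor.degree E = n := by
      rw [hE, map_add, map_add, degree_div, hdeg, degree_single_one]; ring
    have hdE' : Divisor.degree E' = n := by
      rw [hE', map_add, degree_div, degree_single_one]; ring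
    have h6 : D = E - div f - Finsupp.single P n := by rw [hE]; abel
    have h7 : δ D = δ E - δ E' := by
      have h8 : δ E' = δ (div g) + δ (Finsupp.single P n) := by rw [hE', map_add]
      conv_lhs => rw [h6]
      rw [map_sub, map_sub, hδ, h8]
      ring
    rw [h7]
    have h8 := abs_le_of_nonneg δ C hbd hE0
    have h9 := abs_le_of_nonneg δ C hbd hE'0
    rw [hdE] at h8
    rw [hdE'] at h9
    exact (abs_sub _ _).trans (add_le_add h8 h9)
  set B := C * n + C * n with hB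
  by_contra hne
  have h1 : 1 ≤ |δ D| := Int.one_le_abs hne
  have h2 := key ((B.toNat + 1) • D) (by rw [map_nsmul, hD, smul_zero])
  rw [map_nsmul, nsmul_eq_mul, abs_mul] at h2
  have h3 : |((B.toNat + 1 : ℕ) : ℤ)| = B.toNat + 1 := by
    rw [abs_of_nonneg (by positivity)]; push_cast; ring
  rw [h3] at h2
  have h4 : B ≤ B.toNat := Int.self_le_toNat B
  nlinarith

/-- Version for homomorphisms to divisors. -/
theorem apply_eq_zero_of_red (R : RedMap G) (α : Divisor K F →+ Divisor k F') (c : ℤ)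
    (hα : ∀ v : Place K F, 0 ≤ α (Finsupp.single v 1))
    (hdα : ∀ v : Place K F, Divisor.degree (α (Finsupp.single v 1)) ≤ c)
    (hcompat : ∀ (f g : F) (hf : f ∈ G.O) (hg : g ∈ G.O), G.ρ ⟨f, hf⟩ ≠ 0 →
      G.ρ ⟨f, hf⟩ = G.ρ ⟨g, hg⟩ → α (div f) = α (div g))
    {D : Divisor K F} (hD : R.r D = 0) : α D = 0 := by
  ext Q
  refine eq_zero_of_red R ((Finsupp.applyAddHom Q).comp α) c (fun v => ?_)
    (fun f g hf hg h0 h => ?_) hD
  · simp only [AddMonoidHom.comp_apply, Finsupp.applyAddHom_apply]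
    have h1 := le_degree (hα v) Q
    have h2 : 0 ≤ α (Finsupp.single v 1) Q := hα v Q
    rw [abs_of_nonneg h2]
    exact h1.trans (hdα v)
  · simp only [AddMonoidHom.comp_apply, Finsupp.applyAddHom_apply]
    rw [hcompat f g hf hg h0 h]

/-- The relation between divisors in characteristic zero and functions on the reduction. -/
def RelG (R : RedMap G) (n : ℕ) (E : Divisor K F) (g : F') : Prop :=
  g ≠ 0 ∧ ∃ h : F', h ≠ 0 ∧ div g = (n : ℤ) • (R.r E + div h)

omit [IsAlgClosed k] in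
theorem div_one' : (div (1 : F') : Divisor k F') = 0 := by
  ext v
  rw [div_apply, v.ord_one]; rfl

namespace RelG

variable {R : RedMap G} {n : ℕ}

omit [IsAlgClosed K] [IsAlgClosed k] in
theorem one : RelG R n 0 1 :=
  ⟨one_ne_zero, 1, one_ne_zero, by rw [div_one', map_zero, add_zero, smul_zero]⟩

omit [IsAlgClosed K] [IsAlgClosed k] in
theorem mul {E₁ E₂ : Divisor K F} {g₁ g₂ : F'} (h₁ : RelG R n E₁ g₁) (h₂ : RelG R n E₂ g₂) :
    RelG R n (E₁ + E₂) (g₁ * g₂) := by
  obtain ⟨a, x, hx, hx'⟩ := h₁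
  obtain ⟨b, y, hy, hy'⟩ := h₂
  refine ⟨mul_ne_zero a b, x * y, mul_ne_zero hx hy, ?_⟩
  rw [RR.div_mul a b, hx', hy', RR.div_mul hx hy, map_add, ← smul_add]
  congr 1
  abel

omit [IsAlgClosed K] [IsAlgClosed k] in
theorem inv {E : Divisor K F} {g : F'} (h : RelG R n E g) : RelG R n (-E) g⁻¹ := by
  obtain ⟨a, x, hx, hx'⟩ := h
  refine ⟨inv_ne_zero a, x⁻¹, inv_ne_zero hx, ?_⟩
  have h1 : ∀ {z : F'}, z ≠ 0 → (div z⁻¹ : Divisor k F') = -div z := by
    intro z _
    ext v
    rw [div_apply, Finsupp.neg_apply, div_apply, v.ord_inv]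
  rw [h1 a, h1 hx, hx', map_neg, ← smul_neg]
  congr 1
  abel

omit [IsAlgClosed K] [IsAlgClosed k] in
/-- Change by an `n`-th power and a constant. -/
theorem mul_pow {E : Divisor K F} {g : F'} (h : RelG R n E g) {c : k} (hc : c ≠ 0) {y : F'}
    (hy : y ≠ 0) : RelG R n E (algebraMap k F' c * g * y ^ n) := by
  obtain ⟨a, x, hx, hx'⟩ := h
  have hc' : algebraMap k F' c ≠ 0 := by simpa using hc
  refine ⟨mul_ne_zero (mul_ne_zero hc' a) (pow_ne_zero _ hy), x * y, mul_ne_zero hx hy, ?_⟩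
  ext v
  have h1 := DFunLike.congr_fun hx' v
  rw [div_apply, Finsupp.smul_apply, Finsupp.add_apply, div_apply, smul_eq_mul] at h1
  rw [div_apply, Finsupp.smul_apply, Finsupp.add_apply, div_apply, smul_eq_mul,
    v.ord_mul (mul_ne_zero hc' a) (pow_ne_zero _ hy), v.ord_mul hc' a, FF.ord_algebraMap,
    FF.ord_pow, h1, v.ord_mul hx hy]
  ring

/-- Every function with divisor divisible by `n` is related to some divisor of degree zero. -/
theorem exists_of_dvd (hg : genusFF K F ≤ genusFF k F') (hn : n ≠ 0) {g : F'} (hg0 : g ≠ 0)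
    (h : ∀ v : Place k F', (n : ℤ) ∣ v.ord g) :
    ∃ E : Divisor K F, Divisor.degree E = 0 ∧ RelG R n E g := by
  classical
  have hn' : (n : ℤ) ≠ 0 := by exact_mod_cast hn
  -- the divisor `(div g) / n`
  set D' : Divisor k F' := (div g : Divisor k F').mapRange (· / (n : ℤ)) (by simp) with hD'
  have h1 : div g = (n : ℤ) • D' := by
    ext v
    rw [Finsupp.smul_apply, hD', Finsupp.mapRange_apply, div_apply, smul_eq_mul,
      Int.mul_ediv_cancel' (h v)]
  have hdeg : Divisor.degree D' = 0 := by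
    have h3 := congrArg Divisor.degree h1
    rw [map_zsmul, degree_div, smul_eq_mul] at h3
    exact (mul_eq_zero.1 h3.symm).resolve_left hn'
  clear_value D'
  -- lift the positive and negative parts
  have hlift : ∀ D : Divisor k F', 0 ≤ D → ∃ E : Divisor K F, R.r E = D := by
    intro D hD
    obtain ⟨E, -, hE⟩ := (RedInj.RedData.ofRedMap R).exists_lift_effective hg D hD
    exact ⟨E, hE⟩
  set Dp : Divisor k F' := D'.mapRange (fun a => max a 0) (by simp) with hDp
  set Dm : Divisor k F' := D'.mapRange (fun a => max (-a) 0) (by simp) with hDm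
  obtain ⟨Ep, hEp⟩ := hlift Dp (fun v => by
    rw [hDp, Finsupp.mapRange_apply]; exact le_max_right _ _)
  obtain ⟨Em, hEm⟩ := hlift Dm (fun v => by
    rw [hDm, Finsupp.mapRange_apply]; exact le_max_right _ _)
  have h2 : R.r (Ep - Em) = D' := by
    rw [map_sub, hEp, hEm]
    ext v
    rw [Finsupp.sub_apply, hDp, hDm, Finsupp.mapRange_apply, Finsupp.mapRange_apply]
    rcases le_total 0 (D' v) with h | h
    · rw [max_eq_left h, max_eq_right (by omega)]; ring
    · rw [max_eq_right h, max_eq_left (by omega)]; ring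
  refine ⟨Ep - Em, by rw [← R.degree_r, h2, hdeg], hg0, 1, one_ne_zero, ?_⟩
  rw [h2, div_one', add_zero, h1]

omit [IsAlgClosed K] in
/-- If the divisor is principal then the function is a constant times an `n`-th power. -/
theorem exists_pow {E : Divisor K F} {g : F'} (h : RelG R n E g) (hE : Divisor.IsPrincipal E) :
    ∃ (c : k) (y : F'), c ≠ 0 ∧ y ≠ 0 ∧ g = algebraMap k F' c * y ^ n := by
  obtain ⟨hg0, x, hx, hx'⟩ := h
  obtain ⟨e, he, hE⟩ := hE
  obtain ⟨c, hc, hO, hρ⟩ := G.exists_scale he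
  have h1 : E = div (c • e) := by
    ext v
    have hc' : algebraMap K F c ≠ 0 := by simpa using hc
    rw [hE v, div_apply, Algebra.smul_def, v.ord_mul hc' he, FF.ord_algebraMap, zero_add]
  rw [h1, R.r_div _ hO hρ, ← RR.div_mul hρ hx] at hx'
  set y : F' := G.ρ ⟨c • e, hO⟩ * x with hy
  have hy0 : y ≠ 0 := mul_ne_zero hρ hx
  have h2 : ∀ v : Place k F', v.ord (g * (y ^ n)⁻¹) = 0 := by
    intro v
    have h3 := DFunLike.congr_fun hx' v
    rw [div_apply, Finsupp.smul_apply, div_apply, smul_eq_mul] at h3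
    rw [v.ord_mul hg0 (inv_ne_zero (pow_ne_zero _ hy0)), v.ord_inv, FF.ord_pow, h3]
    ring
  obtain ⟨d, hd⟩ := RedInj.exists_eq_algebraMap_of_ord_nonneg (K := k)
    (f := g * (y ^ n)⁻¹) (fun v => (h2 v).ge)
  have hyn := pow_ne_zero n hy0
  refine ⟨d, y, ?_, hy0, ?_⟩
  · rintro rfl
    rw [map_zero] at hd
    exact mul_ne_zero hg0 (inv_ne_zero hyn) hd
  · rw [← hd]
    field_simp

/-- **Stability under Hecke operators.** -/
theorem hecke (T : Divisor K F →+ Divisor K F) (c : ℤ)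
    (hT : ∀ v : Place K F, 0 ≤ T (Finsupp.single v 1))
    (hTd : ∀ v : Place K F, Divisor.degree (T (Finsupp.single v 1)) ≤ c)
    (τ : F → F) (hTτ : ∀ f : F, f ≠ 0 → T (div f) = div (τ f)) (τb : F' → F')
    (hτ : ∀ (f : F) (hf : f ∈ G.O), G.ρ ⟨f, hf⟩ ≠ 0 →
      ∃ h : τ f ∈ G.O, G.ρ ⟨τ f, h⟩ = τb (G.ρ ⟨f, hf⟩) ∧ τb (G.ρ ⟨f, hf⟩) ≠ 0)
    {E : Divisor K F} {g : F'} (h : RelG R n E g) : RelG R n (T E) (τb g) := by
  obtain ⟨hg0, x, hx, hx'⟩ := h
  obtain ⟨⟨g₀, hg₀O⟩, hg₀⟩ := G.ρ_surj g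
  obtain ⟨⟨x₀, hx₀O⟩, hx₀⟩ := G.ρ_surj x
  have hne : ∀ (f : F) (hf : f ∈ G.O), G.ρ ⟨f, hf⟩ ≠ 0 → f ≠ 0 := by
    rintro f hf h rfl
    exact h (map_zero G.ρ)
  have hg₀ρ : G.ρ ⟨g₀, hg₀O⟩ ≠ 0 := hg₀.symm ▸ hg0
  have hx₀ρ : G.ρ ⟨x₀, hx₀O⟩ ≠ 0 := hx₀.symm ▸ hx
  obtain ⟨hgT, hg1, hg2⟩ := hτ g₀ hg₀O hg₀ρ
  obtain ⟨hxT, hx1, hx2⟩ := hτ x₀ hx₀O hx₀ρ
  rw [hg₀] at hg1 hg2
  rw [hx₀] at hx1 hx2
  have hrT : ∀ (f : F) (hf : f ∈ G.O) (h0 : G.ρ ⟨f, hf⟩ ≠ 0),
      R.r (T (div f)) = div (τb (G.ρ ⟨f, hf⟩)) := by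
    intro f hf h0
    obtain ⟨h1, h2, h3⟩ := hτ f hf h0
    rw [hTτ f (hne f hf h0), R.r_div _ h1 (by rw [h2]; exact h3), h2]
  have key := apply_eq_zero_of_red R (R.r.comp T) c (fun v => R.nonneg _ (hT v))
    (fun v => by rw [AddMonoidHom.comp_apply, R.degree_r]; exact hTd v)
    (fun f g hf hg h0 h => by
      rw [AddMonoidHom.comp_apply, AddMonoidHom.comp_apply, hrT f hf h0, hrT g hg (h ▸ h0), h])
    (D := div g₀ - (n : ℤ) • E - (n : ℤ) • div x₀) (by
      rw [map_sub, map_sub, map_zsmul, map_zsmul, R.r_div _ hg₀O hg₀ρ, R.r_div _ hx₀O hx₀ρ, hg₀,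
        hx₀, hx', smul_add]
      abel)
  rw [AddMonoidHom.comp_apply, map_sub, map_sub, map_zsmul, map_zsmul, map_sub, map_sub,
    map_zsmul, map_zsmul, hrT g₀ hg₀O hg₀ρ, hrT x₀ hx₀O hx₀ρ, hg₀, hx₀] at key
  refine ⟨hg2, τb x, hx2, ?_⟩
  rw [smul_add, ← sub_eq_zero, ← key]
  abel

end RelG

end Fermat.Agent.TriLow
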