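import Fermat.Agent.TriLow.RedHecke
import Fermat.Agent.S37aux.Bare
import Fermat.Agent.GoodRed.GenusAll
import Fermat.Agent.TEll.HeckeSide

/-!
# The relation between divisors of `X₀(N)` over `ℚ̄` and functions in characteristic `q`
-/

set_option autoImplicit false

open AlgebraicCurve WithZero Module Polynomial ModularCurve HahnSeries
open scoped IntermediateField
open Fermat.Agent.RR Fermat.Agent.FF Fermat.Agent.Deuring Fermat.Agent.S37aux
  Fermat.Agent.GaussVal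

noncomputable section

namespace Fermat.Agent.TriLow

/-- A relation between divisors over `ℚ̄` and functions over the residue field, expressing that
`div g = n (red E + div h)`. -/
structure HRel (A : ValuationSubring (AlgebraicClosure ℚ)) (N n : ℕ) [NeZero N] where
  Rel : Divisor (AlgebraicClosure ℚ) (modularFunctionFieldBar N) → FC A N → Prop
  ne_zero : ∀ {E g}, Rel E g → g ≠ 0
  one : Rel 0 1
  mul : ∀ {E₁ E₂ g₁ g₂}, Rel E₁ g₁ → Rel E₂ g₂ → Rel (E₁ + E₂) (g₁ * g₂)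
  inv : ∀ {E g}, Rel E g → Rel (-E) g⁻¹
  exists_of_dvd : ∀ {g : FC A N}, g ≠ 0 → (∀ v : Place (RF A) (FC A N), (n : ℤ) ∣ v.ord g) →
    ∃ E, Divisor.degree E = 0 ∧ Rel E g
  exists_pow : ∀ {E g}, Rel E g → Divisor.IsPrincipal E →
    ∃ (c : RF A) (y : FC A N), c ≠ 0 ∧ y ≠ 0 ∧ g = algebraMap (RF A) (FC A N) c * y ^ n
  hecke : ∀ {ℓ : ℕ} [NeZero ℓ], ℓ.Prime → ¬ ℓ ∣ N → ∀ {E g}, Rel E g → ∀ g' : FC A N,
    (g' : LaurentSeries (RF A)) = TEll.TSer (RF A) ℓ (g : LaurentSeries (RF A)) →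
      Rel (TEll.heckeDiv N ℓ E) g'

/-- **Existence of the relation.** -/
theorem exists_hrel {A : ValuationSubring (AlgebraicClosure ℚ)} {q : ℕ} (hq : q.Prime)
    (hA : A.LiesOverPrime q) {N : ℕ} [NeZero N] (hN : ¬ q ∣ N) {n : ℕ} (hn : n ≠ 0) :
    Nonempty (HRel A N n) := by
  classical
  have h := degC A N (cast_ne_zero hq hA hN)
  have := h.isFF
  have hg : genusFF (AlgebraicClosure ℚ) (modularFunctionFieldBar N) ≤ genusFF (RF A) (FC A N) :=
    GoodRed.genus_le_all hq hA N hN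
  obtain ⟨R, -⟩ := (gauss hq hA N h).exists_redMap_of_le hg
  refine ⟨{
    Rel := RelG R n
    ne_zero := fun h => h.1
    one := RelG.one
    mul := fun h₁ h₂ => h₁.mul h₂
    inv := fun h => h.inv
    exists_of_dvd := fun h0 h => RelG.exists_of_dvd hg hn h0 h
    exists_pow := fun h hE => h.exists_pow hE
    hecke := fun {ℓ} _ hℓ hℓN E g hEg g' hg' => ?_ }⟩
  let τb : FC A N → FC A N := fun g =>
    if h : TEll.TSer (RF A) ℓ (g : LaurentSeries (RF A)) ∈ FC A N then ⟨_, h⟩ else 0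
  have hτb : ∀ (g g' : FC A N), (g' : LaurentSeries (RF A)) =
      TEll.TSer (RF A) ℓ (g : LaurentSeries (RF A)) → τb g = g' := by
    intro g g' hg
    have hmem : TEll.TSer (RF A) ℓ (g : LaurentSeries (RF A)) ∈ FC A N := by
      rw [← hg]; exact g'.2
    change (if h : TEll.TSer (RF A) ℓ (g : LaurentSeries (RF A)) ∈ FC A N then
      (⟨_, h⟩ : FC A N) else 0) = g'
    rw [dif_pos hmem]
    exact Subtype.ext hg.symm
  rw [← hτb g g' hg']
  refine RelG.hecke (TEll.heckeDiv N ℓ)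
    (finrankAlong (AlgebraicClosure ℚ) (heckeBetaBar (AlgebraicClosure ℚ) N ℓ))
    (fun v => TEll.heckeDiv_nonneg (single_nonneg v)) (fun v => ?_)
    (TEll.TEll (AlgebraicClosure ℚ) N ℓ) (fun f hf => TEll.heckeDiv_div hf) τb
    (fun f hf h0 => ?_) hEg
  · rw [TEll.degree_heckeDiv, degree_single_one, mul_one]
  · have hf1 : (f : LaurentSeries (AlgebraicClosure ℚ)) ∈ gaussSubring A := mem_gauss_O.1 hf
    have e1 := TEll.coe_TEll_bar N ℓ hℓ hℓN f
    have h1 : (TEll.TEll (AlgebraicClosure ℚ) N ℓ f : LaurentSeries (AlgebraicClosure ℚ)) ∈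
        gaussSubring A := by
      rw [e1]
      exact TEll.TSer_mem_gaussSubring A ℓ hf1
    have h2 : ((gauss hq hA N h).ρ ⟨_, mem_gauss_O.2 h1⟩ : LaurentSeries (RF A)) =
        TEll.TSer (RF A) ℓ ((gauss hq hA N h).ρ ⟨f, hf⟩ : LaurentSeries (RF A)) := by
      rw [coe_gauss_ρ, coe_gauss_ρ]
      have h3 : gaussRed A ⟨(TEll.TEll (AlgebraicClosure ℚ) N ℓ f :
          LaurentSeries (AlgebraicClosure ℚ)), h1⟩ =
          gaussRed A ⟨TEll.TSer (AlgebraicClosure ℚ) ℓ f, TEll.TSer_mem_gaussSubring A ℓ hf1⟩ :=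
        congrArg (gaussRed A) (Subtype.ext e1)
      exact h3.trans (TEll.gaussRed_TSer A ℓ ⟨_, hf1⟩)
    have h3 := hτb _ _ h2
    refine ⟨mem_gauss_O.2 h1, h3.symm, ?_⟩
    rw [h3]
    intro h4
    have h5 : ((gauss hq hA N h).ρ ⟨f, hf⟩ : LaurentSeries (RF A)) ≠ 0 := by
      intro h6
      exact h0 (Subtype.ext h6)
    apply TEll.TSer_ne_zero ℓ h5
    rw [← h2, h4]
    rfl

end Fermat.Agent.TriLow
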