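import Fermat.Agent.TriLow.HeckeOrd
import Fermat.Agent.TriLow.Close
import Fermat.Agent.S36.Equiv

/-!
# Functions representing torsion classes, and relations stable under Hecke operators

`Rep n x f`: the function `f` with coefficients in `K` satisfies `div f = n D` and `x = [D]`.
-/

set_option autoImplicit false
set_option linter.unusedSectionVars false
set_option linter.style.haveILetI false

noncomputable section

open AlgebraicCurve ModularCurve HahnSeries Module Fermat.Agent.TEll Fermat.Agent.LocE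
  Fermat.Agent.S36mile Fermat.Agent.QX4 Fermat.Agent.GalRep Fermat.Agent.FF
  Fermat.Agent.HeckeComm
open Fermat.Agent.S36norm
open Fermat.Agent.TriVal (Qb)
open Fermat.Agent.S36red hiding pushPic0_smul

namespace Fermat.Agent.TriLow

/-! ### Relations -/

/-- A relation which is an additive subgroup stable under the `T_ℓ` is stable under Hecke
polynomials. -/
theorem rel_inclS_smul {J J' : Type*} [AddCommGroup J] [AddCommGroup J'] [Module HeckeAlg J]
    [Module HeckeAlg J'] (S : Set ℕ) (R : J → J' → Prop) (h0 : R 0 0)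
    (hadd : ∀ x x' y y', R x y → R x' y' → R (x + x') (y + y'))
    (hneg : ∀ x y, R x y → R (-x) (-y))
    (hT : ∀ ℓ : Nat.Primes, (ℓ : ℕ) ∉ S → ∀ x y, R x y → R (heckeGen ℓ • x) (heckeGen ℓ • y))
    (t : HeckeAlgS S) {x : J} {y : J'} (h : R x y) : R (inclS S t • x) (inclS S t • y) := by
  let G : AddSubgroup (J × J') :=
    { carrier := {z | R z.1 z.2}
      add_mem' := fun {a b} ha hb => hadd _ _ _ _ ha hb
      zero_mem' := h0
      neg_mem' := fun {a} ha => hneg _ _ ha }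
  have hG : ∀ z : J × J', z ∈ G ↔ R z.1 z.2 := fun z => Iff.rfl
  induction t using MvPolynomial.induction_on generalizing x y with
  | C a =>
    have h1 : inclS S (MvPolynomial.C a) = (a : HeckeAlg) := by
      rw [inclS, MvPolynomial.rename_C, ← MvPolynomial.algebraMap_eq, eq_intCast]
    rw [h1, Int.cast_smul_eq_zsmul, Int.cast_smul_eq_zsmul]
    exact (hG _).mp (G.zsmul_mem ((hG (x, y)).mpr h) a)
  | add p q hp hq =>
    rw [map_add, add_smul, add_smul]
    exact hadd _ _ _ _ (hp h) (hq h)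
  | mul_X p ℓ hp =>
    have h1 : inclS S (MvPolynomial.X ℓ) = heckeGen ℓ.1 := by
      rw [inclS, MvPolynomial.rename_X]; rfl
    rw [map_mul, mul_smul, mul_smul, h1]
    exact hp (hT ℓ.1 ℓ.2 _ _ h)

/-! ### Representing functions -/

section Rep

variable (K : Type*) [Field K] [Algebra K Qb] (N : ℕ) [NeZero N] (n : ℕ)

/-- `div f = n D` and `x = [D]`. -/
def Rep (x : JZero N) (f : modularFunctionFieldFullC K N) : Prop :=
  f ≠ 0 ∧ ∃ Dx : Divisor.degZero (K := AlgebraicClosure ℚ) (F := modularFunctionFieldBar N),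
    x = Pic0.mk Dx ∧ ∀ v : Place (AlgebraicClosure ℚ) (modularFunctionFieldBar N),
      v.ord (bcb K N f) = n * (Dx : Divisor _ _) v

variable {K N n}

theorem bcb_ne_zero {f : modularFunctionFieldFullC K N} (hf : f ≠ 0) : bcb K N f ≠ 0 :=
  (map_ne_zero_iff _ bcb_injective).mpr hf

theorem Rep.ne_zero {x : JZero N} {f : modularFunctionFieldFullC K N} (h : Rep K N n x f) :
    f ≠ 0 := h.1

theorem Rep.mul {x y : JZero N} {f g : modularFunctionFieldFullC K N} (hf : Rep K N n x f)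
    (hg : Rep K N n y g) : Rep K N n (x + y) (f * g) := by
  obtain ⟨hf0, D, rfl, hD⟩ := hf
  obtain ⟨hg0, E, rfl, hE⟩ := hg
  refine ⟨mul_ne_zero hf0 hg0, D + E, rfl, fun v => ?_⟩
  rw [map_mul, v.ord_mul (bcb_ne_zero hf0) (bcb_ne_zero hg0), hD, hE, ← mul_add]
  rfl

theorem Rep.inv {x : JZero N} {f : modularFunctionFieldFullC K N} (hf : Rep K N n x f) :
    Rep K N n (-x) f⁻¹ := by
  obtain ⟨hf0, D, rfl, hD⟩ := hf
  refine ⟨inv_ne_zero hf0, -D, rfl, fun v => ?_⟩
  rw [map_inv₀, v.ord_inv, hD, ← mul_neg]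
  rfl

theorem rep_one : Rep K N n 0 1 := by
  refine ⟨one_ne_zero, 0, rfl, fun v => ?_⟩
  rw [map_one, v.ord_one]
  change (0 : ℤ) = n * 0
  rw [mul_zero]

theorem Rep.pow {x : JZero N} {f : modularFunctionFieldFullC K N} (hf : Rep K N n x f) (a : ℕ) :
    Rep K N n (a • x) (f ^ a) := by
  induction a with
  | zero =>
    rw [pow_zero, zero_nsmul]
    exact rep_one
  | succ a ih =>
    rw [succ_nsmul, pow_succ]
    exact ih.mul hf

theorem rep_const {c : K} (hc : c ≠ 0) :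
    Rep K N n 0 (algebraMap K (modularFunctionFieldFullC K N) c) := by
  refine ⟨(map_ne_zero_iff _ (algebraMap K _).injective).mpr hc, 0, rfl, fun v => ?_⟩
  rw [bcb_algebraMap, FF.ord_algebraMap]
  change (0 : ℤ) = n * 0
  rw [mul_zero]

/-- The class of a principal divisor vanishes. -/
theorem mk_div_eq_zero {g : modularFunctionFieldBar N} (hg : g ≠ 0)
    {D : Divisor.degZero (K := AlgebraicClosure ℚ) (F := modularFunctionFieldBar N)}
    (h : ∀ v : Place (AlgebraicClosure ℚ) (modularFunctionFieldBar N),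
      (D : Divisor _ _) v = v.ord g) :
    (Pic0.mk D : JZero N) = 0 := by
  change (QuotientAddGroup.mk D : Pic0 _ _) = 0
  rw [QuotientAddGroup.eq_zero_iff, AddSubgroup.mem_addSubgroupOf]
  exact ⟨g, hg, h⟩

theorem rep_pow {g : modularFunctionFieldFullC K N} (hg : g ≠ 0) : Rep K N n 0 (g ^ n) := by
  have hd : RR.div (bcb K N g) ∈ Divisor.degZero (K := AlgebraicClosure ℚ)
      (F := modularFunctionFieldBar N) := by
    exact RR.degree_div (K := AlgebraicClosure ℚ) (bcb K N g)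
  refine ⟨pow_ne_zero _ hg, ⟨RR.div (bcb K N g), hd⟩, ?_, fun v => ?_⟩
  · symm
    exact mk_div_eq_zero (bcb_ne_zero hg) fun v => RR.div_apply _ _
  · rw [map_pow, QX.ord_pow, RR.div_apply]

theorem Rep.eq (hn : n ≠ 0) {x y : JZero N} {f : modularFunctionFieldFullC K N}
    (h1 : Rep K N n x f) (h2 : Rep K N n y f) : x = y := by
  obtain ⟨-, D, rfl, hD⟩ := h1
  obtain ⟨-, E, rfl, hE⟩ := h2
  have hn' : (n : ℤ) ≠ 0 := by exact_mod_cast hn
  have h : D = E := by
    apply Subtype.ext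
    ext v
    exact mul_left_cancel₀ hn' ((hD v).symm.trans (hE v))
  rw [h]

theorem Rep.nsmul_eq_zero {x : JZero N} {f : modularFunctionFieldFullC K N}
    (h : Rep K N n x f) : n • x = 0 := by
  obtain ⟨hf0, D, rfl, hD⟩ := h
  have h1 : n • (Pic0.mk D : JZero N) = Pic0.mk (n • D) := rfl
  rw [h1]
  refine mk_div_eq_zero (bcb_ne_zero hf0) fun v => ?_
  rw [hD v, ← nsmul_eq_mul]
  rfl

theorem exists_rep (hn : n ≠ 0) {f : modularFunctionFieldFullC K N} (hf : f ≠ 0)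
    (h : ∀ v : Place (AlgebraicClosure ℚ) (modularFunctionFieldBar N),
      (n : ℤ) ∣ v.ord (bcb K N f)) : ∃ x : JZero N, Rep K N n x f := by
  haveI : IsFF (AlgebraicClosure ℚ) (modularFunctionFieldBar N) := TEll.isFF_bar N
  obtain ⟨D, hD0, hD⟩ := exists_div hn h
  exact ⟨Pic0.mk ⟨D, hD0⟩, hf, ⟨D, hD0⟩, rfl, fun v => (hD v).symm⟩

theorem Rep.dvd {x : JZero N} {f : modularFunctionFieldFullC K N} (h : Rep K N n x f)
    (v : Place (AlgebraicClosure ℚ) (modularFunctionFieldBar N)) :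
    (n : ℤ) ∣ v.ord (bcb K N f) := by
  obtain ⟨-, D, -, hD⟩ := h
  exact ⟨_, hD v⟩

/-- A function representing `0` is a constant times an `n`-th power. -/
theorem Rep.exists_pow {f : modularFunctionFieldFullC K N} (h : Rep K N n 0 f) :
    ∃ (c : AlgebraicClosure ℚ) (g : modularFunctionFieldBar N), c ≠ 0 ∧ g ≠ 0 ∧
      bcb K N f = algebraMap _ _ c * g ^ n := by
  obtain ⟨hf0, D, hx, hD⟩ := h
  obtain ⟨g, hg, hgo⟩ := (mk_eq_zero_iff _).mp hx.symm
  have hf := bcb_ne_zero (K := K) hf0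
  have hratio : ∀ v : Place (AlgebraicClosure ℚ) (modularFunctionFieldBar N),
      v.ord (bcb K N f * (g ^ n)⁻¹) = 0 := by
    intro v
    rw [v.ord_mul hf (inv_ne_zero (pow_ne_zero n hg)), v.ord_inv, QX.ord_pow, hD, ← hgo]
    ring
  obtain ⟨c, hc⟩ := exists_const_of_ord_eq_zero
    (mul_ne_zero hf (inv_ne_zero (pow_ne_zero n hg))) hratio
  have h1 : bcb K N f = algebraMap _ _ c * g ^ n := by
    rw [hc, mul_assoc, inv_mul_cancel₀ (pow_ne_zero n hg), mul_one]
  refine ⟨c, g, ?_, hg, h1⟩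
  rintro rfl
  rw [map_zero, zero_mul] at h1
  exact hf h1

variable {ℓ : ℕ} [NeZero ℓ] [NeZero (N * ℓ)]

/-- **`T_ℓ` on representing functions.** -/
theorem Rep.TC {ℓ : Nat.Primes} [NeZero (ℓ : ℕ)] [NeZero (N * (ℓ : ℕ))] {x : JZero N}
    {f : modularFunctionFieldFullC K N} (h : Rep K N n x f) :
    letI := heckeModuleBar N
    Rep K N n (heckeGen ℓ • x) (TC K N ℓ f) := by
  letI := heckeModuleBar N
  obtain ⟨hf0, D, rfl, hD⟩ := h
  obtain ⟨D', h1, h2⟩ := heckeOperatorBar_mk ℓ D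
  have h3 : heckeGen ℓ • (Pic0.mk D : JZero N) = heckeOperatorBar N ℓ (Pic0.mk D) :=
    heckeModuleBar_heckeGen_smul (heckeOperatorsCommuteBar N) ℓ _
  refine ⟨TC_ne_zero K N ℓ hf0, D', h3.trans h2, fun v => ?_⟩
  have h4 : (n : ℤ) • (D : Divisor (AlgebraicClosure ℚ) (modularFunctionFieldBar N)) = RR.div (bcb K N f) := by
    ext v
    rw [Finsupp.smul_apply, smul_eq_mul, RR.div_apply, hD v]
  have h5 := heckeDiv_div (N := N) (ℓ := ℓ) (bcb_ne_zero (K := K) hf0)
  rw [← h4, map_zsmul, ← bcb_TC, ← h1] at h5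
  have h6 := DFunLike.congr_fun h5 v
  rw [Finsupp.smul_apply, smul_eq_mul, RR.div_apply] at h6
  exact h6.symm

end Rep

/-! ### The degeneracy maps -/

section Deg

variable {K : Type*} [Field K] [Algebra K Qb] {N q : ℕ} [NeZero N] [NeZero q] [NeZero (N * q)]
  {n : ℕ}

/-- If the representing functions of two levels are related by a homomorphism commuting with all
`T_ℓ`, then a Hecke polynomial killing the `n`-torsion at level `N` kills the class at level
`N q`. -/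
theorem inclS_smul_eq_zero_of_hom (hn : n ≠ 0)
    (φ : modularFunctionFieldFullC K N →ₐ[K] modularFunctionFieldFullC K (N * q))
    (φb : modularFunctionFieldBar N →ₐ[AlgebraicClosure ℚ] modularFunctionFieldBar (N * q))
    (hφ : ∀ y, bcb K (N * q) (φ y) = φb (bcb K N y))
    (S : Set ℕ)
    (hT : ∀ ℓ : Nat.Primes, (ℓ : ℕ) ∉ S → ∀ [NeZero (ℓ : ℕ)] [NeZero (N * (ℓ : ℕ))]
      [NeZero (N * q * (ℓ : ℕ))] (y : modularFunctionFieldFullC K N),
      TC K (N * q) ℓ (φ y) = φ (TC K N ℓ y))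
    (t : HeckeAlgS S)
    (ht : letI := heckeModuleBar N; ∀ y : JZero N, n • y = 0 → inclS S t • y = 0)
    {f : modularFunctionFieldFullC K N} (hf : f ≠ 0)
    (hdvd : ∀ v : Place (AlgebraicClosure ℚ) (modularFunctionFieldBar N),
      (n : ℤ) ∣ v.ord (bcb K N f)) {x : JZero (N * q)} (hx : Rep K (N * q) n x (φ f)) :
    letI := heckeModuleBar (N * q)
    inclS S t • x = 0 := by
  letI := heckeModuleBar N
  letI := heckeModuleBar (N * q)
  obtain ⟨y, hy⟩ := exists_rep hn hf hdvd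
  let R : JZero (N * q) → JZero N → Prop := fun x y =>
    ∃ f : modularFunctionFieldFullC K N, Rep K (N * q) n x (φ f) ∧ Rep K N n y f
  have key : R (inclS S t • x) (inclS S t • y) := by
    refine rel_inclS_smul S R ⟨1, by rw [map_one]; exact rep_one, rep_one⟩ ?_ ?_ ?_ t ⟨f, hx, hy⟩
    · rintro x x' y y' ⟨f, h1, h2⟩ ⟨f', h1', h2'⟩
      exact ⟨f * f', by rw [map_mul]; exact h1.mul h1', h2.mul h2'⟩
    · rintro x y ⟨f, h1, h2⟩
      exact ⟨f⁻¹, by rw [map_inv₀]; exact h1.inv, h2.inv⟩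
    · rintro ℓ hℓ x y ⟨f, h1, h2⟩
      haveI : NeZero (ℓ : ℕ) := ⟨ℓ.2.ne_zero⟩
      haveI : NeZero (N * (ℓ : ℕ)) := ⟨Nat.mul_ne_zero (NeZero.ne N) (NeZero.ne (ℓ : ℕ))⟩
      haveI : NeZero (N * q * (ℓ : ℕ)) := ⟨Nat.mul_ne_zero (NeZero.ne (N * q)) (NeZero.ne (ℓ : ℕ))⟩
      exact ⟨TC K N ℓ f, by rw [← hT ℓ hℓ]; exact h1.TC, h2.TC⟩
  rw [ht y hy.nsmul_eq_zero] at key
  obtain ⟨g, h1, h2⟩ := key
  obtain ⟨c, h, hc, hh, hg⟩ := h2.exists_pow
  -- `φ g = c (φ h) ^ n`
  have h3 : Rep K (N * q) n 0 (φ g) := by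
    refine ⟨h1.ne_zero, ?_⟩
    have hφh : φb h ≠ 0 := (map_ne_zero_iff _ φb.injective).mpr hh
    refine ⟨⟨RR.div (φb h), RR.degree_div (K := AlgebraicClosure ℚ) (φb h)⟩, ?_, fun v => ?_⟩
    · symm
      exact mk_div_eq_zero hφh fun v => RR.div_apply _ _
    · rw [hφ, hg, map_mul, map_pow, AlgHom.commutes,
        v.ord_mul ((map_ne_zero_iff _ (algebraMap _ _).injective).mpr hc) (pow_ne_zero _ hφh),
        FF.ord_algebraMap, zero_add, QX.ord_pow, RR.div_apply]
  exact h1.eq hn h3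

/-- `T_ℓ` commutes with `α`. -/
theorem TC_alphaC {ℓ : ℕ} [NeZero ℓ] [NeZero (N * ℓ)] [NeZero (N * q * ℓ)] (hℓ : ℓ.Prime)
    (h : ¬ ℓ ∣ N * q) (f : modularFunctionFieldFullC K N) :
    TC K (N * q) ℓ (alphaC K N q f) = alphaC K N q (TC K N ℓ f) := by
  apply bcb_injective
  have h' : ¬ ℓ ∣ N := fun hd => h (hd.mul_right q)
  rw [bcb_TC, bcb_alphaC, bcb_alphaC, bcb_TC]
  apply Subtype.ext
  rw [coe_TEll_bar _ ℓ hℓ h, coe_heckeAlphaBar, coe_heckeAlphaBar, coe_TEll_bar _ ℓ hℓ h']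

/-- `T_ℓ` commutes with `β` (level `m q → m q²`). -/
theorem TC_betaC {m q ℓ : ℕ} [NeZero m] [NeZero q] [NeZero (m * q)] [NeZero (m * q * q)]
    [NeZero ℓ] [NeZero (m * q * ℓ)] [NeZero (m * q * q * ℓ)] (hq : q.Prime) (hm : ¬ q ∣ m)
    (hℓ : ℓ.Prime) (h : ¬ ℓ ∣ m * q * q)
    {w : modularFunctionFieldFullC K (m * q * q) ≃ₐ[K] modularFunctionFieldFullC K (m * q * q)}
    {w' : modularFunctionFieldFullC K (m * q) ≃ₐ[K] modularFunctionFieldFullC K (m * q)}
    (hw : IsSwap K (m * q * q) (q * q) m w) (hw' : IsSwap K (m * q) q m w')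
    (f : modularFunctionFieldFullC K (m * q)) :
    TC K (m * q * q) ℓ (betaC K (m * q) q f) = betaC K (m * q) q (TC K (m * q) ℓ f) := by
  have hqℓ : q ≠ ℓ := by
    rintro rfl
    exact h (dvd_mul_left _ _)
  have h1 : q.Coprime ℓ := (Nat.coprime_primes hq hℓ).mpr hqℓ
  have h2 : q.Coprime m := (Nat.Prime.coprime_iff_not_dvd hq).mpr hm
  have h3 : w (alphaC K (m * q) q (w' f)) = betaC K (m * q) q f := by
    rw [swap_alpha hw hw', hw'.invol rfl]
  have h4 := TC_swapQ (N := m * q) (ℓ := ℓ) (Q := q) (m := m) rfl hq.ne_zero h2 h1 hw' f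
  rw [← h3, TC_w hq hm hℓ h hw, TC_alphaC hℓ h, swap_alpha hw hw', h4, hw'.invol rfl]

end Deg

end Fermat.Agent.TriLow
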