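import Fermat.Agent.TriLow.HeckeStep

/-!
# Representatives of orders zero

`x` a torsion class fixed by inertia; then `(T_ℓ - ℓ - 1) x` has a `K₀`-rational representative
whose order at the three Gauss valuations is zero.
-/

set_option autoImplicit false
set_option linter.unusedSectionVars false
set_option linter.style.haveILetI false

noncomputable section

open AlgebraicCurve ModularCurve HahnSeries Fermat.Agent.TEll Fermat.Agent.TriGauss
  Fermat.Agent.LocE Fermat.Agent.GaussVal Fermat.Agent.TwoGauss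
  Fermat.Agent.TriComp Fermat.Agent.S36norm Fermat.Agent.GalRep Fermat.Agent.S36mile
  Fermat.Agent.S37aux Fermat.Agent.TriDim
open Fermat.Agent.TriVal hiding e0 e0_apply e0_algebraMap e0_jd e1 e2 Qb

namespace Fermat.Agent.TriLow

/-- A torsion class fixed by inertia is represented by a function over `K₀`. -/
theorem exists_rep_of_fixed {A : ValuationSubring Qb} {K : Type*} [Field K] [Algebra K Qb]
    (hK : TriGlue.IsK0 A K) {N : ℕ} [NeZero N] {n : ℕ} (hn : 0 < n) {x : JZero N}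
    (hx : n • x = 0) (hI : ∀ σ ∈ A.inertiaSubgroupIn ℚ, σ • x = x) :
    ∃ φ : modularFunctionFieldFullC K N, Rep K N n x φ := by
  have hΓ : ∀ x : Qb, (∀ σ ∈ inertiaSet A, σ x = x) → x ∈ Set.range (algebraMap K Qb) := by
    intro x hx
    rw [hK]
    obtain ⟨y, hy⟩ := inertiaSet_fixed A x hx
    rw [← hy]
    exact y.2
  obtain ⟨D, f, hf, hxD, ho, hG⟩ := S36desc.exists_fixed_rep (N := N) (A.inertiaSubgroupIn ℚ) hn
    x hx hI
  have hgal : ∀ σ ∈ inertiaSet A, coeffMap σ (f : LaurentSeries Qb) = f := by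
    rintro _ ⟨σ, hσ, rfl⟩
    have h := congrArg (Subtype.val) (hG ⟨σ, hσ⟩)
    exact h
  obtain ⟨φ, rfl⟩ := exists_bcb_eq (L := K) (inertiaSet A) hΓ hgal
  refine ⟨φ, ?_, D, hxD, ho⟩
  rintro rfl
  exact hf (_root_.map_zero _)

variable {A : ValuationSubring Qb} {K : Type*} [Field K] [Algebra K Qb] {m q : ℕ}
    [NeZero m] [NeZero q] [NeZero (m * q)] [NeZero (m * q * q)] {ζ : Qbˣ}
    {e₁ : modularFunctionFieldFullC K (m * q * q) →+* LaurentSeries Qb}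
    {w : modularFunctionFieldFullC K (m * q * q) ≃ₐ[K] modularFunctionFieldFullC K (m * q * q)}
    {w' : modularFunctionFieldFullC K (m * q) ≃ₐ[K] modularFunctionFieldFullC K (m * q)}
    [CharZero K] {Er : Type*} [CommRing Er] [Algebra (IsLocalRing.ResidueField A) Er]
    {D : Data K (modularFunctionFieldFullC K (m * q * q)) (IsLocalRing.ResidueField A) Er
      (modularFunctionFieldFullC (IsLocalRing.ResidueField A) m) q}
    [Fact q.Prime] [CharP (IsLocalRing.ResidueField A) q]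
    {n : ℕ} {x : JZero (m * q * q)} {φ : modularFunctionFieldFullC K (m * q * q)}

variable (I : LevelInput A K m q ζ e₁ w w') (T : TriInput A K m q ζ e₁ w D)

include I T in
/-- The three orders of `T_ℓ φ`. -/
theorem ord_TC (ℓ : ℕ) [NeZero ℓ] [NeZero (m * q * q * ℓ)] (hℓ : ℓ.Prime)
    (hℓN : ¬ ℓ ∣ m * q * q) (hφ : φ ≠ 0) (i : Fin 3) :
    (D.v i).ord (TC K (m * q * q) ℓ φ) = ((ℓ : ℤ) + 1) * (D.v i).ord φ := by
  have hne := TC_ne_zero K (m * q * q) ℓ hφ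
  have hζ1 : IsPrimitiveRoot (ζ : Qb) q := IsPrimitiveRoot.coe_units_iff.mpr I.hζ
  have hq0 : (q : Qb) ≠ 0 := I.hK.unif.ne_zero
  fin_cases i
  · exact T.h0.ord_eq I.hK.unif hne (hasOrd_e0_TC hℓ hℓN hq0 (T.h0.hasOrd φ hφ))
  · have hz0 : ((ζ : Qb) - 1) ≠ 0 := (isUnif_K1 I.hq I.hA hζ1).ne_zero
    exact T.h1.ord_eq (isUnif_K1 I.hq I.hA hζ1) hne
      (hasOrd_e1_TC I.hq I.hm I.hA I.hK hℓ hℓN I.hζ I.he₁ hz0 (T.h1.hasOrd φ hφ))
  · exact T.h2.ord_eq I.hK.unif hne (hasOrd_e2_TC I.hq I.hm hℓ hℓN I.hw hq0 (T.h2.hasOrd φ hφ))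

include I T in
/-- **The representative of `(T_ℓ - ℓ - 1) x`.** -/
theorem exists_rep_ord_zero {S : Set ℕ} (hS : ∀ r : ℕ, r.Prime → r ∣ m * q → r ∈ S)
    (ℓ : {ℓ : Nat.Primes // (ℓ : ℕ) ∉ S}) (hx : Rep K (m * q * q) n x φ) :
    ∃ ψ : modularFunctionFieldFullC K (m * q * q),
      Rep K (m * q * q) n (actS (m * q * q) S (MvPolynomial.X ℓ - (((ℓ.1 : ℕ) : HeckeAlgS S) + 1)) x) ψ ∧
        ∀ i, (D.v i).ord ψ = 0 := by
  haveI : NeZero (ℓ.1 : ℕ) := ⟨ℓ.1.2.ne_zero⟩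
  haveI : NeZero (m * q * q * (ℓ.1 : ℕ)) := ⟨mul_ne_zero (NeZero.ne _) (NeZero.ne _)⟩
  have hℓN : ¬ (ℓ.1 : ℕ) ∣ m * q * q := by
    intro hd
    apply ℓ.2
    apply hS _ ℓ.1.2
    rcases ℓ.1.2.dvd_mul.1 hd with h1 | h1
    · exact h1
    · exact h1.mul_left m
  have h1 : Rep K (m * q * q) n (heckeOperatorBar (m * q * q) ℓ.1 x) (TC K (m * q * q) (ℓ.1 : ℕ) φ) :=
    hx.hecke ℓ.1
  have h2 : Rep K (m * q * q) n (((ℓ.1 : ℕ) + 1) • x) (φ ^ ((ℓ.1 : ℕ) + 1)) := hx.pow _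
  have h3 := h1.mul h2.inv
  have h4 : actS (m * q * q) S (MvPolynomial.X ℓ - (((ℓ.1 : ℕ) : HeckeAlgS S) + 1)) x =
      heckeOperatorBar (m * q * q) ℓ.1 x + -(((ℓ.1 : ℕ) + 1) • x) := by
    have e : (MvPolynomial.X ℓ - (((ℓ.1 : ℕ) : HeckeAlgS S) + 1)) =
        MvPolynomial.X ℓ + MvPolynomial.C (-(((ℓ.1 : ℕ) : ℤ) + 1)) := by
      simp only [map_neg, map_add, map_natCast, map_one]
      ring
    rw [e, actS_add, actS_X, actS_C, neg_smul]
    congr 2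
  rw [h4]
  refine ⟨_, h3, fun i => ?_⟩
  have hφ := hx.1
  have hp := pow_ne_zero ((ℓ.1 : ℕ) + 1) hφ
  rw [(D.v i).ord_mul _ _ h1.1 (inv_ne_zero hp), (D.v i).ord_inv hp, (D.v i).ord_pow hφ,
    ord_TC I T (ℓ.1 : ℕ) ℓ.1.2 hℓN hφ i]
  push_cast
  ring

end Fermat.Agent.TriLow
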