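import Fermat.Agent.TwoComp.FixLift
import Fermat.Agent.TwoComp.Torus
import Fermat.Agent.TriLow.Rd

/-!
# Rational representatives of toric torsion classes (abstract form)

`G` acts on the function field `F` through semilinear automorphisms which act trivially on the two
reductions (inertia).  Every torsion class with given gluing data is represented by a `G`-fixed
function which is congruent to one on both components.
-/

set_option autoImplicit false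
set_option linter.unusedSectionVars false

open AlgebraicCurve WithZero Module Polynomial
open scoped IntermediateField
open Fermat.Agent.RR Fermat.Agent.Deuring Fermat.Agent.FF Fermat.Agent.TwoComp
open Fermat.Agent.TwoComp.Data

namespace Fermat.Agent.TriLow

variable {K Fm F k F' : Type*} [Field K] [Field Fm] [Algebra K Fm] [Field F]
    [Algebra K F] [Field k] [Field F'] [Algebra k F'] {q : ℕ}

section Fix

variable {G : Type*} [Group G] (gal : G →* SemilinearAut K F)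

/-- The fixed field. -/
def fixF : Subfield F where
  carrier := {f | ∀ σ, gal σ • f = f}
  mul_mem' {a b} ha hb σ := by rw [smul_mul', ha σ, hb σ]
  one_mem' σ := smul_one _
  add_mem' {a b} ha hb σ := by rw [smul_add, ha σ, hb σ]
  zero_mem' σ := smul_zero _
  neg_mem' {a} ha σ := by rw [smul_neg, ha σ]
  inv_mem' a ha σ := by rw [smul_inv'', ha σ]

variable {gal}

theorem mem_fixF {f : F} : f ∈ fixF gal ↔ ∀ σ, gal σ • f = f := Iff.rfl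

/-- the span of an orbit is stable -/
theorem smul_mem_span_orbit (f : F) {x : F}
    (hx : x ∈ Submodule.span K (Set.range fun σ => gal σ • f)) (τ : G) :
    gal τ • x ∈ Submodule.span K (Set.range fun σ => gal σ • f) := by
  induction hx using Submodule.span_induction with
  | mem y hy =>
    obtain ⟨σ, rfl⟩ := hy
    apply Submodule.subset_span
    refine ⟨τ * σ, ?_⟩
    change gal (τ * σ) • f = _
    rw [map_mul, mul_smul]
  | zero => rw [smul_zero]; exact Submodule.zero_mem _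
  | add y z _ _ hy hz => rw [smul_add]; exact Submodule.add_mem _ hy hz
  | smul c y _ hy =>
    rw [Algebra.smul_def, smul_mul', SemilinearAut.smul_algebraMap, ← Algebra.smul_def]
    exact Submodule.smul_mem _ _ hy

end Fix

/-- Inertia data: a group of semilinear automorphisms acting trivially on the reductions, with
discrete fixed field. -/
structure Inertia (D : Data K Fm F k F' q) {G : Type*} [Group G] (gal : G →* SemilinearAut K F)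
    where
  act : ∀ σ, D.Act (gal σ) id
  ϖ : K
  ϖ_ne_zero : ϖ ≠ 0
  ϖ_fix : algebraMap K F ϖ ∈ fixF gal
  ϖ_nonunit : ϖ ∈ D.G.A.nonunits
  res : ∀ c : k, ∃ a : D.G.A, algebraMap K F a ∈ fixF gal ∧ D.G.res a = c
  disc₁ : ∀ f : F, f ∈ fixF gal → Rd D.O₁ D.ρ₁ f 0 → algebraMap K F ϖ⁻¹ * f ∈ D.O₁
  disc₂ : ∀ f : F, f ∈ fixF gal → Rd D.O₂ D.ρ₂ f 0 → algebraMap K F ϖ⁻¹ * f ∈ D.O₂
  orb : ∀ f : F, (Set.range fun σ => gal σ • f).Finite
  basis : ∀ (V : Submodule K F) [FiniteDimensional K V], (∀ σ, ∀ f ∈ V, gal σ • f ∈ V) →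
    ∃ g₀ : Basis (Fin (finrank K V)) K V, ∀ i, ((g₀ i : V) : F) ∈ fixF gal

namespace Inertia

variable [IsFF K F] {D : Data K Fm F k F' q} {G : Type*} [Group G]
  {gal : G →* SemilinearAut K F} (I : Inertia D gal)

include I

/-- exchange of the components -/
def swap : Inertia D.swap gal where
  act σ := (I.act σ).swap
  ϖ := I.ϖ
  ϖ_ne_zero := I.ϖ_ne_zero
  ϖ_fix := I.ϖ_fix
  ϖ_nonunit := I.ϖ_nonunit
  res := I.res
  disc₁ := I.disc₂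
  disc₂ := I.disc₁
  orb := I.orb
  basis := I.basis

theorem ϖ_mem : I.ϖ ∈ D.G.A := D.G.A.nonunits_subset I.ϖ_nonunit

theorem ϖ_inv_notMem : I.ϖ⁻¹ ∉ D.G.A := by
  intro h
  have h1 := I.ϖ_nonunit
  rw [ValuationSubring.mem_nonunits_iff] at h1
  rw [← ValuationSubring.valuation_le_one_iff, map_inv₀] at h
  have h0 : D.G.A.valuation I.ϖ ≠ 0 := (Valuation.ne_zero_iff _).mpr I.ϖ_ne_zero
  have h2 := (inv_le_one₀ (zero_lt_iff.mpr h0)).mp h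
  exact absurd h1 (not_lt.mpr h2)

/-- the reduction ring data -/
def rat (arch : D.Arch) : D.R.RatData where
  F₀ := fixF gal
  ϖ := I.ϖ
  ϖ_ne_zero := I.ϖ_ne_zero
  ϖ_mem := I.ϖ_fix
  ϖ_nonunit := I.ϖ_nonunit
  arch := arch _ I.ϖ_nonunit
  res := I.res
  disc f hf h0 := ⟨I.disc₁ _ hf ⟨f.2.1, congrArg Prod.fst h0⟩,
    I.disc₂ _ hf ⟨f.2.2, congrArg Prod.snd h0⟩⟩

/-- lifting reductions in stable spaces -/
theorem exists_lift (hq : 0 < q) (arch : D.Arch) (V : Submodule K F) [FiniteDimensional K V]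
    (hV : ∀ σ, ∀ f ∈ V, gal σ • f ∈ V) {w : F' × F'} (hw : w ∈ D.R.red V) :
    ∃ f : D.R.O, (f : F) ∈ V ∧ (f : F) ∈ fixF gal ∧ D.R.ρ f = w := by
  obtain ⟨g₀, hg₀⟩ := I.basis V hV
  exact (I.rat arch).exists_fixed_lift (D.ortho hq) V g₀ hg₀ hw

/-- weak approximation by fixed functions -/
theorem exists_fixed (hq : 0 < q) (arch : D.Arch) (a b : F') :
    ∃ f : F, f ∈ fixF gal ∧ Rd D.O₁ D.ρ₁ f a ∧ Rd D.O₂ D.ρ₂ f b := by
  obtain ⟨f, h₁, h₂, rfl, rfl⟩ := D.surj a b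
  let V : Submodule K F := Submodule.span K (Set.range fun σ => gal σ • f)
  have : FiniteDimensional K V := FiniteDimensional.span_of_finite K (I.orb f)
  have hf : f ∈ V := Submodule.subset_span ⟨1, by simp⟩
  obtain ⟨g, -, hg, hgρ⟩ := I.exists_lift hq arch V (fun σ x hx => smul_mem_span_orbit f hx σ)
    (w := D.R.ρ ⟨f, h₁, h₂⟩) ⟨⟨f, h₁, h₂⟩, hf, rfl⟩
  exact ⟨g, hg, ⟨g.2.1, congrArg Prod.fst hgρ⟩, ⟨g.2.2, congrArg Prod.snd hgρ⟩⟩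

theorem ϖ_zpow_fix (a : ℤ) : algebraMap K F (I.ϖ ^ a) ∈ fixF gal := by
  rw [map_zpow₀]
  exact zpow_mem I.ϖ_fix a

/-- The value group of the fixed field. -/
theorem exists_zpow₁ (hq : 0 < q) (arch : D.Arch) {f : F} (hf : f ∈ fixF gal) (hf0 : f ≠ 0) :
    ∃ (a : ℤ) (b : F'), b ≠ 0 ∧ Rd D.O₁ D.ρ₁ (algebraMap K F (I.ϖ ^ a) * f) b := by
  classical
  obtain ⟨c, hc0, hc, hρ⟩ := exists_unit₁ (D := D) hq hf0
  have hcR : Rd D.O₁ D.ρ₁ (algebraMap K F c * f) (D.ρ₁ ⟨_, hc⟩) := Rd.of_mem hc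
  have hcF : algebraMap K F c ≠ 0 := (_root_.map_ne_zero _).mpr hc0
  have key : ∀ N : ℤ, algebraMap K F (I.ϖ ^ N) * f ∈ D.O₁ ↔ I.ϖ ^ N * c⁻¹ ∈ D.G.A := by
    intro N
    have e1 : algebraMap K F (I.ϖ ^ N) * f = algebraMap K F (I.ϖ ^ N * c⁻¹) *
        (algebraMap K F c * f) := by
      rw [map_mul, map_inv₀]
      field_simp
    constructor
    · intro h
      rw [← D.mem_O₁_iff]
      have e2 : algebraMap K F (I.ϖ ^ N * c⁻¹) = algebraMap K F (I.ϖ ^ N) * f *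
          (algebraMap K F c * f)⁻¹ := by
        rw [e1, mul_inv_cancel_right₀ (mul_ne_zero hcF hf0)]
      rw [e2]
      exact D.O₁.mul_mem _ _ h (hcR.inv D.ρ₁_eq_zero_iff hρ).mem
    · intro h
      rw [e1]
      exact D.O₁.mul_mem _ _ ((D.mem_O₁_iff _).mpr h) hc
  obtain ⟨N₀, hN₀⟩ := arch _ I.ϖ_nonunit c hc0
  obtain ⟨N₁, hN₁⟩ := arch _ I.ϖ_nonunit c⁻¹ (inv_ne_zero hc0)
  rw [div_inv_eq_mul] at hN₁
  rw [div_eq_mul_inv] at hN₀
  have hex : ∃ M : ℕ, algebraMap K F (I.ϖ ^ ((M : ℤ) - N₁ - 1)) * f ∈ D.O₁ := by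
    refine ⟨N₀ + N₁ + 1, ?_⟩
    rw [key]
    have : ((N₀ + N₁ + 1 : ℕ) : ℤ) - N₁ - 1 = N₀ := by push_cast; ring
    rw [this, zpow_natCast]
    exact hN₀
  have hM0 : Nat.find hex ≠ 0 := by
    intro h0
    have h1 := Nat.find_spec hex
    rw [h0, key] at h1
    apply I.ϖ_inv_notMem
    have h2 : I.ϖ⁻¹ = (I.ϖ ^ (((0 : ℕ) : ℤ) - N₁ - 1) * c⁻¹) * (I.ϖ ^ N₁ * c) := by
      have h3 : I.ϖ ^ (((0 : ℕ) : ℤ) - N₁ - 1) = I.ϖ⁻¹ * (I.ϖ ^ N₁)⁻¹ := by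
        rw [Nat.cast_zero, zero_sub, sub_eq_add_neg, zpow_add₀ I.ϖ_ne_zero, zpow_neg, zpow_natCast,
          zpow_neg, zpow_one, mul_comm]
      rw [h3]
      have := pow_ne_zero N₁ I.ϖ_ne_zero
      field_simp
    rw [h2]
    exact D.G.A.mul_mem _ _ h1 hN₁
  obtain ⟨M, hM⟩ := Nat.exists_eq_succ_of_ne_zero hM0
  have hspec := Nat.find_spec hex
  refine ⟨_, _, ?_, Rd.of_mem hspec⟩
  intro h0
  have h1 : Rd D.O₁ D.ρ₁ (algebraMap K F (I.ϖ ^ (((Nat.find hex : ℕ) : ℤ) - N₁ - 1)) * f) 0 :=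
    ⟨hspec, h0⟩
  have h2 := I.disc₁ _ (mul_mem (I.ϖ_zpow_fix _) hf) h1
  refine Nat.find_min hex (m := M) (by omega) ?_
  have h3 : algebraMap K F (I.ϖ ^ ((M : ℤ) - N₁ - 1)) * f = algebraMap K F I.ϖ⁻¹ *
      (algebraMap K F (I.ϖ ^ (((Nat.find hex : ℕ) : ℤ) - N₁ - 1)) * f) := by
    rw [← mul_assoc, ← map_mul, hM]
    have h4 : ((M.succ : ℕ) : ℤ) - N₁ - 1 = 1 + ((M : ℤ) - N₁ - 1) := by push_cast; ring
    rw [h4, zpow_add₀ I.ϖ_ne_zero, zpow_one, ← mul_assoc, inv_mul_cancel₀ I.ϖ_ne_zero, one_mul]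
  rw [h3]
  exact h2

theorem exists_zpow₂ (hq : 0 < q) (arch : D.Arch) {f : F} (hf : f ∈ fixF gal) (hf0 : f ≠ 0) :
    ∃ (a : ℤ) (b : F'), b ≠ 0 ∧ Rd D.O₂ D.ρ₂ (algebraMap K F (I.ϖ ^ a) * f) b :=
  I.swap.exists_zpow₁ hq arch hf hf0

/-- A power of `ϖ` which is a unit is trivial. -/
theorem zpow_eq_zero {a : ℤ} {b : F'} (hb : b ≠ 0)
    (h : Rd D.O₁ D.ρ₁ (algebraMap K F (I.ϖ ^ a)) b) : a = 0 := by
  have h2 := (h.inv D.ρ₁_eq_zero_iff hb).mem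
  rw [← map_inv₀, D.mem_O₁_iff] at h2
  have h1 := (D.mem_O₁_iff _).mp h.mem
  rcases lt_trichotomy a 0 with ha | ha | ha
  · exfalso
    apply I.ϖ_inv_notMem
    obtain ⟨m, hm⟩ : ∃ m : ℕ, a = -(m : ℤ) - 1 := ⟨(-a - 1).toNat, by omega⟩
    have e : I.ϖ⁻¹ = I.ϖ ^ m * I.ϖ ^ a := by
      rw [hm, ← zpow_natCast, ← zpow_add₀ I.ϖ_ne_zero,
        show (m : ℤ) + (-(m : ℤ) - 1) = -1 by ring, zpow_neg, zpow_one]
    rw [e]
    exact D.G.A.mul_mem _ _ (pow_mem I.ϖ_mem m) h1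
  · exact ha
  · exfalso
    apply I.ϖ_inv_notMem
    obtain ⟨m, hm⟩ : ∃ m : ℕ, a = (m : ℤ) + 1 := ⟨(a - 1).toNat, by omega⟩
    have e : I.ϖ⁻¹ = I.ϖ ^ m * (I.ϖ ^ a)⁻¹ := by
      rw [hm, ← zpow_natCast, ← zpow_neg, ← zpow_add₀ I.ϖ_ne_zero,
        show (m : ℤ) + -((m : ℤ) + 1) = -1 by ring, zpow_neg, zpow_one]
    rw [e]
    exact D.G.A.mul_mem _ _ (pow_mem I.ϖ_mem m) h2

/-- A fixed function with valuations `0` and `v(ϖ)`. -/
theorem exists_w₀ (hq : 0 < q) (arch : D.Arch) :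
    ∃ w : F, w ∈ fixF gal ∧ Rd D.O₁ D.ρ₁ w 1 ∧ Rd D.O₂ D.ρ₂ (algebraMap K F I.ϖ⁻¹ * w) 1 := by
  obtain ⟨e₁, he₁, a₁, b₁⟩ := I.exists_fixed hq arch 1 0
  obtain ⟨e₂, he₂, a₂, b₂⟩ := I.exists_fixed hq arch 0 1
  have hϖ₁ : Rd D.O₁ D.ρ₁ (algebraMap K F I.ϖ) 0 := by
    refine ⟨(D.mem_O₁_iff _).mpr I.ϖ_mem, ?_⟩
    have h := D.ρ₁_algebraMap ⟨I.ϖ, I.ϖ_mem⟩
    rw [(D.G.res_eq_zero_iff ⟨I.ϖ, I.ϖ_mem⟩).mpr I.ϖ_nonunit, map_zero] at h
    exact h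
  have hϖ₂ : Rd D.O₂ D.ρ₂ (algebraMap K F I.ϖ) 0 := by
    refine ⟨(D.mem_O₂_iff _).mpr I.ϖ_mem, ?_⟩
    have h := D.ρ₂_algebraMap ⟨I.ϖ, I.ϖ_mem⟩
    rw [(D.G.res_eq_zero_iff ⟨I.ϖ, I.ϖ_mem⟩).mpr I.ϖ_nonunit, map_zero] at h
    exact h
  have hm := I.disc₂ e₁ he₁ b₁
  have hϖF : algebraMap K F I.ϖ ≠ 0 := (_root_.map_ne_zero _).mpr I.ϖ_ne_zero
  refine ⟨e₁ ^ 2 + algebraMap K F I.ϖ * e₂, ?_, ?_, ?_⟩
  · exact add_mem (pow_mem he₁ 2) (mul_mem I.ϖ_fix he₂)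
  · have h := (a₁.pow 2).add (hϖ₁.mul a₂)
    simpa using h
  · have e : algebraMap K F I.ϖ⁻¹ * (e₁ ^ 2 + algebraMap K F I.ϖ * e₂) =
        algebraMap K F I.ϖ * (algebraMap K F I.ϖ⁻¹ * e₁) ^ 2 + e₂ := by
      rw [map_inv₀]
      field_simp
    rw [e]
    have h := (hϖ₂.mul ((Rd.of_mem hm).pow 2)).add b₂
    simpa using h

theorem exists_w (hq : 0 < q) (arch : D.Arch) (a : ℤ) :
    ∃ w : F, w ∈ fixF gal ∧ Rd D.O₁ D.ρ₁ w 1 ∧
      Rd D.O₂ D.ρ₂ (algebraMap K F (I.ϖ ^ (-a)) * w) 1 := by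
  obtain ⟨w, hw, h₁, h₂⟩ := I.exists_w₀ hq arch
  refine ⟨w ^ a, zpow_mem hw a, ?_, ?_⟩
  · have h := h₁.zpow D.ρ₁_eq_zero_iff one_ne_zero a
    rwa [one_zpow] at h
  · have h := h₂.zpow D.ρ₂_eq_zero_iff one_ne_zero a
    rw [one_zpow, mul_zpow, map_inv₀, inv_zpow, ← zpow_neg, ← map_zpow₀] at h
    exact h

end Inertia

end Fermat.Agent.TriLow
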